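import Fermat.Agent.Newforms.Depletion
import Fermat.Agent.Eigen.Bound

/-!
Strong multiplicity one: newforms whose prime coefficients agree almost everywhere have the same
level and coincide.
-/

set_option autoImplicit false

noncomputable section

namespace Fermat.Agent.Newforms

open ModularFormClass

/-- Agreement at almost all primes gives agreement at all indices prime to both levels. -/
theorem qCoeff_eq_coprime_of_almost_all {N N' : ℕ} [NeZero N] [NeZero N'] {f : S2 N} {g : S2 N'}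
    (hf : f.IsNormalizedEigenform) (hg : g.IsNormalizedEigenform) (S : Finset ℕ)
    (heq : ∀ l : ℕ, l.Prime → l ∉ S → qCoeff f l = qCoeff g l)
    (n : ℕ) (hn : n.Coprime (N * N')) : qCoeff f n = qCoeff g n := by
  have : NeZero (N * N') := ⟨mul_ne_zero (NeZero.ne N) (NeZero.ne N')⟩
  have h := qCoeff_eq_zero_of_eigen_of_one S (fun l => qCoeff g l)
    (raiseLin (dvd_mul_right N N') f - raiseLin (dvd_mul_left N' N) g)
    (by rw [qCoeff_sub, coe_raiseLin, coe_raiseLin, hf.qCoeff_one, hg.qCoeff_one, sub_self])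
    (fun l hl hlN hlS => by
      rw [map_sub, heckeTLin_raiseLin, heckeTLin_raiseLin,
        heckeTLin_apply_of_isNormalizedEigenform hf hl, heckeTLin_apply_of_isNormalizedEigenform hg hl,
        map_smul, map_smul, heq l hl hlS, smul_sub]) n hn
  rwa [qCoeff_sub, coe_raiseLin, coe_raiseLin, sub_eq_zero] at h

theorem exists_degen_of_supported {R K p : ℕ} [NeZero K] (hp : p.Prime) (hK : R * p = K) (h : S2 K)
    (hh : ∀ n, ¬ p ∣ n → qCoeff h n = 0) : ∃ B : S2 R, degen p hK.dvd B = h := by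
  have hD : ∀ q ∈ ({p} : Finset ℕ), q.Prime ∧ q ∣ K := fun q hq => by
    rw [Finset.mem_singleton] at hq
    subst hq
    exact ⟨hp, Dvd.intro_left R hK⟩
  have hmem := main_lemma {p} hD h fun n hn => hh n (hn p (Finset.mem_singleton_self p))
  have hle : ({p} : Finset ℕ).attach.sup (fun q => oldAt K q.1 (hD q.1 q.2).2) ≤
      oldAt K p (Dvd.intro_left R hK) := Finset.sup_le fun q _ => by
    obtain ⟨q, hq⟩ := q
    rw [Finset.mem_singleton] at hq
    subst hq
    exact le_rfl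
  obtain rfl : R = K / p := by rw [← hK, Nat.mul_div_cancel _ hp.pos]
  exact hle hmem

/-- An eigensystem unramified at `p` is not that of a form with `a_p = ±1` of level exactly divisible
by `p`. -/
theorem false_of_sieved_unramified {M M' R K p : ℕ} [NeZero M] [NeZero R] [NeZero K]
    {g : S2 M} {g' : S2 M'} (hg : g.IsNormalizedEigenform) (hg' : g'.IsNormalizedEigenform)
    (hp : p.Prime) (hpM : ¬ p ∣ M) (hpM' : p ∣ M') (hsq : qCoeff g' p ^ 2 = 1)
    (hpR : ¬ p ∣ R) (hK : R * p = K) (F : S2 R) (F' : S2 K)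
    (D : Finset ℕ) (hD : ∀ q ∈ D, q.Prime ∧ q ≠ p)
    (hF : ∀ n, qCoeff F n = if ∀ q ∈ D, ¬ q ∣ n then qCoeff g n else 0)
    (hF' : ∀ n, qCoeff F' n = if ∀ q ∈ D, ¬ q ∣ n then qCoeff g' n else 0)
    (heq : ∀ n, ¬ p ∣ n → (∀ q ∈ D, ¬ q ∣ n) → qCoeff g n = qCoeff g' n) : False := by
  set c := qCoeff g p with hc
  set a := qCoeff g' p with ha
  obtain ⟨B, hB⟩ := exists_degen_of_supported hp hK (F' - raiseLin ⟨p, hK.symm⟩ F) (fun n hn => by
    rw [qCoeff_sub, coe_raiseLin, hF, hF']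
    split_ifs with h
    · rw [heq n hn h, sub_self]
    · rw [sub_self])
  have hBc : ∀ m, qCoeff B m = qCoeff F' (p * m) - qCoeff F (p * m) := by
    intro m
    have h := congrArg (fun x : S2 K => qCoeff x (p * m)) hB
    simpa only [qCoeff_degen, dvd_mul_right, if_true, Nat.mul_div_cancel_left _ hp.pos, qCoeff_sub,
      coe_raiseLin] using h
  have hpD : ∀ m, (∀ q ∈ D, ¬ q ∣ p * m) ↔ ∀ q ∈ D, ¬ q ∣ m := fun m =>
    ⟨fun h q hq hm => h q hq (hm.mul_left p), fun h q hq hm =>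
      ((hD q hq).1.dvd_mul.1 hm).elim
        (fun e => (hD q hq).2 ((Nat.prime_dvd_prime_iff_eq (hD q hq).1 hp).1 e)) (h q hq)⟩
  have hz : B - (a - c) • F = 0 := eq_zero_of_supported hp hpR _ fun m hm => by
    rw [qCoeff_sub, qCoeff_smul, hBc, hF, hF', hF]
    simp only [hpD]
    split_ifs with h
    · rw [hg'.qCoeff_mul_of_coprime _ _ (hp.coprime_iff_not_dvd.2 hm),
        hg.qCoeff_mul_of_coprime _ _ (hp.coprime_iff_not_dvd.2 hm), heq m hm h]
      ring
    · ring
  have h := congrArg (fun x : S2 R => qCoeff x p) (sub_eq_zero.1 hz)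
  simp only [qCoeff_smul, hBc, hF, hF'] at h
  have h1 : ∀ q ∈ D, ¬ q ∣ p := fun q hq e =>
    (hD q hq).2 ((Nat.prime_dvd_prime_iff_eq (hD q hq).1 hp).1 e)
  have h2 : ∀ q ∈ D, ¬ q ∣ p * p := (hpD p).2 h1
  rw [if_pos h2, if_pos h2, if_pos h1, show p * p = p ^ (0 + 2) by ring,
    hg'.qCoeff_prime_pow_of_dvd p 0 hp hpM', hg.qCoeff_prime_pow_of_not_dvd p 0 hp hpM] at h
  simp only [zero_add, pow_one, pow_zero, hg.qCoeff_one, mul_one, ← hc, ← ha] at h
  have hca : c = a * ((p : ℂ) + 1) := by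
    have h3 : (p : ℂ) + 1 = a * c := by linear_combination h + (-1 : ℂ) * hsq
    linear_combination (-a) * h3 + (-c) * hsq
  have hna : ‖a‖ = 1 := by
    have := congrArg norm hsq
    rw [norm_pow, norm_one] at this
    exact (pow_eq_one_iff_of_nonneg (norm_nonneg _) two_ne_zero).1 this
  have hlt := Eigen.norm_qCoeff_lt hg hp hpM
  rw [← hc, hca, norm_mul, hna, one_mul, show (p : ℂ) + 1 = ((p + 1 : ℕ) : ℂ) by push_cast; rfl,
    Complex.norm_natCast] at hlt
  push_cast at hlt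
  exact lt_irrefl _ hlt

/-- The exponents of the levels agree. -/
theorem not_factorization_lt {M M' : ℕ} [NeZero M] [NeZero M'] {g : S2 M} {g' : S2 M'}
    (hg : g.IsNewform) (hg' : g'.IsNewform) (S : Finset ℕ)
    (heq : ∀ l : ℕ, l.Prime → l ∉ S → qCoeff g l = qCoeff g' l) {p : ℕ} (hp : p.Prime) :
    ¬ M.factorization p < M'.factorization p := by
  intro hlt
  have : NeZero p := ⟨hp.ne_zero⟩
  have hpM' : p ∣ M' := Nat.dvd_of_factorization_pos (by omega)
  set y' := M' / p with hy'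
  have hyp : y' * p = M' := Nat.div_mul_cancel hpM'
  have hy0 : y' ≠ 0 := fun h => NeZero.ne M' (by rw [← hyp, h, zero_mul])
  have hvy : y'.factorization p = M'.factorization p - 1 := by
    rw [hy', Nat.factorization_div hpM', Finsupp.tsub_apply, hp.factorization_self]
  set R0 := Nat.lcm M y' with hR0
  have hR00 : R0 ≠ 0 := Nat.lcm_ne_zero (NeZero.ne M) hy0
  have hvR : R0.factorization p = M'.factorization p - 1 := by
    rw [hR0, Nat.factorization_lcm (NeZero.ne M) hy0, Finsupp.sup_apply, hvy]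
    exact sup_eq_right.2 (by omega)
  obtain ⟨u, hu⟩ : y' ∣ R0 := Nat.dvd_lcm_right M y'
  have hu0 : u ≠ 0 := fun h => hR00 (by rw [hu, h, mul_zero])
  have hpu : ¬ p ∣ u := by
    intro h
    have h1 := hvR
    rw [hu, Nat.factorization_mul hy0 hu0, Finsupp.add_apply, hvy] at h1
    have := hp.factorization_pos_of_dvd hu0 h
    omega
  set D := (M * M').primeFactors.erase p with hD
  have hDp : ∀ q ∈ D, q.Prime ∧ q ≠ p := fun q hq =>
    ⟨Nat.prime_of_mem_primeFactors (Finset.mem_of_mem_erase hq), Finset.ne_of_mem_erase hq⟩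
  have hMM : M * M' ≠ 0 := mul_ne_zero (NeZero.ne M) (NeZero.ne M')
  have heqn : ∀ n, ¬ p ∣ n → (∀ q ∈ D, ¬ q ∣ n) → qCoeff g n = qCoeff g' n := by
    intro n hn hnD
    rcases Nat.eq_zero_or_pos n with rfl | hn0
    · exact absurd (dvd_zero p) hn
    refine qCoeff_eq_coprime_of_almost_all hg.1 hg'.1 S heq n (Nat.coprime_of_dvd fun q hq h1 h2 => ?_)
    by_cases hqp : q = p
    · exact hn (hqp ▸ h1)
    · exact hnD q (Finset.mem_erase.2 ⟨hqp, Nat.mem_primeFactors.2 ⟨hq, h2, hMM⟩⟩) h1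
  set P := D.prod id with hP
  have hP0 : P ≠ 0 := Finset.prod_ne_zero_iff.2 fun q hq => (hDp q hq).1.ne_zero
  have hpP : ¬ p ∣ P := fun h => by
    obtain ⟨q, hq, hpq⟩ := hp.prime.exists_mem_finset_dvd h
    exact (hDp q hq).2 ((Nat.prime_dvd_prime_iff_eq hp (hDp q hq).1).1 hpq).symm
  set R := R0 * P ^ 2 with hR
  have : NeZero R0 := ⟨hR00⟩
  have : NeZero (R0 * p) := ⟨mul_ne_zero hR00 hp.ne_zero⟩
  have : NeZero R := ⟨mul_ne_zero hR00 (pow_ne_zero 2 hP0)⟩
  have : NeZero (R0 * p * P ^ 2) := ⟨mul_ne_zero (NeZero.ne _) (pow_ne_zero 2 hP0)⟩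
  have hK : R * p = R0 * p * P ^ 2 := by rw [hR]; ring
  have hM'R : M' ∣ R0 * p := by rw [← hyp]; exact mul_dvd_mul_right ⟨u, hu⟩ p
  obtain ⟨F, hF, -⟩ := exists_sieve D (fun q hq => (hDp q hq).1) R0
    (raiseLin (Nat.dvd_lcm_left M y') g)
  obtain ⟨F', hF', hFt⟩ := exists_sieve D (fun q hq => (hDp q hq).1) (R0 * p) (raiseLin hM'R g')
  simp only [coe_raiseLin] at hF hF'
  have hvp : ∀ k, p ^ k ∣ R0 ↔ k ≤ M'.factorization p - 1 := fun k => by
    rw [hp.pow_dvd_iff_le_factorization hR00, hvR]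
  have hRdvd : ∀ k, p ^ k ∣ R → p ^ k ∣ R0 := fun k h =>
    (Nat.Coprime.pow k 2 (hp.coprime_iff_not_dvd.2 hpP)).dvd_of_dvd_mul_right h
  by_cases he : M'.factorization p = 1
  · refine false_of_sieved_unramified (R := R) (K := R0 * p * P ^ 2) hg.1 hg'.1 hp ?_ hpM'
      (qCoeff_sq_eq_one hg' hp hpM' ?_) ?_ hK F F' D hDp hF hF' heqn
    · exact fun h => absurd (hp.factorization_pos_of_dvd (NeZero.ne M) h) (by omega)
    · rw [hp.pow_dvd_iff_le_factorization (NeZero.ne M')]
      omega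
    · exact fun h => absurd ((hvp 1).1 (hRdvd 1 (by simpa using h))) (by omega)
  have hp2M' : p ^ 2 ∣ M' := by
    rw [hp.pow_dvd_iff_le_factorization (NeZero.ne M')]
    omega
  have ha : qCoeff g' p = 0 := qCoeff_eq_zero hg' hp hpM' hp2M'
  have hpy : p ∣ y' := Nat.dvd_of_mul_dvd_mul_right hp.pos (by rwa [hyp, ← sq])
  have htr : lowTrace R0 p ⇑(raiseLin hM'R g') = 0 := by
    rw [coe_raiseLin, hu, lowTrace_mul hp hyp g' hpu]
    exact lowTrace_eq_zero_of_isNewformAt hp hpy hyp (hg'.isNewformAt hp hpM' (NeZero.ne M'))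
  have hpR0 : p ∣ R0 := hpy.trans ⟨u, hu⟩
  have hpDn : p ∉ D := fun h => (hDp p h).2 rfl
  have htr' := hFt p R0 hp hpDn hpR0 rfl htr
  have hc : ∀ n, qCoeff F' n = if p ∣ n then 0 else qCoeff F n := by
    intro n
    rw [hF', hF]
    by_cases hn : p ∣ n
    · rw [if_pos hn]
      split_ifs with hnD
      · rcases Nat.eq_zero_or_pos n with rfl | hn0
        · exact qCoeff_cusp_zero g'
        obtain ⟨r, m, hm, rfl⟩ := Nat.exists_eq_pow_mul_and_not_dvd hn0.ne' p hp.ne_one
        rw [hg'.1.qCoeff_mul_of_coprime _ _ ((hp.coprime_iff_not_dvd.2 hm).pow_left r)]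
        rcases r with _ | _ | r
        · exact absurd (by simpa using hn) hm
        · rw [show p ^ (0 + 1) = p from pow_one p, ha, zero_mul]
        · rw [hg'.1.qCoeff_prime_pow_of_dvd p r hp hpM', ha, zero_mul, zero_mul]
      · rfl
    · rw [if_neg hn]
      split_ifs with hnD
      · exact (heqn n hn hnD).symm
      · rfl
  have h1 : qCoeff F 1 = 1 := by
    rw [hF, if_pos (fun q hq => (hDp q hq).1.not_dvd_one), hg.1.qCoeff_one]
  refine one_ne_zero (α := ℂ) (h1.symm.trans ?_)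
  by_cases he2 : p ^ 2 ∣ R
  · exact qCoeff_one_eq_zero_of_depleted_sq hp hK he2 F F' hc htr'
  · exact qCoeff_one_eq_zero_of_depleted hp hK (hpR0.mul_right _) he2 F F' hc htr'

/-- Strong multiplicity one: two newforms with almost all prime coefficients equal have the same
level. -/
theorem level_eq_of_isNewform {M M' : ℕ} [NeZero M] [NeZero M'] {g : S2 M} {g' : S2 M'}
    (hg : g.IsNewform) (hg' : g'.IsNewform) (S : Finset ℕ)
    (heq : ∀ l : ℕ, l.Prime → l ∉ S → qCoeff g l = qCoeff g' l) : M = M' := by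
  refine Nat.eq_of_factorization_eq (NeZero.ne M) (NeZero.ne M') fun p => ?_
  by_cases hp : p.Prime
  · exact le_antisymm
      (not_lt.1 (not_factorization_lt hg' hg S (fun l hl hlS => (heq l hl hlS).symm) hp))
      (not_lt.1 (not_factorization_lt hg hg' S heq hp))
  · simp [Nat.factorization_eq_zero_of_not_prime, hp]

/-- Strong multiplicity one: two newforms with almost all prime coefficients equal have equal
coefficients. -/
theorem qCoeff_eq_of_isNewform' {M M' : ℕ} [NeZero M] [NeZero M'] {g : S2 M} {g' : S2 M'}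
    (hg : g.IsNewform) (hg' : g'.IsNewform) (S : Finset ℕ)
    (heq : ∀ l : ℕ, l.Prime → l ∉ S → qCoeff g l = qCoeff g' l) (n : ℕ) :
    qCoeff g n = qCoeff g' n := by
  obtain rfl := level_eq_of_isNewform hg hg' S heq
  rw [qCoeff_eq_of_isNewform hg hg' S fun l hl _ hlS => heq l hl hlS]

/-- The system of a newform of level `M` only occurs at multiples of `M`. -/
theorem dvd_of_isNewform_of_eigenform {M N : ℕ} [NeZero M] [NeZero N] {g : S2 M} (hg : g.IsNewform)
    {f : S2 N} (hf : f.IsNormalizedEigenform) (S : Finset ℕ)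
    (heq : ∀ l : ℕ, l.Prime → l ∉ S → qCoeff f l = qCoeff g l) : M ∣ N := by
  obtain ⟨M', hM', hdvd, g', hg', he⟩ := exists_newform hf
  have : NeZero M' := ⟨hM'.ne'⟩
  obtain rfl : M = M' := level_eq_of_isNewform hg hg' (S ∪ N.primeFactors) fun l hl hlS => by
    simp only [Finset.mem_union, not_or] at hlS
    rw [he l hl fun d => hlS.2 (Nat.mem_primeFactors.2 ⟨hl, d, NeZero.ne N⟩), heq l hl hlS.1]
  exact hdvd

/-- The system of a newform of level `M` has no nonzero eigenvector at a level not divisible by `M`. -/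
theorem eq_zero_of_not_dvd {M N : ℕ} [NeZero M] [NeZero N] {g : S2 M} (hg : g.IsNewform)
    (hMN : ¬ M ∣ N) (S : Finset ℕ) (h : S2 N)
    (heig : ∀ (l : ℕ) (hl : l.Prime) (hlN : ¬ l ∣ N), l ∉ S →
      CuspForm.heckeTLin 2 hl hlN h = qCoeff g l • h) : h = 0 := by
  by_contra h0
  obtain ⟨f, hf, hfl⟩ :=
    exists_isNormalizedEigenform_of_eigenvector (↑S : Set ℕ) (fun l => qCoeff g l) h h0 heig
  refine hMN (dvd_of_isNewform_of_eigenform hg hf (S ∪ N.primeFactors) fun l hl hlS => ?_)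
  simp only [Finset.mem_union, not_or] at hlS
  exact hfl l hl (fun d => hlS.2 (Nat.mem_primeFactors.2 ⟨hl, d, NeZero.ne N⟩)) hlS.1

end Fermat.Agent.Newforms
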