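import Mathlib

/-!
Common eigenvectors of commuting families of endomorphisms, and lifting of eigensystems along
equivariant maps (no semisimplicity).
-/

set_option autoImplicit false

namespace Fermat.Agent.Newforms

open Module

section

variable {ι : Type*} {X Y : Type*} [AddCommGroup X] [Module ℂ X] [AddCommGroup Y] [Module ℂ Y]

theorem exists_common_eigenvector [FiniteDimensional ℂ X] (T : ι → Module.End ℂ X)
    (hcomm : ∀ i j, Commute (T i) (T j)) (W : Submodule ℂ X)
    (hinv : ∀ i, ∀ x ∈ W, T i x ∈ W) (hne : W ≠ ⊥) :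
    ∃ x ∈ W, x ≠ 0 ∧ ∀ i, ∃ c : ℂ, T i x = c • x := by
  induction W using WellFoundedLT.induction with
  | ind W ih =>
    by_cases hsc : ∀ i, ∃ c : ℂ, ∀ x ∈ W, T i x = c • x
    · obtain ⟨x, hx, hx0⟩ := W.exists_mem_ne_zero_of_ne_bot hne
      exact ⟨x, hx, hx0, fun i => ⟨_, (hsc i).choose_spec x hx⟩⟩
    push Not at hsc
    obtain ⟨i, hi⟩ := hsc
    have : Nontrivial W := Submodule.nontrivial_iff_ne_bot.2 hne
    obtain ⟨c, hc⟩ := Module.End.exists_eigenvalue (LinearMap.restrict (T i) (hinv i))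
    obtain ⟨v, hv, hv0⟩ := hc.exists_hasEigenvector
    rw [Module.End.mem_genEigenspace_one] at hv
    let W' := W ⊓ Module.End.eigenspace (T i) c
    have hlt : W' < W := by
      refine lt_of_le_of_ne inf_le_left fun h => ?_
      obtain ⟨x, hx, hxc⟩ := hi c
      exact hxc (Module.End.mem_eigenspace_iff.1 (h.ge hx).2)
    have hvW : (v : X) ∈ W' := ⟨v.2, Module.End.mem_eigenspace_iff.2 (congrArg Subtype.val hv)⟩
    have hinv' : ∀ j, ∀ x ∈ W', T j x ∈ W' := by
      intro j x hx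
      refine ⟨hinv j x hx.1, ?_⟩
      rw [SetLike.mem_coe, Module.End.mem_eigenspace_iff]
      have h2 : T i x = c • x := Module.End.mem_eigenspace_iff.1 hx.2
      change (T i * T j) x = _
      rw [(hcomm i j).eq, Module.End.mul_apply, h2, map_smul]
    obtain ⟨x, hx, h⟩ := ih W' hlt hinv'
      (Submodule.ne_bot_iff _ |>.2 ⟨v, hvW, fun h => hv0 (Subtype.ext h)⟩)
    exact ⟨x, hx.1, h⟩

theorem pow_apply_eq_zero_of_finrank_le {Z : Type*} [AddCommGroup Z] [Module ℂ Z]
    [FiniteDimensional ℂ Z] (A : Module.End ℂ Z) {a b : ℕ} (hb : finrank ℂ Z ≤ b) {z : Z}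
    (h : (A ^ a) z = 0) : (A ^ b) z = 0 := by
  have h1 : z ∈ A.genEigenspace 0 (a : ℕ∞) := by
    simpa [Module.End.mem_genEigenspace_nat] using h
  have h2 := (A.genEigenspace 0).monotone (show (finrank ℂ Z : ℕ∞) ≤ (b : ℕ∞) by exact_mod_cast hb)
    (Module.End.genEigenspace_le_genEigenspace_finrank A 0 _ h1)
  simpa [Module.End.mem_genEigenspace_nat] using h2

theorem exists_eigenvector_of_map [FiniteDimensional ℂ X] [FiniteDimensional ℂ Y]
    (T : ι → Module.End ℂ X) (T' : ι → Module.End ℂ Y) (hcomm : ∀ i j, Commute (T i) (T j))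
    (Φ : X →ₗ[ℂ] Y) (hΦ : ∀ i x, Φ (T i x) = T' i (Φ x))
    (lam : ι → ℂ) (x₀ : X) (h0 : Φ x₀ ≠ 0) (heig : ∀ i, T' i (Φ x₀) = lam i • Φ x₀) :
    ∃ x : X, x ≠ 0 ∧ ∀ i, T i x = lam i • x := by
  let P : Submodule ℂ X → Prop := fun W =>
    (∀ i, ∀ x ∈ W, T i x ∈ W) ∧ Φ x₀ ∈ W.map Φ
  obtain ⟨W, hW, hmin⟩ := (wellFounded_lt (α := Submodule ℂ X)).has_min {W | P W}
    ⟨⊤, fun _ _ _ => trivial, Submodule.mem_map_of_mem trivial⟩
  set n := finrank ℂ X + finrank ℂ Y with hn
  have hnil : ∀ i, ∀ x ∈ W, ((T i - algebraMap ℂ _ (lam i)) ^ n) x = 0 := by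
    intro i
    set A := T i - algebraMap ℂ _ (lam i) with hA
    set B := T' i - algebraMap ℂ _ (lam i) with hB
    have hAW : ∀ x ∈ W, A x ∈ W := fun x hx => by
      simpa [hA] using W.sub_mem (hW.1 i x hx) (W.smul_mem _ hx)
    have hΦA : ∀ (m : ℕ) x, Φ ((A ^ m) x) = (B ^ m) (Φ x) := by
      intro m
      induction m with
      | zero => simp
      | succ m ihm =>
        intro x
        rw [pow_succ', pow_succ', Module.End.mul_apply, Module.End.mul_apply, ← ihm]
        simp [hA, hB, hΦ]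
    let Wr := W ⊓ LinearMap.ker (A ^ n)
    have hWr : P Wr := by
      refine ⟨fun j x hx => ⟨hW.1 j x hx.1, ?_⟩, ?_⟩
      · have hc : Commute (T j) (A ^ n) :=
          (Commute.sub_right (hcomm j i) (Algebra.commute_algebraMap_right _ _)).pow_right n
        have hx' : (A ^ n) x = 0 := hx.2
        change (A ^ n * T j) x = 0
        rw [← hc.eq, Module.End.mul_apply, hx', map_zero]
      · obtain ⟨w, hw, hwx⟩ := hW.2
        set A' : Module.End ℂ W := LinearMap.restrict A hAW with hA'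
        have hpow : ∀ (m : ℕ) (z : W), ((A' ^ m) z : X) = (A ^ m) z := by
          intro m z
          rw [hA', Module.End.pow_restrict]
          rfl
        obtain ⟨m, hm, hmn⟩ : ∃ m, n ≤ m ∧ Codisjoint (LinearMap.ker (A' ^ m))
            (LinearMap.range (A' ^ m)) := by
          obtain ⟨N0, hN0⟩ := Filter.eventually_atTop.1 A'.eventually_codisjoint_ker_pow_range_pow
          exact ⟨max n N0, le_max_left _ _, hN0 _ (le_max_right _ _)⟩
        obtain ⟨k, hk, r, ⟨z, hz⟩, hkr⟩ :=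
          Submodule.mem_sup.1 (hmn.eq_top.ge (Submodule.mem_top (x := (⟨w, hw⟩ : W))))
        have hk0 : (A ^ m) (k : X) = 0 := by
          rw [← hpow, show (A' ^ m) k = 0 from hk, ZeroMemClass.coe_zero]
        have hkn : (A ^ n) (k : X) = 0 :=
          pow_apply_eq_zero_of_finrank_le A (by omega) hk0
        have hy : B (Φ x₀) = 0 := by simp [hB, heig i]
        have hky : Φ (w : X) = Φ (k : X) + Φ (r : X) := by
          rw [← map_add, ← Submodule.coe_add, hkr]
        have hr : Φ (r : X) = (B ^ m) (Φ z) := by rw [← hΦA, ← hpow, hz]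
        have hm0 : m ≠ 0 := by
          have : 0 < finrank ℂ Y := finrank_pos_iff_exists_ne_zero.2 ⟨_, h0⟩
          omega
        have hrn : (B ^ (m + m)) (Φ z) = 0 := by
          rw [pow_add, Module.End.mul_apply, ← hr,
            show Φ (r : X) = Φ x₀ - Φ (k : X) by rw [← hwx, hky]; abel, map_sub,
            ← hΦA m (k : X), hk0, map_zero, sub_zero]
          obtain ⟨m', rfl⟩ := Nat.exists_eq_succ_of_ne_zero hm0
          rw [pow_succ, Module.End.mul_apply, hy, map_zero]
        have hr0 : Φ (r : X) = 0 := by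
          rw [hr]
          exact pow_apply_eq_zero_of_finrank_le B (by omega) hrn
        exact ⟨k, ⟨k.2, hkn⟩, by rw [← hwx, hky, hr0, add_zero]⟩
    have hWeq : Wr = W := (inf_le_left.lt_or_eq).resolve_left (hmin Wr hWr)
    intro x hx
    exact (hWeq.ge hx).2
  have hne : W ≠ ⊥ := by
    rintro rfl
    simp [P] at hW
    exact h0 hW.symm
  obtain ⟨x, hx, hx0, hxT⟩ := exists_common_eigenvector T hcomm W hW.1 hne
  refine ⟨x, hx0, fun i => ?_⟩
  obtain ⟨c, hc⟩ := hxT i
  have key : ∀ m : ℕ, ((T i - algebraMap ℂ _ (lam i)) ^ m) x = (c - lam i) ^ m • x := by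
    intro m
    induction m with
    | zero => simp
    | succ m ihm =>
      rw [pow_succ', Module.End.mul_apply, ihm, map_smul, LinearMap.sub_apply, hc,
        Module.algebraMap_end_apply, ← sub_smul, smul_smul, pow_succ]
  have h1 := (key n).symm.trans (hnil i x hx)
  rcases smul_eq_zero.1 h1 with h | h
  · rw [hc, sub_eq_zero.1 (eq_zero_of_pow_eq_zero h)]
  · exact absurd h hx0

/-- An eigensystem in a sum of two stable subspaces occurs in one of them. -/
theorem exists_eigenvector_of_mem_sup [FiniteDimensional ℂ Y] (T : ι → Module.End ℂ Y)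
    (hcomm : ∀ i j, Commute (T i) (T j)) (A B : Submodule ℂ Y)
    (hA : ∀ i, ∀ y ∈ A, T i y ∈ A) (hB : ∀ i, ∀ y ∈ B, T i y ∈ B) (lam : ι → ℂ) {y : Y}
    (hy : y ∈ A ⊔ B) (hy0 : y ≠ 0) (heig : ∀ i, T i y = lam i • y) :
    ∃ z : Y, z ≠ 0 ∧ (z ∈ A ∨ z ∈ B) ∧ ∀ i, T i z = lam i • z := by
  let S : ι → Module.End ℂ (A × B) := fun i =>
    LinearMap.prodMap (LinearMap.restrict (T i) (hA i)) (LinearMap.restrict (T i) (hB i))
  have hS : ∀ i j, Commute (S i) (S j) := by
    intro i j
    refine LinearMap.ext fun ab => Prod.ext (Subtype.ext ?_) (Subtype.ext ?_)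
    · exact LinearMap.congr_fun (hcomm i j).eq ab.1.1
    · exact LinearMap.congr_fun (hcomm i j).eq ab.2.1
  obtain ⟨a, ha, b, hb, rfl⟩ := Submodule.mem_sup.1 hy
  obtain ⟨x, hx0, hx⟩ := exists_eigenvector_of_map S T hS
    (A.subtype.coprod B.subtype) (fun i x => by simp [S]) lam (⟨a, ha⟩, ⟨b, hb⟩)
    (by simpa using hy0) (fun i => by simpa using heig i)
  by_cases h1 : x.1 = 0
  · have h2 : x.2 ≠ 0 := fun h => hx0 (Prod.ext h1 h)
    exact ⟨x.2, fun h => h2 (Subtype.ext h), Or.inr x.2.2,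
      fun i => congrArg Subtype.val (congrArg Prod.snd (hx i))⟩
  · exact ⟨x.1, fun h => h1 (Subtype.ext h), Or.inl x.1.2,
      fun i => congrArg Subtype.val (congrArg Prod.fst (hx i))⟩

/-- An eigensystem in a finite sum of stable subspaces occurs in one of them. -/
theorem exists_eigenvector_of_mem_finset_sup [FiniteDimensional ℂ Y] {α : Type*}
    (T : ι → Module.End ℂ Y) (hcomm : ∀ i j, Commute (T i) (T j)) (D : Finset α)
    (A : α → Submodule ℂ Y) (hA : ∀ a ∈ D, ∀ i, ∀ y ∈ A a, T i y ∈ A a) (lam : ι → ℂ) :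
    ∀ {y : Y}, y ∈ D.sup A → y ≠ 0 → (∀ i, T i y = lam i • y) →
      ∃ a ∈ D, ∃ z ∈ A a, z ≠ 0 ∧ ∀ i, T i z = lam i • z := by
  classical
  induction D using Finset.induction with
  | empty => intro y hy hy0; simp [hy0] at hy
  | insert a D ha ih =>
    intro y hy hy0 heig
    rw [Finset.sup_insert] at hy
    have hD : ∀ i, ∀ y ∈ D.sup A, T i y ∈ D.sup A := by
      intro i y hy
      have : D.sup A ≤ (D.sup A).comap (T i) := Finset.sup_le fun b hb z hz =>
        Finset.le_sup (f := A) hb (hA b (Finset.mem_insert_of_mem hb) i z hz)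
      exact this hy
    obtain ⟨z, hz0, hz, hzT⟩ := exists_eigenvector_of_mem_sup T hcomm (A a) (D.sup A)
      (hA a (Finset.mem_insert_self a D)) hD lam hy hy0 heig
    rcases hz with hz | hz
    · exact ⟨a, Finset.mem_insert_self a D, z, hz, hz0, hzT⟩
    · obtain ⟨b, hb, w⟩ := ih (fun b hb => hA b (Finset.mem_insert_of_mem hb)) hz hz0 hzT
      exact ⟨b, Finset.mem_insert_of_mem hb, w⟩

end

end Fermat.Agent.Newforms
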