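import Fermat.Agent.Newforms.Basic
import Fermat.Agent.Newforms.LinAlg
import Fermat.Prelude.Def_CuspForm_HeckeAlgebra

/-!
Eigensystems, newforms at minimal level, lifting of eigensystems to multiples of the level.
-/

set_option autoImplicit false

noncomputable section

namespace Fermat.Agent.Newforms

open ModularFormClass

variable {N : ℕ}

/-- All Hecke operators `T ℓ` (`ℓ ∤ N`) and `U q` (`q ∣ N`), indexed by primes. -/
def opAll (N : ℕ) [NeZero N] (l : Nat.Primes) : Module.End ℂ (S2 N) :=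
  if h : (l : ℕ) ∣ N then CuspForm.heckeULin 2 h else CuspForm.heckeTLin 2 l.2 h

theorem opAll_of_dvd [NeZero N] {l : ℕ} (hl : l.Prime) (h : l ∣ N) :
    opAll N ⟨l, hl⟩ = CuspForm.heckeULin 2 h := dif_pos h

theorem opAll_of_not_dvd [NeZero N] {l : ℕ} (hl : l.Prime) (h : ¬ l ∣ N) :
    opAll N ⟨l, hl⟩ = CuspForm.heckeTLin 2 hl h := dif_neg h

theorem opAll_commute [NeZero N] (l m : Nat.Primes) : Commute (opAll N l) (opAll N m) := by
  obtain ⟨l, hl⟩ := l
  obtain ⟨m, hm⟩ := m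
  by_cases h1 : l ∣ N <;> by_cases h2 : m ∣ N
  · rw [opAll_of_dvd hl h1, opAll_of_dvd hm h2]
    exact CuspForm.heckeULin_comm 2 h1 h2
  · rw [opAll_of_dvd hl h1, opAll_of_not_dvd hm h2]
    exact (CuspForm.heckeTLin_heckeULin_comm 2 hm h2 h1).symm
  · rw [opAll_of_not_dvd hl h1, opAll_of_dvd hm h2]
    exact CuspForm.heckeTLin_heckeULin_comm 2 hl h1 h2
  · rw [opAll_of_not_dvd hl h1, opAll_of_not_dvd hm h2]
    exact CuspForm.heckeTLin_comm 2 hl h1 hm h2

/-- A simultaneous eigenvector of all Hecke operators with `a₁ = 1` is a normalised eigenform and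
its eigenvalues are its coefficients. -/
theorem isNormalizedEigenform_of_eigen [NeZero N] (g : S2 N) (h1 : qCoeff g 1 = 1)
    (c : Nat.Primes → ℂ) (hc : ∀ l, opAll N l g = c l • g) :
    g.IsNormalizedEigenform ∧ ∀ l : Nat.Primes, qCoeff g l = c l := by
  have key : ∀ (p : Nat.Primes) (n : ℕ),
      qCoeff g (n * p) = c p * qCoeff g n -
        (if ¬ (p : ℕ) ∣ N ∧ (p : ℕ) ∣ n then ((p : ℕ) : ℂ) * qCoeff g (n / p) else 0) := by
    rintro ⟨p, hp'⟩ n
    have h := congrArg (fun x : S2 N => qCoeff x n) (hc ⟨p, hp'⟩)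
    simp only [qCoeff_smul] at h
    simp only
    by_cases hp : p ∣ N
    · rw [opAll_of_dvd hp' hp, qCoeff_heckeULin] at h
      simp [hp, h]
    · rw [opAll_of_not_dvd hp' hp, qCoeff_heckeTLin] at h
      rw [← h]
      by_cases hn : p ∣ n <;> simp [hp, hn]
  have hp1 : ∀ l : Nat.Primes, qCoeff g l = c l := by
    intro l
    have h := key l 1
    have : ¬ (l : ℕ) ∣ 1 := fun h => l.2.ne_one (Nat.dvd_one.1 h)
    simpa [this, h1] using h
  refine ⟨⟨h1, ?_, ?_, ?_⟩, hp1⟩
  · intro m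
    induction m using Nat.strong_induction_on with
    | _ m ih =>
      intro n hmn
      rcases Nat.lt_trichotomy m 1 with hm | hm | hm
      · obtain rfl : m = 0 := by omega
        simp [qCoeff_cusp_zero]
      · subst hm; simp [h1]
      obtain ⟨p, hp, m', rfl⟩ : ∃ p, p.Prime ∧ ∃ m', m = m' * p := by
        obtain ⟨p, hp, hpm⟩ := Nat.exists_prime_and_dvd (show m ≠ 1 by omega)
        exact ⟨p, hp, m / p, (Nat.div_mul_cancel hpm).symm⟩
      have hm'0 : 0 < m' := by
        rcases Nat.eq_zero_or_pos m' with h | h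
        · subst h; simp at hm
        · exact h
      have hlt : m' < m' * p := lt_mul_of_one_lt_right hm'0 hp.one_lt
      have hcop' : m'.Coprime n := hmn.coprime_dvd_left (dvd_mul_right _ _)
      have hpn : ¬ p ∣ n := fun h =>
        hp.ne_one (Nat.dvd_one.1 (hmn.gcd_eq_one ▸ Nat.dvd_gcd (dvd_mul_left p m') h))
      have k1 := key ⟨p, hp⟩ (m' * n)
      have k2 := key ⟨p, hp⟩ m'
      simp only at k1 k2
      rw [show m' * p * n = m' * n * p by ring, k1, k2, ih m' hlt n hcop']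
      by_cases hd : p ∣ m'
      · have hm'' : m' / p < m' * p := lt_of_le_of_lt (Nat.div_le_self _ _) hlt
        have hd' : p ∣ m' * n := hd.mul_right n
        have e : m' * n / p = m' / p * n := Nat.mul_div_right_comm hd n
        by_cases hN : p ∣ N
        · simp [hN]; ring
        · simp only [hN, not_false_eq_true, hd, hd', and_self, if_true, e]
          rw [ih _ hm'' n (hcop'.coprime_dvd_left (Nat.div_dvd_of_dvd hd))]
          ring
      · have hd' : ¬ p ∣ m' * n := fun h => (hp.dvd_mul.1 h).elim hd hpn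
        simp [hd, hd']; ring
  · intro p r hp hpN
    have h := key ⟨p, hp⟩ (p ^ (r + 1))
    simp only [hpN, not_false_eq_true, dvd_pow_self p r.succ_ne_zero, and_self, if_true] at h
    rw [← pow_succ, show p ^ (r + 1) / p = p ^ r from by
      rw [pow_succ, Nat.mul_div_cancel _ hp.pos]] at h
    rw [h, ← hp1 ⟨p, hp⟩]
  · intro p r hp hpN
    have h := key ⟨p, hp⟩ (p ^ (r + 1))
    simp only [hpN, not_true_eq_false, false_and, if_false, sub_zero] at h
    rw [← pow_succ] at h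
    rw [h, ← hp1 ⟨p, hp⟩]

/-- A nonzero simultaneous eigenvector of all Hecke operators has `a₁ ≠ 0`. -/
theorem qCoeff_one_ne_zero_of_eigen [NeZero N] (g : S2 N) (hg : g ≠ 0) (c : Nat.Primes → ℂ)
    (hc : ∀ l, opAll N l g = c l • g) : qCoeff g 1 ≠ 0 := by
  intro h1
  refine hg (eq_zero_of_qCoeff fun n => ?_)
  induction n using Nat.strong_induction_on with
  | _ n ih =>
    rcases Nat.lt_trichotomy n 1 with hn | hn | hn
    · obtain rfl : n = 0 := by omega
      exact qCoeff_cusp_zero g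
    · subst hn; exact h1
    obtain ⟨p, hp, hpn⟩ := Nat.exists_prime_and_dvd (show n ≠ 1 by omega)
    obtain ⟨m, rfl⟩ : ∃ m, n = m * p := ⟨n / p, (Nat.div_mul_cancel hpn).symm⟩
    have hm : 0 < m := by
      rcases Nat.eq_zero_or_pos m with h | h
      · subst h; simp at hn
      · exact h
    have hlt : m < m * p := lt_mul_of_one_lt_right hm hp.one_lt
    have h := congrArg (fun x : S2 N => qCoeff x m) (hc ⟨p, hp⟩)
    simp only [qCoeff_smul] at h
    by_cases hd : p ∣ N
    · rw [opAll_of_dvd hp hd, qCoeff_heckeULin] at h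
      rw [h, ih m hlt, mul_zero]
    · rw [opAll_of_not_dvd hp hd, qCoeff_heckeTLin, ih m hlt, mul_zero] at h
      by_cases hpm : p ∣ m
      · rw [if_pos hpm, ih _ ((Nat.div_le_self _ _).trans_lt hlt), mul_zero, add_zero] at h
        exact h
      · rw [if_neg hpm, add_zero] at h
        exact h

/-- The coefficient recursion says exactly that `f` is an eigenvector with eigenvalues `a_p`. -/
theorem opAll_apply_of_isNormalizedEigenform [NeZero N] {f : S2 N} (hf : f.IsNormalizedEigenform)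
    (p : Nat.Primes) : opAll N p f = qCoeff f p • f := by
  obtain ⟨p, hp⟩ := p
  refine ext_qCoeff fun n => ?_
  rw [qCoeff_smul]
  simp only
  rcases Nat.eq_zero_or_pos n with rfl | hn
  · simp [qCoeff_cusp_zero]
  obtain ⟨r, m, hpm, rfl⟩ := Nat.exists_eq_pow_mul_and_not_dvd hn.ne' p hp.ne_one
  have hc : ∀ s, (p ^ s).Coprime m := fun s => (hp.coprime_iff_not_dvd.2 hpm).pow_left s
  by_cases hpN : p ∣ N
  · rw [opAll_of_dvd hp hpN, qCoeff_heckeULin, show p ^ r * m * p = p ^ (r + 1) * m by ring,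
      hf.qCoeff_mul_of_coprime _ _ (hc _), hf.qCoeff_mul_of_coprime _ _ (hc _)]
    cases r with
    | zero => simp [hf.qCoeff_one]
    | succ r => rw [hf.qCoeff_prime_pow_of_dvd p r hp hpN]; ring
  · rw [opAll_of_not_dvd hp hpN, qCoeff_heckeTLin, show p ^ r * m * p = p ^ (r + 1) * m by ring,
      hf.qCoeff_mul_of_coprime _ _ (hc _), hf.qCoeff_mul_of_coprime _ _ (hc _)]
    cases r with
    | zero =>
      rw [pow_zero, one_mul, if_neg hpm]
      simp [hf.qCoeff_one]
    | succ r =>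
      rw [if_pos (Dvd.dvd.mul_right (dvd_pow_self p r.succ_ne_zero) m),
        show p ^ (r + 1) * m / p = p ^ r * m by
          rw [show p ^ (r + 1) * m = p ^ r * m * p by ring, Nat.mul_div_cancel _ hp.pos],
        hf.qCoeff_mul_of_coprime _ _ (hc _), hf.qCoeff_prime_pow_of_not_dvd p r hp hpN]
      ring

theorem heckeTLin_apply_of_isNormalizedEigenform [NeZero N] {f : S2 N}
    (hf : f.IsNormalizedEigenform) {l : ℕ} (hl : l.Prime) (hlN : ¬ l ∣ N) :
    CuspForm.heckeTLin 2 hl hlN f = qCoeff f l • f := by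
  rw [← opAll_of_not_dvd hl hlN]
  exact opAll_apply_of_isNormalizedEigenform hf ⟨l, hl⟩

theorem heckeULin_apply_of_isNormalizedEigenform [NeZero N] {f : S2 N}
    (hf : f.IsNormalizedEigenform) {q : ℕ} (hq : q.Prime) (hqN : q ∣ N) :
    CuspForm.heckeULin 2 hqN f = qCoeff f q • f := by
  rw [← opAll_of_dvd hq hqN]
  exact opAll_apply_of_isNormalizedEigenform hf ⟨q, hq⟩

/-- A nonzero Hecke-stable subspace of eigenvectors contains a normalised eigenform. -/
theorem exists_isNormalizedEigenform_mem [NeZero N] (W : Submodule ℂ (S2 N))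
    (hinv : ∀ l, ∀ x ∈ W, opAll N l x ∈ W) (hne : W ≠ ⊥) :
    ∃ g ∈ W, g.IsNormalizedEigenform := by
  obtain ⟨x, hxW, hx0, hx⟩ := exists_common_eigenvector (opAll N) opAll_commute W hinv hne
  choose c hc using hx
  have h1 := qCoeff_one_ne_zero_of_eigen x hx0 c hc
  refine ⟨(qCoeff x 1)⁻¹ • x, W.smul_mem _ hxW, (isNormalizedEigenform_of_eigen _ ?_ c ?_).1⟩
  · rw [qCoeff_smul, inv_mul_cancel₀ h1]
  · intro l
    rw [map_smul, hc, smul_comm]

/-- The space of eigenvectors for given eigenvalues of the `T ℓ`, `ℓ ∤ N`, `ℓ ∉ S`. -/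
def goodEigenspace (N : ℕ) [NeZero N] (S : Set ℕ) (lam : ℕ → ℂ) : Submodule ℂ (S2 N) :=
  ⨅ (l : Nat.Primes) (_ : ¬ (l : ℕ) ∣ N ∧ (l : ℕ) ∉ S), Module.End.eigenspace (opAll N l) (lam l)

theorem mem_goodEigenspace [NeZero N] {S : Set ℕ} {lam : ℕ → ℂ} {x : S2 N} :
    x ∈ goodEigenspace N S lam ↔ ∀ (l : ℕ) (hl : l.Prime) (hlN : ¬ l ∣ N), l ∉ S →
      CuspForm.heckeTLin 2 hl hlN x = lam l • x := by
  simp only [goodEigenspace, Submodule.mem_iInf, Module.End.mem_eigenspace_iff]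
  constructor
  · intro h l hl hlN hlS
    rw [← opAll_of_not_dvd hl hlN]
    exact h ⟨l, hl⟩ ⟨hlN, hlS⟩
  · rintro h ⟨l, hl⟩ ⟨hlN, hlS⟩
    rw [opAll_of_not_dvd hl hlN]
    exact h l hl hlN hlS

theorem goodEigenspace_stable [NeZero N] (S : Set ℕ) (lam : ℕ → ℂ) (m : Nat.Primes) {x : S2 N}
    (hx : x ∈ goodEigenspace N S lam) : opAll N m x ∈ goodEigenspace N S lam := by
  simp only [goodEigenspace, Submodule.mem_iInf, Module.End.mem_eigenspace_iff] at hx ⊢
  intro l hl
  rw [← Module.End.mul_apply, (opAll_commute l m).eq, Module.End.mul_apply, hx l hl, map_smul]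

theorem qCoeff_eq_of_mem_goodEigenspace [NeZero N] {S : Set ℕ} {lam : ℕ → ℂ} {g : S2 N}
    (hg : g.IsNormalizedEigenform) (hmem : g ∈ goodEigenspace N S lam) {l : ℕ} (hl : l.Prime)
    (hlN : ¬ l ∣ N) (hlS : l ∉ S) : qCoeff g l = lam l := by
  have h := mem_goodEigenspace.1 hmem l hl hlN hlS
  rw [heckeTLin_apply_of_isNormalizedEigenform hg hl hlN] at h
  have h' := congrArg (fun x : S2 N => qCoeff x 1) h
  simpa only [qCoeff_smul, hg.qCoeff_one, mul_one] using h'

/-- A nonzero simultaneous eigenvector of the `T ℓ` (primes `ℓ ∤ N` outside `S`) yields a normalised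
eigenform with the same eigenvalues. -/
theorem exists_isNormalizedEigenform_of_eigenvector {N : ℕ} [NeZero N] (S : Set ℕ) (lam : ℕ → ℂ)
    (h : S2 N) (h0 : h ≠ 0)
    (heig : ∀ (l : ℕ) (hl : l.Prime) (hlN : ¬ l ∣ N), l ∉ S →
      CuspForm.heckeTLin 2 hl hlN h = lam l • h) :
    ∃ g : S2 N, g.IsNormalizedEigenform ∧
      ∀ l : ℕ, l.Prime → ¬ l ∣ N → l ∉ S → qCoeff g l = lam l := by
  obtain ⟨g, hg, hge⟩ := exists_isNormalizedEigenform_mem (goodEigenspace N S lam)
    (fun m _ hx => goodEigenspace_stable S lam m hx)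
    ((Submodule.ne_bot_iff _).2 ⟨h, mem_goodEigenspace.2 heig, h0⟩)
  exact ⟨g, hge, fun l hl hlN hlS => qCoeff_eq_of_mem_goodEigenspace hge hg hl hlN hlS⟩

/-- The good eigensystem of any normalised eigenform is that of a newform of level dividing `N`. -/
theorem exists_newform {N : ℕ} [NeZero N] {f : S2 N} (hf : f.IsNormalizedEigenform) :
    ∃ M : ℕ, 0 < M ∧ M ∣ N ∧ ∃ g : S2 M, g.IsNewform ∧
      ∀ l : ℕ, l.Prime → ¬ l ∣ N → qCoeff g l = qCoeff f l := by
  classical
  have hex : ∃ M, M ∣ N ∧ f.GoodEigensystemOccursAt M :=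
    ⟨N, dvd_rfl, CuspForm.GoodEigensystemOccursAt.refl hf⟩
  obtain ⟨hMN, g, hg, hgf⟩ := Nat.find_spec hex
  have hpos : 0 < Nat.find hex := Nat.pos_of_dvd_of_pos hMN (NeZero.pos N)
  refine ⟨_, hpos, hMN, g, ⟨hg, fun M' hM' hne hocc => ?_⟩, hgf⟩
  obtain ⟨g', hg', hgg'⟩ := hocc
  refine Nat.find_min hex (lt_of_le_of_ne (Nat.le_of_dvd hpos hM') hne)
    ⟨hM'.trans hMN, g', hg', fun l hl hlN => ?_⟩
  rw [hgg' l hl (fun h => hlN (h.trans hMN)), hgf l hl hlN]

theorem heckeTLin_raiseLin {M N : ℕ} [NeZero N] (h : M ∣ N) {l : ℕ} (hl : l.Prime)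
    (hlN : ¬ l ∣ N) (f : S2 M) :
    CuspForm.heckeTLin 2 hl hlN (raiseLin h f) =
      raiseLin h (CuspForm.heckeTLin 2 hl (fun d => hlN (d.trans h)) f) :=
  DFunLike.coe_injective rfl

/-- An eigensystem of level `M` occurs at every multiple of `M`. -/
theorem exists_eigenform_of_dvd {M N : ℕ} [NeZero N] (hMN : M ∣ N) {g : S2 M}
    (hg : g.IsNormalizedEigenform) :
    ∃ f : S2 N, f.IsNormalizedEigenform ∧
      ∀ l : ℕ, l.Prime → ¬ l ∣ N → qCoeff f l = qCoeff g l := by
  have : NeZero M := ⟨ne_zero_of_dvd_ne_zero (NeZero.ne N) hMN⟩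
  have h0 : raiseLin hMN g ≠ 0 := fun h =>
    hg.ne_zero (raiseLin_injective hMN (by rw [h, map_zero]))
  obtain ⟨f, hf, he⟩ := exists_isNormalizedEigenform_of_eigenvector (N := N) ∅ (fun l => qCoeff g l)
    (raiseLin hMN g) h0 (fun l hl hlN _ => by
      rw [heckeTLin_raiseLin, heckeTLin_apply_of_isNormalizedEigenform hg hl, map_smul])
  exact ⟨f, hf, fun l hl hlN => he l hl hlN (Set.notMem_empty l)⟩

end Fermat.Agent.Newforms
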