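import Fermat.Prelude.Def_CuspForm_Newforms
import Fermat.Prelude.Def_ModularForm_HeckeOperatorForms
import Fermat.Prelude.Thm_CongruenceSubgroup_one_mem_strictPeriods_Gamma0
import Fermat.Prelude.Thm_ModularFormClass_qCoeff_heckeT
import Fermat.Prelude.Thm_ModularFormClass_qCoeff_heckeU
import Fermat.Prelude.Thm_ModularForm_sturm_bound_Gamma0

/-!
Basic tools for weight two cusp forms on `Γ₀(N)`: coefficient functionals, finite dimensionality,
and a constructor from an invariant cuspidal function.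
-/

set_option autoImplicit false

noncomputable section

namespace Fermat.Agent.Newforms

open ModularFormClass UpperHalfPlane Matrix.SpecialLinearGroup CongruenceSubgroup
open scoped MatrixGroups ModularForm Manifold

abbrev S2 (N : ℕ) := CuspForm (CongruenceSubgroup.Gamma0 N) 2

variable {N : ℕ}

theorem one_mem_periods (N : ℕ) :
    (1 : ℝ) ∈ (Gamma0 N : Subgroup (GL (Fin 2) ℝ)).strictPeriods :=
  CongruenceSubgroup.one_mem_strictPeriods_Gamma0 N

theorem isCusp_infty [NeZero N] : IsCusp OnePoint.infty (Gamma0 N : Subgroup (GL (Fin 2) ℝ)) :=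
  Subgroup.isCusp_of_mem_strictPeriods one_pos (one_mem_periods N)

/-- The `n`-th coefficient as a linear functional. -/
def coeffLin (N n : ℕ) : S2 N →ₗ[ℂ] ℂ where
  toFun f := qCoeff f n
  map_add' f g := by
    show (qExpansion 1 (⇑(f + g))).coeff n = _
    rw [FunLike.coe_add, ModularForm.qExpansion_add one_pos (one_mem_periods N) f g, map_add]
    rfl
  map_smul' c f := by
    show (qExpansion 1 (⇑(c • f))).coeff n = _
    rw [FunLike.coe_smul, ModularForm.qExpansion_smul one_pos (one_mem_periods N) c f]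
    simp [qCoeff]

@[simp] theorem coeffLin_apply (n : ℕ) (f : S2 N) : coeffLin N n f = qCoeff f n := rfl

theorem qCoeff_add (f g : S2 N) (n : ℕ) : qCoeff (f + g : S2 N) n = qCoeff f n + qCoeff g n :=
  (coeffLin N n).map_add f g

theorem qCoeff_sub (f g : S2 N) (n : ℕ) : qCoeff (f - g : S2 N) n = qCoeff f n - qCoeff g n :=
  (coeffLin N n).map_sub f g

theorem qCoeff_smul (c : ℂ) (f : S2 N) (n : ℕ) : qCoeff (c • f : S2 N) n = c * qCoeff f n :=
  (coeffLin N n).map_smul c f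

theorem qCoeff_zero_fun (n : ℕ) : qCoeff (0 : ℍ → ℂ) n = 0 := by
  simp [qCoeff, qExpansion_zero]

theorem qCoeff_cusp_zero [NeZero N] (f : S2 N) : qCoeff f 0 = 0 := by
  have : Fact (IsCusp OnePoint.infty (Gamma0 N : Subgroup (GL (Fin 2) ℝ))) := ⟨isCusp_infty⟩
  exact CuspFormClass.qExpansion_coeff_zero f one_pos (one_mem_periods N)

theorem hasSum_qCoeff [NeZero N] (f : S2 N) (τ : ℍ) :
    HasSum (fun n ↦ qCoeff f n * Function.Periodic.qParam 1 (τ : ℂ) ^ n) (f τ) := by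
  have : Fact (IsCusp OnePoint.infty (Gamma0 N : Subgroup (GL (Fin 2) ℝ))) := ⟨isCusp_infty⟩
  exact ModularForm.hasSum_qExpansion f one_pos (one_mem_periods N) τ

theorem ext_qCoeff [NeZero N] {f g : S2 N} (h : ∀ n, qCoeff f n = qCoeff g n) : f = g := by
  ext τ
  have := hasSum_qCoeff g τ
  simp_rw [← h] at this
  exact (hasSum_qCoeff f τ).unique this

theorem eq_zero_of_qCoeff [NeZero N] {f : S2 N} (h : ∀ n, qCoeff f n = 0) : f = 0 :=
  ext_qCoeff fun n => by rw [h, FunLike.coe_zero, qCoeff_zero_fun]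

/-- Cusp forms as modular forms. -/
def toMF (N : ℕ) : S2 N →ₗ[ℂ] ModularForm (Gamma0 N) 2 where
  toFun f :=
    { toFun := f
      slash_action_eq' := f.slash_action_eq'
      holo' := f.holo'
      bdd_at_cusps' := fun hc γ hγ => (f.zero_at_cusps' hc γ hγ).boundedAtFilter }
  map_add' _ _ := rfl
  map_smul' _ _ := rfl

theorem qCoeff_eq_zero_of_le_bound [NeZero N] {f : S2 N}
    (h : ∀ n, n ≤ (2 * (Gamma0 N).index : ℤ).toNat / 12 → qCoeff f n = 0) : f = 0 := by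
  have := ModularForm.sturm_bound_Gamma0 N (toMF N f) h
  ext τ
  exact DFunLike.congr_fun this τ

instance instFiniteDimensionalS2 [NeZero N] : FiniteDimensional ℂ (S2 N) := by
  let B := (2 * (Gamma0 N).index : ℤ).toNat / 12
  refine Module.Finite.of_injective (LinearMap.pi fun n : Fin (B + 1) => coeffLin N n) ?_
  rw [injective_iff_map_eq_zero]
  exact fun f hf => qCoeff_eq_zero_of_le_bound fun n hn =>
    congrFun hf ⟨n, Nat.lt_succ_of_le hn⟩

theorem qCoeff_heckeTLin {l : ℕ} (hl : l.Prime) (hlN : ¬ l ∣ N) (f : S2 N) (n : ℕ) :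
    qCoeff (CuspForm.heckeTLin 2 hl hlN f) n
      = qCoeff f (n * l) + if l ∣ n then (l : ℂ) * qCoeff f (n / l) else 0 := by
  rw [CuspForm.coe_heckeTLin_apply,
    ModularFormClass.qCoeff_heckeT f (one_mem_periods N) hl.ne_zero n,
    ModularForm.coeffHeckeT_apply, show ((2 : ℤ) - 1) = 1 from rfl, zpow_one]

theorem qCoeff_heckeULin [NeZero N] {q : ℕ} (hqN : q ∣ N) (f : S2 N) (n : ℕ) :
    qCoeff (CuspForm.heckeULin 2 hqN f) n = qCoeff f (n * q) := by
  rw [CuspForm.coe_heckeULin_apply,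
    ModularFormClass.qCoeff_heckeU f (one_mem_periods N)
      (fun h => NeZero.ne N (zero_dvd_iff.1 (h ▸ hqN))) n]
  rfl

/-- A holomorphic function vanishing at every rational cusp. -/
structure IsCuspidal (φ : ℍ → ℂ) : Prop where
  holo : MDiff φ
  zero : ∀ c : OnePoint ℝ, IsCusp c 𝒮ℒ → c.IsZeroAt φ 2

theorem isCuspidal_coe {Γ : Subgroup (GL (Fin 2) ℝ)} [Γ.IsArithmetic] {F : Type*}
    [FunLike F ℍ ℂ] [CuspFormClass F Γ 2] (f : F) : IsCuspidal f :=
  ⟨CuspFormClass.holo f,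
    fun _ hc => CuspFormClass.zero_at_cusps f (Subgroup.IsArithmetic.isCusp_iff_isCusp_SL2Z _|>.2 hc)⟩

namespace IsCuspidal

theorem zero_fun : IsCuspidal (0 : ℍ → ℂ) := by
  refine ⟨mdifferentiable_const, fun c _ g _ => ?_⟩
  rw [SlashAction.zero_slash]
  exact Filter.zero_zeroAtFilter _

theorem add {φ ψ : ℍ → ℂ} (h : IsCuspidal φ) (h' : IsCuspidal ψ) : IsCuspidal (φ + ψ) :=
  ⟨h.holo.add h'.holo, fun c hc => (h.zero c hc).add (h'.zero c hc)⟩

theorem sum {α : Type*} (s : Finset α) {φ : α → ℍ → ℂ} (h : ∀ a ∈ s, IsCuspidal (φ a)) :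
    IsCuspidal (∑ a ∈ s, φ a) :=
  Finset.sum_induction _ _ (fun _ _ => add) zero_fun h

theorem slash {φ : ℍ → ℂ} (h : IsCuspidal φ) (g : GL (Fin 2) ℚ) :
    IsCuspidal (φ ∣[(2 : ℤ)] Matrix.GeneralLinearGroup.map (Rat.castHom ℝ) g) := by
  refine ⟨h.holo.slash 2 _, fun c hc => OnePoint.IsZeroAt.smul_iff.mp (h.zero _ ?_)⟩
  rw [isCusp_SL2Z_iff] at hc ⊢
  obtain ⟨c, rfl⟩ := hc
  exact ⟨g • c, by rw [← Rat.coe_castHom, OnePoint.map_smul]⟩

theorem slash_SL {φ : ℍ → ℂ} (h : IsCuspidal φ) (g : SL(2, ℤ)) :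
    IsCuspidal (φ ∣[(2 : ℤ)] g) := by
  have : Matrix.GeneralLinearGroup.map (Rat.castHom ℝ) (mapGL ℚ g) = mapGL ℝ g := by
    ext i j; simp
  have h' := h.slash (mapGL ℚ g)
  rw [this] at h'
  rwa [ModularForm.SL_slash]

end IsCuspidal

/-- A cusp form from a `Γ₀(M)`-invariant cuspidal function. -/
def mkForm (M : ℕ) [NeZero M] (φ : ℍ → ℂ) (hφ : IsCuspidal φ)
    (hinv : ∀ γ ∈ Gamma0 M, φ ∣[(2 : ℤ)] γ = φ) : S2 M where
  toFun := φ
  slash_action_eq' := by
    rintro _ ⟨γ, hγ, rfl⟩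
    have h := hinv γ hγ
    rwa [ModularForm.SL_slash] at h
  holo' := hφ.holo
  zero_at_cusps' hc := hφ.zero _ (Subgroup.IsArithmetic.isCusp_iff_isCusp_SL2Z _ |>.1 hc)

@[simp] theorem coe_mkForm {M : ℕ} [NeZero M] {φ : ℍ → ℂ} {hφ : IsCuspidal φ}
    {hinv : ∀ γ ∈ Gamma0 M, φ ∣[(2 : ℤ)] γ = φ} : ⇑(mkForm M φ hφ hinv) = φ := rfl

theorem slash_eq_self (f : S2 N) {γ : SL(2, ℤ)} (hγ : γ ∈ Gamma0 N) :
    ⇑f ∣[(2 : ℤ)] γ = ⇑f := by
  rw [ModularForm.SL_slash]
  exact SlashInvariantFormClass.slash_action_eq f _ ⟨γ, hγ, rfl⟩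

theorem mem_Gamma0_iff_dvd {γ : SL(2, ℤ)} : γ ∈ Gamma0 N ↔ (N : ℤ) ∣ γ 1 0 := by
  rw [Gamma0_mem, ZMod.intCast_zmod_eq_zero_iff_dvd]

theorem Gamma0_le_of_dvd {M : ℕ} (h : M ∣ N) : Gamma0 N ≤ Gamma0 M := fun _ hγ =>
  mem_Gamma0_iff_dvd.2 ((Int.natCast_dvd_natCast.2 h).trans (mem_Gamma0_iff_dvd.1 hγ))

/-- Inclusion of level `M` in level `N` for `M ∣ N`. -/
def raiseLin {M : ℕ} [NeZero N] (h : M ∣ N) : S2 M →ₗ[ℂ] S2 N :=
  haveI : NeZero M := ⟨ne_zero_of_dvd_ne_zero (NeZero.ne N) h⟩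
  { toFun := fun f => mkForm N f (isCuspidal_coe f) fun _ hγ =>
      slash_eq_self f (Gamma0_le_of_dvd h hγ)
    map_add' := fun _ _ => rfl
    map_smul' := fun _ _ => rfl }

@[simp] theorem coe_raiseLin {M : ℕ} [NeZero N] (h : M ∣ N) (f : S2 M) :
    ⇑(raiseLin h f) = ⇑f := rfl

theorem raiseLin_injective {M : ℕ} [NeZero N] (h : M ∣ N) :
    Function.Injective (raiseLin (M := M) h) :=
  fun _ _ e => DFunLike.coe_injective (congrArg DFunLike.coe e :)

end Fermat.Agent.Newforms
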