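import Fermat.Agent.Newforms.Matrices
import Fermat.Agent.Newforms.Eigen

/-!
The Atkin--Lehner involution `W_q` and the degeneracy trace at a prime `q` exactly dividing the
level, and their commutation with Hecke operators.
-/

set_option autoImplicit false

noncomputable section

namespace Fermat.Agent.Newforms

open ModularForm Matrix.SpecialLinearGroup CongruenceSubgroup UpperHalfPlane
open scoped MatrixGroups ModularForm

/-- Representatives of `Γ₀(N) \ {det = l}`. -/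
def lRep (l : ℕ) : Option (ZMod l) → GL (Fin 2) ℝ
  | none => heckeDiagMatrix l
  | some j => heckeMatrix l j.val

/-- The Atkin--Lehner matrix `diag(1, q) · ω`. -/
def wMat (M q : ℕ) : GL (Fin 2) ℝ := heckeMatrix q 0 * mapGL ℝ (omegaSL M q)

theorem val_mapGL_apply (g : SL(2, ℤ)) (i j : Fin 2) :
    (mapGL ℝ g : GL (Fin 2) ℝ) i j = ((g i j : ℤ) : ℝ) := by simp

theorem slash_SL_eq (φ : ℍ → ℂ) (g : SL(2, ℤ)) : φ ∣[(2 : ℤ)] g = φ ∣[(2 : ℤ)] mapGL ℝ g := rfl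

theorem sum_range_eq_sum_zmod_val {A : Type*} [AddCommMonoid A] (p : ℕ) [NeZero p] (F : ℕ → A) :
    ∑ j ∈ Finset.range p, F j = ∑ x : ZMod p, F x.val := by
  refine Finset.sum_nbij' (fun j : ℕ ↦ (j : ZMod p)) (fun x : ZMod p ↦ x.val)
    (fun _ _ ↦ Finset.mem_univ _) (fun x _ ↦ Finset.mem_range.mpr x.val_lt)
    (fun j hj ↦ ?_) (fun x _ ↦ ?_) (fun j hj ↦ ?_)
  · exact ZMod.val_cast_of_lt (Finset.mem_range.mp hj)
  · exact ZMod.natCast_zmod_val x
  · rw [ZMod.val_cast_of_lt (Finset.mem_range.mp hj)]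

theorem heckeU_eq_sum_lRep (l : ℕ) [NeZero l] (φ : ℍ → ℂ) :
    heckeU 2 l φ = ∑ j : ZMod l, φ ∣[(2 : ℤ)] lRep l (some j) := by
  rw [heckeU_def]
  exact sum_range_eq_sum_zmod_val l _

theorem heckeT_eq_sum_lRep (l : ℕ) [NeZero l] (φ : ℍ → ℂ) :
    heckeT 2 l φ = ∑ x : Option (ZMod l), φ ∣[(2 : ℤ)] lRep l x := by
  rw [heckeT_eq_heckeU_add, heckeU_eq_sum_lRep, Fintype.sum_option, add_comm]
  rfl

theorem heckeMatrix_eq_zero_mul (q j : ℕ) (hq : q ≠ 0) :
    heckeMatrix q j = heckeMatrix q 0 * mapGL ℝ (upperSL j) := by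
  ext i k
  fin_cases i <;> fin_cases k <;> simp [Matrix.mul_apply, Fin.sum_univ_two, hq]

theorem exists_rat_heckeMatrix_zero (q : ℕ) :
    ∃ g : GL (Fin 2) ℚ, heckeMatrix q 0 = Matrix.GeneralLinearGroup.map (Rat.castHom ℝ) g := by
  rcases eq_or_ne q 0 with rfl | hq
  · exact ⟨1, by rw [heckeMatrix_zero, map_one]⟩
  · refine ⟨Matrix.GeneralLinearGroup.mkOfDetNeZero !![1, 0; 0, (q : ℚ)] (by simpa using hq), ?_⟩
    ext i j
    fin_cases i <;> fin_cases j <;> simp [hq, Matrix.GeneralLinearGroup.mkOfDetNeZero]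

theorem IsCuspidal.slash_heckeMatrix_zero {φ : ℍ → ℂ} (h : IsCuspidal φ) (q : ℕ) :
    IsCuspidal (φ ∣[(2 : ℤ)] heckeMatrix q 0) := by
  obtain ⟨g, hg⟩ := exists_rat_heckeMatrix_zero q
  exact hg ▸ h.slash g

theorem IsCuspidal.slash_wMat {φ : ℍ → ℂ} (h : IsCuspidal φ) (M q : ℕ) :
    IsCuspidal (φ ∣[(2 : ℤ)] wMat M q) := by
  rw [wMat, SlashAction.slash_mul, ← slash_SL_eq]
  exact (h.slash_heckeMatrix_zero q).slash_SL _

variable {N M q : ℕ}

/-- Conjugation by `diag(1,q)`. -/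
theorem exists_delta_conj (hN : M * q = N) (hq : q ≠ 0) {h : SL(2, ℤ)} (hh : InH M q h) :
    ∃ g ∈ Gamma0 N, heckeMatrix q 0 * mapGL ℝ h = mapGL ℝ g * heckeMatrix q 0 := by
  obtain ⟨⟨e, he⟩, ⟨b, hb⟩⟩ := hh
  refine ⟨mkSL (h 0 0) b ((q : ℤ) * h 1 0) (h 1 1) ?_, mem_Gamma0_iff_dvd.2 ⟨e, ?_⟩, ?_⟩
  · linear_combination det_SL_eq h + h 1 0 * hb
  · subst hN
    simp [he]; ring
  · have hb' : ((h 0 1 : ℤ) : ℝ) = (q : ℝ) * b := by exact_mod_cast hb
    ext i j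
    fin_cases i <;> fin_cases j <;>
      simp [Matrix.mul_apply, Fin.sum_univ_two, hq, hb'] <;> ring

theorem slash_delta_invariant (hN : M * q = N) (hq : q ≠ 0) (f : S2 N) {h : SL(2, ℤ)}
    (hh : InH M q h) :
    (⇑f ∣[(2 : ℤ)] heckeMatrix q 0) ∣[(2 : ℤ)] h = ⇑f ∣[(2 : ℤ)] heckeMatrix q 0 := by
  obtain ⟨g, hg, he⟩ := exists_delta_conj hN hq hh
  rw [slash_SL_eq, ← SlashAction.slash_mul, he, SlashAction.slash_mul,
    ← slash_SL_eq, slash_eq_self f hg]

theorem omega_conj_InH (hN : M * q = N) (hq : q.Prime) (hqM : ¬ q ∣ M) {g : SL(2, ℤ)}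
    (hg : g ∈ Gamma0 N) : InH M q (omegaSL M q * g * (omegaSL M q)⁻¹) := by
  refine ⟨mem_Gamma0_iff_dvd.1 (mul_mem (mul_mem (omegaSL_mem M q)
    (Gamma0_le_of_dvd ⟨q, hN.symm⟩ hg)) (inv_mem (omegaSL_mem M q))), ?_⟩
  have hqg : (q : ℤ) ∣ g 1 0 :=
    (Int.natCast_dvd_natCast.2 (Dvd.intro_left M hN)).trans (mem_Gamma0_iff_dvd.1 hg)
  have h0 := omegaSL_zero_zero hq hqM
  rw [mul_inv_01]
  refine dvd_sub (h0.mul_left _) (Dvd.dvd.mul_right ?_ _)
  simp only [Matrix.SpecialLinearGroup.coe_mul, Matrix.mul_apply, Fin.sum_univ_two]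
  exact dvd_add (h0.mul_right _) (hqg.mul_left _)

theorem exists_wMat_conj (hN : M * q = N) (hq : q.Prime) (hqM : ¬ q ∣ M) {g : SL(2, ℤ)}
    (hg : g ∈ Gamma0 N) : ∃ g' ∈ Gamma0 N, wMat M q * mapGL ℝ g = mapGL ℝ g' * wMat M q := by
  obtain ⟨g', hg', he⟩ := exists_delta_conj hN hq.ne_zero (omega_conj_InH hN hq hqM hg)
  refine ⟨g', hg', ?_⟩
  rw [map_mul, map_mul, map_inv] at he
  calc wMat M q * mapGL ℝ g
      = (heckeMatrix q 0 * (mapGL ℝ (omegaSL M q) * mapGL ℝ g * (mapGL ℝ (omegaSL M q))⁻¹)) *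
          mapGL ℝ (omegaSL M q) := by simp [wMat, mul_assoc]
    _ = mapGL ℝ g' * wMat M q := by rw [he]; simp [wMat, mul_assoc]

/-- `W_q` as an endomorphism of the space of cusp forms of level `N = M q`. -/
def atkinLehner [NeZero N] (hN : M * q = N) (hq : q.Prime) (hqM : ¬ q ∣ M) :
    Module.End ℂ (S2 N) where
  toFun f := mkForm N (⇑f ∣[(2 : ℤ)] wMat M q) ((isCuspidal_coe f).slash_wMat M q)
    fun g hg => by
      obtain ⟨g', hg', he⟩ := exists_wMat_conj hN hq hqM hg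
      rw [slash_SL_eq, ← SlashAction.slash_mul, he, SlashAction.slash_mul,
        ← slash_SL_eq, slash_eq_self f hg']
  map_add' f g := DFunLike.coe_injective (by
    simp [FunLike.coe_add, SlashAction.add_slash])
  map_smul' c f := DFunLike.coe_injective (by
    show (⇑(c • f)) ∣[(2 : ℤ)] wMat M q = c • (⇑f ∣[(2 : ℤ)] wMat M q)
    rw [FunLike.coe_smul, wMat, SlashAction.slash_mul, SlashAction.slash_mul,
      ModularForm.smul_slash, σ_heckeMatrix, ← slash_SL_eq, ← slash_SL_eq,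
      ModularForm.SL_smul_slash]
    rfl)

@[simp] theorem coe_atkinLehner [NeZero N] (hN : M * q = N) (hq : q.Prime) (hqM : ¬ q ∣ M)
    (f : S2 N) : ⇑(atkinLehner hN hq hqM f) = ⇑f ∣[(2 : ℤ)] wMat M q := rfl

theorem slash_scalar (q : ℕ) (hq : q ≠ 0) (φ : ℍ → ℂ) :
    (φ ∣[(2 : ℤ)] heckeDiagMatrix q) ∣[(2 : ℤ)] heckeMatrix q 0 = φ := by
  funext τ
  rw [slash_heckeMatrix_apply 2 hq, slash_heckeDiagMatrix_apply 2 hq]
  have h : heckeDiagMatrix q • heckeMatrix q 0 • τ = τ := by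
    apply UpperHalfPlane.ext
    rw [coe_heckeDiagMatrix_smul hq, coe_heckeMatrix_smul hq]
    field_simp
    simp
  rw [h, show ((2 : ℤ) - 1) = 1 from rfl, zpow_one]
  field_simp

theorem atkinLehner_atkinLehner [NeZero N] (hN : M * q = N) (hq : q.Prime) (hqM : ¬ q ∣ M)
    (f : S2 N) : atkinLehner hN hq hqM (atkinLehner hN hq hqM f) = f := by
  refine DFunLike.coe_injective ?_
  simp only [coe_atkinLehner]
  obtain ⟨a, ha⟩ := omegaSL_zero_zero hq hqM
  obtain ⟨e, he⟩ := mem_Gamma0_iff_dvd.1 (omegaSL_mem M q)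
  set w := omegaSL M q with hw
  let g : SL(2, ℤ) := mkSL ((q : ℤ) * a ^ 2 + w 0 1 * w 1 0) (w 0 1 * (a + w 1 1))
      ((q : ℤ) * (w 1 0 * (a + w 1 1))) (w 0 1 * w 1 0 + (q : ℤ) * w 1 1 ^ 2) (by
    have h := det_SL_eq w
    rw [ha] at h
    linear_combination ((q : ℤ) * a * w 1 1 - w 0 1 * w 1 0 + 1) * h)
  have hg : g ∈ Gamma0 N := mem_Gamma0_iff_dvd.2 ⟨e * (a + w 1 1), by
    subst hN
    simp [g, he]; ring⟩
  have key : wMat M q * wMat M q = mapGL ℝ g * (heckeDiagMatrix q * heckeMatrix q 0) := by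
    have ha' : ((w 0 0 : ℤ) : ℝ) = (q : ℝ) * a := by exact_mod_cast ha
    ext i j
    simp only [wMat, ← hw, Units.val_mul, Matrix.mul_apply, Fin.sum_univ_two]
    fin_cases i <;> fin_cases j <;>
      simp [g, hq.ne_zero, ha'] <;> ring
  rw [← SlashAction.slash_mul, key, SlashAction.slash_mul, ← slash_SL_eq,
    slash_eq_self f hg, SlashAction.slash_mul, slash_scalar q hq.ne_zero]

/-- Decomposition of an integral matrix of determinant `l` along the representatives. -/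
theorem exists_lRep_decomp {l : ℕ} (hl : l.Prime) (a b c d : ℤ) (hdet : a * d - b * c = l)
    (hc : (N : ℤ) ∣ c) :
    ∃ (x : Option (ZMod l)) (g : SL(2, ℤ)), g ∈ Gamma0 N ∧
      (l ∣ N → (x = none ↔ (l : ℤ) ∣ a)) ∧
      (l ∣ N ∧ x = none ∨
        ((mapGL ℝ g * lRep l x : GL (Fin 2) ℝ) : Matrix (Fin 2) (Fin 2) ℝ) =
          !![(a : ℝ), (b : ℝ); (c : ℝ), (d : ℝ)]) := by
  have : Fact l.Prime := ⟨hl⟩
  have hdet' := congrArg (Int.cast : ℤ → ZMod l) hdet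
  push_cast at hdet'
  rw [ZMod.natCast_self] at hdet'
  by_cases hac : (l : ℤ) ∣ a ∧ (l ∣ N ∨ (l : ℤ) ∣ c)
  · refine ⟨none, ?_⟩
    by_cases hlN : l ∣ N
    · exact ⟨1, one_mem _, fun _ => iff_of_true rfl hac.1, Or.inl ⟨hlN, rfl⟩⟩
    · obtain ⟨a', rfl⟩ := hac.1
      obtain ⟨c', rfl⟩ := hac.2.resolve_left hlN
      refine ⟨mkSL a' b c' d ?_, mem_Gamma0_iff_dvd.2 ?_, fun h => absurd h hlN,
        Or.inr ?_⟩
      · refine mul_left_cancel₀ (Int.natCast_ne_zero.2 hl.ne_zero) ?_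
        linear_combination hdet
      · exact (Nat.isCoprime_iff_coprime.mpr
          (hl.coprime_iff_not_dvd.2 hlN).symm).dvd_of_dvd_mul_left hc
      · ext i j
        fin_cases i <;> fin_cases j <;>
          simp [lRep, Matrix.mul_apply, Fin.sum_univ_two, hl.ne_zero] <;> ring
  · set j : ZMod l :=
      if (a : ZMod l) = 0 then (d : ZMod l) / (c : ZMod l) else (b : ZMod l) / (a : ZMod l) with hj
    have hjb : (b : ZMod l) = j * a ∧ (d : ZMod l) = j * c := by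
      by_cases ha : (a : ZMod l) = 0
      · have hc0 : (c : ZMod l) ≠ 0 := fun h => hac
          ⟨(ZMod.intCast_zmod_eq_zero_iff_dvd _ _).1 ha,
            Or.inr ((ZMod.intCast_zmod_eq_zero_iff_dvd _ _).1 h)⟩
        have hb : (b : ZMod l) = 0 := by
          rw [ha, zero_mul, zero_sub, neg_eq_zero, mul_eq_zero] at hdet'
          exact hdet'.resolve_right hc0
        rw [hj, if_pos ha]
        exact ⟨by simp [ha, hb], (div_mul_cancel₀ _ hc0).symm⟩
      · rw [hj, if_neg ha]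
        refine ⟨(div_mul_cancel₀ _ ha).symm, ?_⟩
        field_simp
        linear_combination hdet'
    obtain ⟨e1, he1⟩ : (l : ℤ) ∣ b - j.val * a := by
      rw [← ZMod.intCast_zmod_eq_zero_iff_dvd]
      push_cast
      rw [ZMod.natCast_zmod_val, hjb.1, sub_self]
    obtain ⟨e2, he2⟩ : (l : ℤ) ∣ d - j.val * c := by
      rw [← ZMod.intCast_zmod_eq_zero_iff_dvd]
      push_cast
      rw [ZMod.natCast_zmod_val, hjb.2, sub_self]
    refine ⟨some j, mkSL a e1 c e2 ?_, mem_Gamma0_iff_dvd.2 hc,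
      fun hlN => iff_of_false (Option.some_ne_none j) (fun h => hac ⟨h, Or.inl hlN⟩),
      Or.inr ?_⟩
    · refine mul_left_cancel₀ (Int.natCast_ne_zero.2 hl.ne_zero) ?_
      linear_combination hdet - a * he2 + c * he1
    · have h1 : (b : ℝ) = j.val * a + l * e1 := by
        exact_mod_cast (show b = j.val * a + l * e1 by linear_combination he1)
      have h2 : (d : ℝ) = j.val * c + l * e2 := by
        exact_mod_cast (show d = j.val * c + l * e2 by linear_combination he2)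
      ext i k
      fin_cases i <;> fin_cases k <;>
        simp [lRep, Matrix.mul_apply, Fin.sum_univ_two, hl.ne_zero, h1, h2] <;> ring

theorem lRep_inj {l : ℕ} (hl : l.Prime) {x y : Option (ZMod l)} {h : SL(2, ℤ)}
    (e : lRep l x = mapGL ℝ h * lRep l y) : x = y := by
  have : Fact l.Prime := ⟨hl⟩
  have E := fun i j => congrArg (fun g : GL (Fin 2) ℝ => (g : Matrix (Fin 2) (Fin 2) ℝ) i j) e
  have h00 := E 0 0
  have h01 := E 0 1
  cases x <;> cases y <;>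
    simp [lRep, Matrix.mul_apply, Fin.sum_univ_two, hl.ne_zero, -ZMod.natCast_val] at h00 h01
  · rfl
  · rename_i j
    exfalso
    rw [← h00] at h01
    have hz : (0 : ℤ) = (l : ℤ) * j.val + h 0 1 * l := by exact_mod_cast h01
    have h10 := E 1 0
    simp [lRep, Matrix.mul_apply, Fin.sum_univ_two, hl.ne_zero, -ZMod.natCast_val] at h10
    have h10' : h 1 0 = 0 := by exact_mod_cast h10.symm
    have hd := det_SL_eq h
    rw [h10', mul_zero, sub_zero] at hd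
    have h00' : h 0 0 = (l : ℤ) := by exact_mod_cast h00.symm
    rw [h00'] at hd
    have := Int.isUnit_iff.1 (IsUnit.of_mul_eq_one _ hd)
    have := hl.two_le
    omega
  · exfalso
    have hd : (1 : ℤ) = h 0 0 * l := by exact_mod_cast h00
    have := Int.isUnit_iff.1 (IsUnit.of_mul_eq_one_right _ hd.symm)
    have := hl.two_le
    omega
  · rename_i i j
    rw [← h00, one_mul] at h01
    have hz : (i.val : ℤ) = j.val + h 0 1 * l := by exact_mod_cast h01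
    have := congrArg (Int.cast : ℤ → ZMod l) hz
    push_cast at this
    simpa [ZMod.natCast_zmod_val] using this

theorem exists_wMat_lRep (hN : M * q = N) (hq : q.Prime) (hqM : ¬ q ∣ M) {l : ℕ} (hl : l.Prime)
    (hlq : l ≠ q) (x : Option (ZMod l)) :
    ∃ (y : Option (ZMod l)), (l ∣ N → x ≠ none → y ≠ none) ∧ (l ∣ N ∧ y = none ∨
      ∃ g ∈ Gamma0 N, wMat M q * lRep l x = mapGL ℝ g * lRep l y * wMat M q) := by
  obtain ⟨A, B, D, hAD, hR, hA⟩ : ∃ A B D : ℤ, A * D = l ∧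
      (lRep l x : Matrix (Fin 2) (Fin 2) ℝ) = !![(A : ℝ), (B : ℝ); 0, (D : ℝ)] ∧
      (x ≠ none → A = 1) := by
    cases x with
    | none => exact ⟨l, 0, 1, by simp, by simp [lRep, hl.ne_zero], fun h => absurd rfl h⟩
    | some j => exact ⟨1, j.val, l, by simp, by simp [lRep, hl.ne_zero, -ZMod.natCast_val], fun _ => rfl⟩
  obtain ⟨a, ha⟩ := omegaSL_zero_zero hq hqM
  obtain ⟨e, he⟩ := mem_Gamma0_iff_dvd.1 (omegaSL_mem M q)
  set w := omegaSL M q with hw
  have hdet := det_SL_eq w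
  set F01 : ℤ := -w 0 1 * a * A + a * (w 0 0 * B + w 0 1 * D)
  set F00 : ℤ := w 0 0 * A * w 1 1 - (w 0 0 * B + w 0 1 * D) * w 1 0
  set E10 : ℤ := w 1 0 * A * w 1 1 - (w 1 0 * B + w 1 1 * D) * w 1 0
  set F11 : ℤ := -w 1 0 * A * w 0 1 + (w 1 0 * B + w 1 1 * D) * w 0 0
  have hFdet : F00 * F11 - F01 * ((q : ℤ) * E10) = l := by
    simp only [F00, F01, E10, F11]
    linear_combination hAD + (A * D * (w 0 0 * w 1 1 - w 0 1 * w 1 0 + 1)) * hdet +
      ((w 1 0 * A * w 1 1 - (w 1 0 * B + w 1 1 * D) * w 1 0) *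
        (-w 0 1 * A + (w 0 0 * B + w 0 1 * D))) * ha
  have hFc : (N : ℤ) ∣ (q : ℤ) * E10 := by
    subst hN
    exact ⟨e * (A * w 1 1 - (w 1 0 * B + w 1 1 * D)), by simp only [E10, he]; push_cast; ring⟩
  obtain ⟨y, g, hg, hy, hyg⟩ := exists_lRep_decomp (N := N) hl _ _ _ _ hFdet hFc
  refine ⟨y, fun hlN hx hyn => ?_, hyg.imp id fun hyg => ⟨g, hg, ?_⟩⟩
  · have hlM : (l : ℤ) ∣ w 1 0 := by
      have : l ∣ M := ((hl.dvd_mul).1 (hN ▸ hlN)).resolve_right
        fun h => hlq ((Nat.prime_dvd_prime_iff_eq hl hq).1 h)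
      exact (Int.natCast_dvd_natCast.2 this).trans ⟨e, he⟩
    have hF := (hy hlN).1 hyn
    simp only [F00, hA hx, mul_one] at hF
    have h1 : (l : ℤ) ∣ 1 := by
      have h' : (1 : ℤ) = (w 0 0 * w 1 1 - (w 0 0 * B + w 0 1 * D) * w 1 0) +
          w 1 0 * ((w 0 0 * B + w 0 1 * D) - w 0 1) := by linear_combination -hdet
      rw [h']
      exact dvd_add hF (hlM.mul_right _)
    exact hl.one_lt.ne' (Nat.dvd_one.1 (by exact_mod_cast h1))
  · refine Units.ext ?_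
    rw [Units.val_mul, Units.val_mul (mapGL ℝ g * lRep l y), hyg, hR]
    have ha' : ((w 0 0 : ℤ) : ℝ) = (q : ℝ) * a := by exact_mod_cast ha
    have hd' : ((w 0 0 : ℤ) : ℝ) * w 1 1 - w 0 1 * w 1 0 = 1 := by exact_mod_cast hdet
    ext i j
    simp only [wMat, ← hw, Units.val_mul, Matrix.mul_apply, Fin.sum_univ_two]
    fin_cases i <;> fin_cases j <;>
      simp [hq.ne_zero, F00, F01, E10, F11, ha']
    all_goals (rw [ha'] at hd')
    · linear_combination (-(q : ℝ) * a * A) * hd'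
    · linear_combination (-((q : ℝ) * a * B + w 0 1 * D)) * hd'
    · linear_combination (-(q : ℝ) * w 1 0 * A) * hd'
    · linear_combination (-(q : ℝ) * (w 1 0 * B + w 1 1 * D)) * hd'

theorem wMat_conj_symm (hN : M * q = N) (hq : q ≠ 0) {g : SL(2, ℤ)} (hg : g ∈ Gamma0 N) :
    ∃ h : SL(2, ℤ), mapGL ℝ g * wMat M q = wMat M q * mapGL ℝ h := by
  obtain ⟨c, hc⟩ : (q : ℤ) ∣ g 1 0 :=
    (Int.natCast_dvd_natCast.2 (Dvd.intro_left M hN)).trans (mem_Gamma0_iff_dvd.1 hg)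
  let g1 : SL(2, ℤ) := mkSL (g 0 0) ((q : ℤ) * g 0 1) c (g 1 1)
    (by linear_combination det_SL_eq g + g 0 1 * hc)
  have h1 : mapGL ℝ g * heckeMatrix q 0 = heckeMatrix q 0 * mapGL ℝ g1 := by
    have hc' : ((g 1 0 : ℤ) : ℝ) = (q : ℝ) * c := by exact_mod_cast hc
    ext i j
    fin_cases i <;> fin_cases j <;> simp [g1, Matrix.mul_apply, Fin.sum_univ_two, hq, hc'] <;> ring
  refine ⟨(omegaSL M q)⁻¹ * g1 * omegaSL M q, ?_⟩
  simp only [wMat, map_mul, map_inv]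
  rw [← mul_assoc, h1]
  simp [mul_assoc]

theorem atkinLehner_slash_sum (hN : M * q = N) (hq : q.Prime) (hqM : ¬ q ∣ M) {l : ℕ}
    (hl : l.Prime) (hlq : l ≠ q) (f : S2 N) :
    (¬ l ∣ N → heckeT 2 l (⇑f ∣[(2 : ℤ)] wMat M q) = (heckeT 2 l ⇑f) ∣[(2 : ℤ)] wMat M q) ∧
    (l ∣ N → heckeU 2 l (⇑f ∣[(2 : ℤ)] wMat M q) = (heckeU 2 l ⇑f) ∣[(2 : ℤ)] wMat M q) := by
  have : NeZero l := ⟨hl.ne_zero⟩
  have hex := fun x => exists_wMat_lRep hN hq hqM hl hlq x
  choose σ hσ0 hσ using hex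
  have hinj : ∀ x y, σ x = σ y → (l ∣ N → x ≠ none ∧ y ≠ none) → x = y := by
    intro x y hxy hn
    have hx := (hσ x).resolve_left fun h => hσ0 x h.1 (hn h.1).1 h.2
    have hy := (hσ y).resolve_left fun h => hσ0 y h.1 (hn h.1).2 h.2
    obtain ⟨g, hg, hge⟩ := hx
    obtain ⟨g', hg', hge'⟩ := hy
    obtain ⟨h, hh⟩ := wMat_conj_symm hN hq.ne_zero (mul_mem hg (inv_mem hg'))
    refine lRep_inj hl (h := h) (mul_left_cancel (a := wMat M q) ?_)
    rw [hge, hxy, ← mul_assoc, ← hh, mul_assoc (mapGL ℝ (g * g'⁻¹)), hge', map_mul, map_inv]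
    simp [mul_assoc]
  have hterm : ∀ x, (l ∣ N → x ≠ none) → (⇑f ∣[(2 : ℤ)] wMat M q) ∣[(2 : ℤ)] lRep l x =
      (⇑f ∣[(2 : ℤ)] lRep l (σ x)) ∣[(2 : ℤ)] wMat M q := by
    intro x hx
    obtain ⟨g, hg, hge⟩ := (hσ x).resolve_left fun h => hσ0 x h.1 (hx h.1) h.2
    rw [← SlashAction.slash_mul, hge, SlashAction.slash_mul, SlashAction.slash_mul,
      ← slash_SL_eq, slash_eq_self f hg]
  constructor
  · intro hlN
    rw [heckeT_eq_sum_lRep, heckeT_eq_sum_lRep, SlashAction.sum_slash,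
      ← (Equiv.ofBijective σ (Finite.injective_iff_bijective.1
        fun x y h => hinj x y h fun h' => absurd h' hlN)).sum_comp
        (fun x => (⇑f ∣[(2 : ℤ)] lRep l x) ∣[(2 : ℤ)] wMat M q)]
    exact Finset.sum_congr rfl fun x _ => hterm x fun h => absurd h hlN
  · intro hlN
    have hsome : ∀ j : ZMod l, ∃ k, σ (some j) = some k := fun j =>
      Option.ne_none_iff_exists'.1 (hσ0 _ hlN (Option.some_ne_none j))
    choose τ hτ using hsome
    have hτi : Function.Injective τ := fun i j h => Option.some_injective _ <|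
      hinj (some i) (some j) (by rw [hτ, hτ, h]) fun _ => ⟨Option.some_ne_none i, Option.some_ne_none j⟩
    rw [heckeU_eq_sum_lRep, heckeU_eq_sum_lRep, SlashAction.sum_slash,
      ← (Equiv.ofBijective τ (Finite.injective_iff_bijective.1 hτi)).sum_comp
        (fun j => (⇑f ∣[(2 : ℤ)] lRep l (some j)) ∣[(2 : ℤ)] wMat M q)]
    refine Finset.sum_congr rfl fun j _ => ?_
    rw [hterm (some j) (fun _ => Option.some_ne_none j), hτ]
    rfl

end Fermat.Agent.Newforms
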