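import Fermat.Agent.Newforms.AtkinLehner

/-!
Coefficients of newforms at bad primes; degeneracy traces and the new space at a prime dividing the
level exactly once.
-/

set_option autoImplicit false

noncomputable section

namespace Fermat.Agent.Newforms

open ModularFormClass ModularForm Matrix.SpecialLinearGroup CongruenceSubgroup UpperHalfPlane
open scoped MatrixGroups ModularForm

variable {N M q : ℕ}

theorem isCuspidal_heckeU [NeZero N] (hqN : q ∣ N) (f : S2 N) : IsCuspidal (heckeU 2 q ⇑f) := by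
  rw [← CuspForm.coe_heckeULin_apply 2 hqN]
  exact isCuspidal_coe _

/-- When `q² ∣ N`, the operator `U_q` lands in level `N / q`. -/
theorem heckeU_invariant_lower [NeZero N] (hN : M * q = N) (hqM : q ∣ M) (f : S2 N) {g : SL(2, ℤ)}
    (hg : g ∈ Gamma0 M) : heckeU 2 q ⇑f ∣[(2 : ℤ)] g = heckeU 2 q ⇑f := by
  have hq : q ≠ 0 := fun h => NeZero.ne N (by rw [← hN, h, mul_zero])
  have : NeZero q := ⟨hq⟩
  have hMg := mem_Gamma0_iff_dvd.1 hg
  have hqg : (q : ℤ) ∣ g 1 0 := (Int.natCast_dvd_natCast.2 hqM).trans hMg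
  obtain ⟨c, hc⟩ := hqg
  have had : ((g 0 0 : ℤ) : ZMod q) * ((g 1 1 : ℤ) : ZMod q) = 1 := by
    have h := congrArg (Int.cast : ℤ → ZMod q) (det_SL_eq g)
    rw [hc] at h
    push_cast at h
    simpa using h
  let e : ZMod q ≃ ZMod q :=
    { toFun := fun j => ((g 1 1 : ℤ) : ZMod q) * (((g 0 1 : ℤ) : ZMod q) + ((g 1 1 : ℤ) : ZMod q) * j)
      invFun := fun j => ((g 0 0 : ℤ) : ZMod q) *
        (((g 0 0 : ℤ) : ZMod q) * j - ((g 0 1 : ℤ) : ZMod q))
      left_inv := fun j => by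
        linear_combination (((g 0 0 : ℤ) : ZMod q) * ((g 0 1 : ℤ) : ZMod q)
          + j * (((g 0 0 : ℤ) : ZMod q) * ((g 1 1 : ℤ) : ZMod q) + 1)) * had
      right_inv := fun j => by
        linear_combination (-(((g 1 1 : ℤ) : ZMod q) * ((g 0 1 : ℤ) : ZMod q))
          + j * (((g 0 0 : ℤ) : ZMod q) * ((g 1 1 : ℤ) : ZMod q) + 1)) * had }
  have key : ∀ i : ZMod q, ∃ h ∈ Gamma0 N,
      lRep q (some i) * mapGL ℝ g = mapGL ℝ h * lRep q (some (e i)) := by
    intro i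
    obtain ⟨b, hb⟩ : (q : ℤ) ∣ g 0 1 + i.val * g 1 1 -
        (e i).val * (g 0 0 + i.val * g 1 0) := by
      rw [← ZMod.intCast_zmod_eq_zero_iff_dvd, hc]
      push_cast
      rw [ZMod.natCast_zmod_val, ZMod.natCast_zmod_val, ZMod.natCast_self]
      show _ - ((g 1 1 : ℤ) : ZMod q) * (_ + _ * i) * _ = 0
      linear_combination (-(((g 0 1 : ℤ) : ZMod q) + ((g 1 1 : ℤ) : ZMod q) * i)) * had
    refine ⟨mkSL (g 0 0 + i.val * g 1 0) b ((q : ℤ) * g 1 0) (g 1 1 - g 1 0 * (e i).val) ?_,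
      mem_Gamma0_iff_dvd.2 ?_, ?_⟩
    · linear_combination det_SL_eq g + g 1 0 * hb
    · show (N : ℤ) ∣ (q : ℤ) * g 1 0
      rw [← hN, Nat.cast_mul, mul_comm (M : ℤ)]
      exact mul_dvd_mul_left _ hMg
    · have hb' : ((g 0 1 : ℤ) : ℝ) = -((i.val : ℝ) * g 1 1) +
          ((e i).val : ℝ) * (g 0 0 + (i.val : ℝ) * g 1 0) + (q : ℝ) * b := by
        have := congrArg (Int.cast : ℤ → ℝ) hb
        push_cast at this
        linear_combination this
      ext r s
      simp only [Units.val_mul, Matrix.mul_apply, Fin.sum_univ_two]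
      fin_cases r <;> fin_cases s <;> simp [lRep, hq, hb', -ZMod.natCast_val] <;> ring
  rw [heckeU_eq_sum_lRep, SlashAction.sum_slash,
    ← e.sum_comp (fun j => ⇑f ∣[(2 : ℤ)] lRep q (some j))]
  refine Finset.sum_congr rfl fun i _ => ?_
  obtain ⟨h, hh, he⟩ := key i
  rw [slash_SL_eq, ← SlashAction.slash_mul, he, SlashAction.slash_mul, ← slash_SL_eq,
    slash_eq_self f hh]

/-- `U_q : S₂(N) → S₂(N/q)` for `q² ∣ N`. -/
def heckeULower [NeZero N] [NeZero M] (hN : M * q = N) (hqM : q ∣ M) : S2 N →ₗ[ℂ] S2 M where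
  toFun f := mkForm M (heckeU 2 q ⇑f) (isCuspidal_heckeU (Dvd.intro_left M hN) f)
    fun _ hg => heckeU_invariant_lower hN hqM f hg
  map_add' f g := DFunLike.coe_injective (heckeU_add 2 q ⇑f ⇑g)
  map_smul' c f := DFunLike.coe_injective (heckeU_smul 2 q c ⇑f)

theorem raiseLin_heckeULower [NeZero N] [NeZero M] (hN : M * q = N) (hqM : q ∣ M) (f : S2 N) :
    raiseLin ⟨q, hN.symm⟩ (heckeULower hN hqM f) =
      CuspForm.heckeULin 2 (Dvd.intro_left M hN) f :=
  DFunLike.coe_injective rfl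

theorem sum_hRep_slash_delta [NeZero q] (φ : ℍ → ℂ) :
    (∑ x : Option (ZMod q), (φ ∣[(2 : ℤ)] heckeMatrix q 0) ∣[(2 : ℤ)] hRep M q x) =
      heckeU 2 q φ + φ ∣[(2 : ℤ)] wMat M q := by
  rw [Fintype.sum_option, heckeU_eq_sum_lRep, add_comm]
  congr 1
  · refine Finset.sum_congr rfl fun j _ => ?_
    rw [slash_SL_eq, ← SlashAction.slash_mul]
    show φ ∣[(2 : ℤ)] (heckeMatrix q 0 * mapGL ℝ (upperSL j.val)) = _
    rw [← heckeMatrix_eq_zero_mul q _ (NeZero.ne q)]
    rfl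
  · rw [slash_SL_eq, ← SlashAction.slash_mul]
    rfl

/-- The degeneracy trace `f ↦ U_q f + W_q f` from level `N = M q` to level `M`. -/
def levelDown [NeZero N] [NeZero M] (hN : M * q = N) (hq : q.Prime) (hqM : ¬ q ∣ M) :
    S2 N →ₗ[ℂ] S2 M where
  toFun f := mkForm M (heckeU 2 q ⇑f + ⇑f ∣[(2 : ℤ)] wMat M q)
    ((isCuspidal_heckeU (Dvd.intro_left M hN) f).add ((isCuspidal_coe f).slash_wMat M q))
    fun g hg => by
      have : NeZero q := ⟨hq.ne_zero⟩
      rw [← sum_hRep_slash_delta]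
      exact sum_hRep_invariant hq hqM _ (fun h hh => slash_delta_invariant hN hq.ne_zero f hh) hg
  map_add' f g := DFunLike.coe_injective (by
    simp only [coe_mkForm, FunLike.coe_add, heckeU_add, SlashAction.add_slash]
    abel)
  map_smul' c f := DFunLike.coe_injective (by
    have h := congrArg DFunLike.coe ((atkinLehner hN hq hqM).map_smul c f)
    simp only [coe_atkinLehner, FunLike.coe_smul] at h
    simp only [coe_mkForm, FunLike.coe_smul, heckeU_smul, h, RingHom.id_apply, smul_add])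

theorem raiseLin_levelDown [NeZero N] [NeZero M] (hN : M * q = N) (hq : q.Prime) (hqM : ¬ q ∣ M)
    (f : S2 N) : raiseLin ⟨q, hN.symm⟩ (levelDown hN hq hqM f) =
      CuspForm.heckeULin 2 (Dvd.intro_left M hN) f + atkinLehner hN hq hqM f :=
  DFunLike.coe_injective rfl

theorem atkinLehner_opAll_comm [NeZero N] (hN : M * q = N) (hq : q.Prime) (hqM : ¬ q ∣ M)
    (l : Nat.Primes) (hlq : (l : ℕ) ≠ q) (f : S2 N) :
    atkinLehner hN hq hqM (opAll N l f) = opAll N l (atkinLehner hN hq hqM f) := by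
  obtain ⟨l, hl⟩ := l
  have h := atkinLehner_slash_sum hN hq hqM hl hlq f
  refine DFunLike.coe_injective ?_
  by_cases hlN : l ∣ N
  · rw [opAll_of_dvd hl hlN]
    exact (h.2 hlN).symm
  · rw [opAll_of_not_dvd hl hlN]
    exact (h.1 hlN).symm

theorem atkinLehner_heckeTLin_comm [NeZero N] (hN : M * q = N) (hq : q.Prime) (hqM : ¬ q ∣ M)
    {l : ℕ} (hl : l.Prime) (hlN : ¬ l ∣ N) (f : S2 N) :
    atkinLehner hN hq hqM (CuspForm.heckeTLin 2 hl hlN f) =
      CuspForm.heckeTLin 2 hl hlN (atkinLehner hN hq hqM f) := by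
  rw [← opAll_of_not_dvd hl hlN]
  exact atkinLehner_opAll_comm hN hq hqM ⟨l, hl⟩
    (fun h => hlN (by rw [show l = q from h]; exact Dvd.intro_left M hN)) f

theorem levelDown_heckeTLin [NeZero N] [NeZero M] (hN : M * q = N) (hq : q.Prime) (hqM : ¬ q ∣ M)
    {l : ℕ} (hl : l.Prime) (hlN : ¬ l ∣ N) (f : S2 N) :
    levelDown hN hq hqM (CuspForm.heckeTLin 2 hl hlN f) =
      CuspForm.heckeTLin 2 hl (fun d => hlN (d.trans ⟨q, hN.symm⟩)) (levelDown hN hq hqM f) := by
  refine raiseLin_injective ⟨q, hN.symm⟩ ?_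
  rw [← heckeTLin_raiseLin _ hl hlN, raiseLin_levelDown, raiseLin_levelDown, map_add,
    atkinLehner_heckeTLin_comm hN hq hqM hl hlN]
  congr 1
  exact LinearMap.congr_fun (CuspForm.heckeTLin_heckeULin_comm 2 hl hlN
    (Dvd.intro_left M hN)).eq.symm f

/-- An eigenform whose eigensystem does not occur at level `N/q` is killed by any Hecke-equivariant
map to level `N/q`. -/
theorem map_eq_zero_of_not_occurs [NeZero N] [NeZero M] (hMN : M ∣ N) {f : S2 N}
    (hf : f.IsNormalizedEigenform) (hno : ¬ f.GoodEigensystemOccursAt M) (Φ : S2 N →ₗ[ℂ] S2 M)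
    (hΦ : ∀ (l : ℕ) (hl : l.Prime) (hlN : ¬ l ∣ N) (x : S2 N),
      Φ (CuspForm.heckeTLin 2 hl hlN x) =
        CuspForm.heckeTLin 2 hl (fun d => hlN (d.trans hMN)) (Φ x)) :
    Φ f = 0 := by
  by_contra hne
  obtain ⟨g, hg, he⟩ := exists_isNormalizedEigenform_of_eigenvector (N := M) {l | l ∣ N}
    (fun l => qCoeff f l) (Φ f) hne (fun l hl hlM hlN => by
      rw [← hΦ l hl hlN, heckeTLin_apply_of_isNormalizedEigenform hf hl hlN, map_smul])
  exact hno ⟨g, hg, fun l hl hlN => he l hl (fun d => hlN (d.trans hMN)) hlN⟩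

theorem qCoeff_eq_zero_of_isNewformAt {N : ℕ} [NeZero N] {f : S2 N} {q : ℕ} (hq : q.Prime)
    (hf : f.IsNewformAt q) (h2 : q ^ 2 ∣ N) : qCoeff f q = 0 := by
  obtain ⟨hfe, hqN, hno⟩ := hf
  have hN : N / q * q = N := Nat.div_mul_cancel hqN
  have : NeZero (N / q) := ⟨fun h => NeZero.ne N (by rw [← hN, h, zero_mul])⟩
  have hqM : q ∣ N / q := Nat.dvd_of_mul_dvd_mul_right hq.pos (by rwa [hN, ← sq])
  have h0 := map_eq_zero_of_not_occurs ⟨q, hN.symm⟩ hfe hno (heckeULower hN hqM)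
    fun l hl hlN x => by
      refine raiseLin_injective ⟨q, hN.symm⟩ ?_
      rw [← heckeTLin_raiseLin _ hl hlN, raiseLin_heckeULower, raiseLin_heckeULower]
      exact LinearMap.congr_fun (CuspForm.heckeTLin_heckeULin_comm 2 hl hlN hqN).eq.symm x
  have h := congrArg (fun x => raiseLin ⟨q, hN.symm⟩ x) h0
  simp only [raiseLin_heckeULower, map_zero] at h
  rw [heckeULin_apply_of_isNormalizedEigenform hfe hq hqN] at h
  exact (smul_eq_zero.1 h).resolve_right hfe.ne_zero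

theorem qCoeff_sq_eq_one_of_isNewformAt {N : ℕ} [NeZero N] {f : S2 N} {q : ℕ} (hq : q.Prime)
    (hf : f.IsNewformAt q) (h2 : ¬ q ^ 2 ∣ N) : qCoeff f q ^ 2 = 1 := by
  obtain ⟨hfe, hqN, hno⟩ := hf
  have hN : N / q * q = N := Nat.div_mul_cancel hqN
  have : NeZero (N / q) := ⟨fun h => NeZero.ne N (by rw [← hN, h, zero_mul])⟩
  have hqM : ¬ q ∣ N / q := fun h => h2 (by rw [sq, ← hN]; exact mul_dvd_mul_right h q)
  have h0 := map_eq_zero_of_not_occurs ⟨q, hN.symm⟩ hfe hno (levelDown hN hq hqM)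
    fun l hl hlN x => levelDown_heckeTLin hN hq hqM hl hlN x
  have h := congrArg (fun x => raiseLin ⟨q, hN.symm⟩ x) h0
  simp only [raiseLin_levelDown, map_zero] at h
  rw [heckeULin_apply_of_isNormalizedEigenform hfe hq hqN] at h
  have hW : atkinLehner hN hq hqM f = (-qCoeff f q) • f := by
    linear_combination (norm := module) h
  have h2' := atkinLehner_atkinLehner hN hq hqM f
  rw [hW, map_smul, hW, smul_smul] at h2'
  have := congrArg (fun x : S2 N => qCoeff x 1) h2'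
  simp only [qCoeff_smul, hfe.qCoeff_one, mul_one] at this
  linear_combination this

theorem qCoeff_sq_eq_one_or_occurs {N : ℕ} [NeZero N] {f : S2 N} {q : ℕ} (hq : q.Prime)
    (hqN : q ∣ N) (h2 : ¬ q ^ 2 ∣ N) (hf : f.IsNormalizedEigenform) :
    qCoeff f q ^ 2 = 1 ∨ f.GoodEigensystemOccursAt (N / q) := by
  by_cases h : f.GoodEigensystemOccursAt (N / q)
  · exact Or.inr h
  · exact Or.inl (qCoeff_sq_eq_one_of_isNewformAt hq ⟨hf, hqN, h⟩ h2)

theorem qCoeff_sq_eq_one {N : ℕ} [NeZero N] {f : S2 N} (hf : f.IsNewform) {q : ℕ} (hq : q.Prime)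
    (hqN : q ∣ N) (h2 : ¬ q ^ 2 ∣ N) : qCoeff f q ^ 2 = 1 :=
  qCoeff_sq_eq_one_of_isNewformAt hq (hf.isNewformAt hq hqN (NeZero.ne N)) h2

theorem qCoeff_eq_zero {N : ℕ} [NeZero N] {f : S2 N} (hf : f.IsNewform) {q : ℕ} (hq : q.Prime)
    (hqN : q ∣ N) (h2 : q ^ 2 ∣ N) : qCoeff f q = 0 :=
  qCoeff_eq_zero_of_isNewformAt hq (hf.isNewformAt hq hqN (NeZero.ne N)) h2

theorem newformBadPrimeCoeff (N : ℕ) [NeZero N] : CuspForm.NewformBadPrimeCoeff N :=
  fun _ hf _ hq hqN => ⟨qCoeff_sq_eq_one hf hq hqN, qCoeff_eq_zero hf hq hqN⟩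

/-- The space of forms of level `N = M q` killed by both degeneracy traces to level `M`. -/
def newSpaceAt [NeZero N] [NeZero M] (hN : M * q = N) (hq : q.Prime) (hqM : ¬ q ∣ M) :
    Submodule ℂ (S2 N) :=
  LinearMap.ker (levelDown hN hq hqM) ⊓
    LinearMap.ker ((levelDown hN hq hqM).comp (atkinLehner hN hq hqM))

theorem mem_newSpaceAt [NeZero N] [NeZero M] (hN : M * q = N) (hq : q.Prime) (hqM : ¬ q ∣ M)
    {f : S2 N} : f ∈ newSpaceAt hN hq hqM ↔
      levelDown hN hq hqM f = 0 ∧ levelDown hN hq hqM (atkinLehner hN hq hqM f) = 0 := by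
  simp [newSpaceAt]

theorem heckeULin_eq_neg_of_mem_newSpaceAt [NeZero N] [NeZero M] (hN : M * q = N) (hq : q.Prime)
    (hqM : ¬ q ∣ M) {f : S2 N} (hf : f ∈ newSpaceAt hN hq hqM) :
    CuspForm.heckeULin 2 (Dvd.intro_left M hN) f = -atkinLehner hN hq hqM f := by
  rw [eq_neg_iff_add_eq_zero, ← raiseLin_levelDown, ((mem_newSpaceAt hN hq hqM).1 hf).1, map_zero]

theorem newSpaceAt_stable [NeZero N] [NeZero M] (hN : M * q = N) (hq : q.Prime) (hqM : ¬ q ∣ M)
    (l : Nat.Primes) {f : S2 N} (hf : f ∈ newSpaceAt hN hq hqM) :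
    opAll N l f ∈ newSpaceAt hN hq hqM := by
  obtain ⟨h1, h2⟩ := (mem_newSpaceAt hN hq hqM).1 hf
  rw [mem_newSpaceAt]
  by_cases hlq : (l : ℕ) = q
  · obtain ⟨l, hl⟩ := l
    simp only at hlq
    subst hlq
    rw [opAll_of_dvd hl (Dvd.intro_left M hN),
      heckeULin_eq_neg_of_mem_newSpaceAt hN hq hqM hf]
    simp only [map_neg, neg_eq_zero, atkinLehner_atkinLehner]
    exact ⟨h2, h1⟩
  · have key : ∀ x, levelDown hN hq hqM x = 0 → levelDown hN hq hqM (opAll N l x) = 0 := by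
      intro x hx
      refine raiseLin_injective ⟨q, hN.symm⟩ ?_
      have h := congrArg (fun y => raiseLin ⟨q, hN.symm⟩ y) hx
      simp only [raiseLin_levelDown, map_zero] at h
      have hc : CuspForm.heckeULin 2 (Dvd.intro_left M hN) (opAll N l x) =
          opAll N l (CuspForm.heckeULin 2 (Dvd.intro_left M hN) x) := by
        rw [← opAll_of_dvd hq (Dvd.intro_left M hN)]
        exact LinearMap.congr_fun (opAll_commute ⟨q, hq⟩ l).eq x
      rw [map_zero, raiseLin_levelDown, atkinLehner_opAll_comm hN hq hqM l hlq, hc, ← map_add,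
        h, map_zero]
    exact ⟨key f h1, by rw [atkinLehner_opAll_comm hN hq hqM l hlq]; exact key _ h2⟩

/-- An eigensystem in the new space at `q` is that of a normalised eigenform with `a_q² = 1`. -/
theorem exists_newAt_eigenform_of_mem_newSpaceAt [NeZero N] [NeZero M] (hN : M * q = N)
    (hq : q.Prime) (hqM : ¬ q ∣ M) (S : Set ℕ) (lam : ℕ → ℂ) (h : S2 N) (h0 : h ≠ 0)
    (hmem : h ∈ newSpaceAt hN hq hqM)
    (heig : ∀ (l : ℕ) (hl : l.Prime) (hlN : ¬ l ∣ N), l ∉ S →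
      CuspForm.heckeTLin 2 hl hlN h = lam l • h) :
    ∃ g : S2 N, g.IsNormalizedEigenform ∧ g ∈ newSpaceAt hN hq hqM ∧ g.IsNewAt q ∧
      ∀ l : ℕ, l.Prime → ¬ l ∣ N → l ∉ S → qCoeff g l = lam l := by
  obtain ⟨g, ⟨hgn, hgl⟩, hge⟩ := exists_isNormalizedEigenform_mem
    (newSpaceAt hN hq hqM ⊓ goodEigenspace N S lam)
    (fun m x hx => ⟨newSpaceAt_stable hN hq hqM m hx.1, goodEigenspace_stable S lam m hx.2⟩)
    ((Submodule.ne_bot_iff _).2 ⟨h, ⟨hmem, mem_goodEigenspace.2 heig⟩, h0⟩)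
  refine ⟨g, hge, hgn, ?_, fun l hl hlN hlS => qCoeff_eq_of_mem_goodEigenspace hge hgl hl hlN hlS⟩
  have h := heckeULin_eq_neg_of_mem_newSpaceAt hN hq hqM hgn
  rw [heckeULin_apply_of_isNormalizedEigenform hge hq] at h
  have hW : atkinLehner hN hq hqM g = (-qCoeff g q) • g := by
    linear_combination (norm := module) h
  have h2' := atkinLehner_atkinLehner hN hq hqM g
  rw [hW, map_smul, hW, smul_smul] at h2'
  have := congrArg (fun x : S2 N => qCoeff x 1) h2'
  simp only [qCoeff_smul, hge.qCoeff_one, mul_one] at this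
  show qCoeff g q ^ 2 = 1
  linear_combination this

end Fermat.Agent.Newforms
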