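import Fermat.Agent.Newforms.BadPrimes

/-!
The degeneracy map `f(τ) ↦ f(pτ)` and the vanishing of forms supported on multiples of a prime not
dividing the level.
-/

set_option autoImplicit false

noncomputable section

namespace Fermat.Agent.Newforms

open ModularFormClass ModularForm Matrix.SpecialLinearGroup CongruenceSubgroup UpperHalfPlane
open scoped MatrixGroups ModularForm

variable {N M p : ℕ}

theorem IsCuspidal.slash_heckeDiag {φ : ℍ → ℂ} (h : IsCuspidal φ) (p : ℕ) :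
    IsCuspidal (φ ∣[(2 : ℤ)] heckeDiagMatrix p) := by
  rcases eq_or_ne p 0 with rfl | hp
  · simpa using h
  let g : GL (Fin 2) ℚ :=
    Matrix.GeneralLinearGroup.mkOfDetNeZero !![(p : ℚ), 0; 0, 1] (by simpa using hp)
  have hg : heckeDiagMatrix p = Matrix.GeneralLinearGroup.map (Rat.castHom ℝ) g := by
    ext i j
    fin_cases i <;> fin_cases j <;> simp [g, hp, Matrix.GeneralLinearGroup.mkOfDetNeZero]
  rw [hg]
  exact h.slash g

theorem exists_diag_conj [NeZero N] (h : M * p ∣ N) {g : SL(2, ℤ)} (hg : g ∈ Gamma0 N) :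
    ∃ g' ∈ Gamma0 M, heckeDiagMatrix p * mapGL ℝ g = mapGL ℝ g' * heckeDiagMatrix p := by
  have hp : p ≠ 0 := fun hp => NeZero.ne N (by simpa [hp] using h)
  obtain ⟨c, hc⟩ := (Int.natCast_dvd_natCast.2 h).trans (mem_Gamma0_iff_dvd.1 hg)
  refine ⟨mkSL (g 0 0) ((p : ℤ) * g 0 1) ((M : ℤ) * c) (g 1 1) ?_,
    mem_Gamma0_iff_dvd.2 (dvd_mul_right _ _), ?_⟩
  · push_cast at hc
    linear_combination det_SL_eq g + g 0 1 * hc
  · have hc' : ((g 1 0 : ℤ) : ℝ) = (M : ℝ) * p * c := by
      exact_mod_cast hc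
    ext i j
    simp only [Units.val_mul, Matrix.mul_apply, Fin.sum_univ_two]
    fin_cases i <;> fin_cases j <;> simp [hp, hc'] <;> ring

/-- `f ↦ f(pτ)` from level `M` to a level divisible by `M p`. -/
def degen [NeZero N] (p : ℕ) (h : M * p ∣ N) : S2 M →ₗ[ℂ] S2 N :=
  haveI : NeZero M := ⟨fun h0 => NeZero.ne N (by simpa [h0] using h)⟩
  { toFun := fun f => (p : ℂ)⁻¹ • mkForm N (⇑f ∣[(2 : ℤ)] heckeDiagMatrix p)
      ((isCuspidal_coe f).slash_heckeDiag p) (fun g hg => by
        obtain ⟨g', hg', he⟩ := exists_diag_conj h hg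
        rw [slash_SL_eq, ← SlashAction.slash_mul, he, SlashAction.slash_mul, ← slash_SL_eq,
          slash_eq_self f hg'])
    map_add' := fun f g => by
      rw [← smul_add]
      congr 1
      exact DFunLike.coe_injective (by simp [SlashAction.add_slash])
    map_smul' := fun c f => by
      rw [RingHom.id_apply, smul_comm c]
      congr 1
      refine DFunLike.coe_injective ?_
      show ⇑(c • f) ∣[(2 : ℤ)] heckeDiagMatrix p = c • (⇑f ∣[(2 : ℤ)] heckeDiagMatrix p)
      rw [FunLike.coe_smul, ModularForm.smul_slash, σ_heckeDiagMatrix]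
      rfl }

theorem coe_degen [NeZero N] (h : M * p ∣ N) (f : S2 M) :
    ⇑(degen p h f) = (p : ℂ)⁻¹ • (⇑f ∣[(2 : ℤ)] heckeDiagMatrix p) := rfl

theorem qCoeff_degen [NeZero N] (h : M * p ∣ N) (f : S2 M) (n : ℕ) :
    qCoeff (degen p h f) n = if p ∣ n then qCoeff f (n / p) else 0 := by
  have hp : p ≠ 0 := fun hp => NeZero.ne N (by simpa [hp] using h)
  have hM : M ∣ N := (dvd_mul_right M p).trans h
  have e : ⇑(CuspForm.heckeULin 2 ((dvd_mul_left p M).trans h) (raiseLin hM f) +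
      (p : ℂ) • degen p h f) = heckeT 2 p ⇑f := by
    rw [heckeT_eq_heckeU_add, FunLike.coe_add, FunLike.coe_smul, coe_degen, smul_smul,
      mul_inv_cancel₀ (Nat.cast_ne_zero.2 hp), one_smul]
    rfl
  have h1 := congrArg (fun φ : ℍ → ℂ => qCoeff φ n) e
  rw [qCoeff_add, qCoeff_smul, qCoeff_heckeULin, coe_raiseLin,
    ModularFormClass.qCoeff_heckeT f (one_mem_periods M) hp n, coeffHeckeT_apply,
    show ((2 : ℤ) - 1) = 1 from rfl, zpow_one] at h1
  refine mul_left_cancel₀ (Nat.cast_ne_zero.2 hp : (p : ℂ) ≠ 0) ?_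
  rw [mul_ite, mul_zero]
  linear_combination h1

theorem degen_injective [NeZero N] (h : M * p ∣ N) : Function.Injective (degen p h) := by
  have hp : p ≠ 0 := fun hp => NeZero.ne N (by simpa [hp] using h)
  have : NeZero M := ⟨fun h0 => NeZero.ne N (by simpa [h0] using h)⟩
  intro f g e
  refine ext_qCoeff fun n => ?_
  have h1 := congrArg (fun x : S2 N => qCoeff x (p * n)) e
  simpa [qCoeff_degen, Nat.mul_div_cancel_left _ (Nat.pos_of_ne_zero hp)] using h1

theorem degen_heckeTLin [NeZero N] (h : M * p ∣ N) {l : ℕ} (hl : l.Prime) (hlN : ¬ l ∣ N)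
    (f : S2 M) :
    degen p h (CuspForm.heckeTLin 2 hl (fun d => hlN (d.trans ((dvd_mul_right M p).trans h))) f) =
      CuspForm.heckeTLin 2 hl hlN (degen p h f) := by
  have hp : p ≠ 0 := fun hp => NeZero.ne N (by simpa [hp] using h)
  have hc : p.Coprime l := (hl.coprime_iff_not_dvd.2
    fun d => hlN (d.trans ((dvd_mul_left p M).trans h))).symm
  refine ext_qCoeff fun n => ?_
  rw [qCoeff_degen, qCoeff_heckeTLin, qCoeff_heckeTLin, qCoeff_degen, qCoeff_degen]
  by_cases hn : p ∣ n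
  · obtain ⟨m, rfl⟩ := hn
    have e1 : p * m * l / p = m * l := by
      rw [mul_assoc, Nat.mul_div_cancel_left _ (Nat.pos_of_ne_zero hp)]
    rw [if_pos (dvd_mul_right p m), Nat.mul_div_cancel_left _ (Nat.pos_of_ne_zero hp),
      if_pos (Dvd.dvd.mul_right (dvd_mul_right p m) l), e1]
    congr 1
    by_cases hm : l ∣ m
    · have e2 : p * m / l = p * (m / l) := Nat.mul_div_assoc p hm
      rw [if_pos hm, if_pos (hm.mul_left p), e2, if_pos (dvd_mul_right p _),
        Nat.mul_div_cancel_left _ (Nat.pos_of_ne_zero hp)]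
    · rw [if_neg hm, if_neg fun d => hm (hc.symm.dvd_of_dvd_mul_left d)]
  · rw [if_neg hn, if_neg fun d => hn (hc.dvd_of_dvd_mul_right d)]
    by_cases hm : l ∣ n
    · have : ¬ p ∣ n / l := fun d => hn (d.trans (Nat.div_dvd_of_dvd hm))
      simp [hm, this]
    · simp [hm]

/-- A form supported on multiples of `p ∤ N` is `u(pτ)` for a form `u` of the same level. -/
theorem exists_unstretch [NeZero N] (hp : p.Prime) (hpN : ¬ p ∣ N) (f : S2 N)
    (hf : ∀ n, ¬ p ∣ n → qCoeff f n = 0) :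
    ∃ u : S2 N, ∀ n, qCoeff f n = if p ∣ n then qCoeff u (n / p) else 0 := by
  have : NeZero (N * p) := ⟨mul_ne_zero (NeZero.ne N) hp.ne_zero⟩
  have : NeZero (N * p * p) := ⟨mul_ne_zero (NeZero.ne _) hp.ne_zero⟩
  set v := CuspForm.heckeULin 2 (dvd_mul_left p N) (raiseLin (dvd_mul_right N p) f) with hv
  have e : raiseLin ((dvd_mul_right N p).trans (dvd_mul_right _ p)) f =
      degen p (dvd_refl (N * p * p)) v := by
    refine ext_qCoeff fun n => ?_
    rw [qCoeff_degen, hv, qCoeff_heckeULin, coe_raiseLin, coe_raiseLin]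
    by_cases h : p ∣ n
    · rw [if_pos h, Nat.div_mul_cancel h]
    · rw [if_neg h, hf n h]
  have ef : ⇑f = (p : ℂ)⁻¹ • (⇑v ∣[(2 : ℤ)] heckeDiagMatrix p) := by
    rw [← coe_degen (dvd_refl (N * p * p)) v, ← e, coe_raiseLin]
  have ev : ⇑v = (p : ℂ) • (⇑f ∣[(2 : ℤ)] heckeMatrix p 0) := by
    rw [ef, ModularForm.smul_slash, σ_heckeMatrix, slash_scalar p hp.ne_zero, smul_smul]
    simp [hp.ne_zero]
  let u : S2 N := mkForm N ⇑v (isCuspidal_coe v) fun g hg => by
    refine invariant_of_upperSL hp hpN _ (fun h hh => ?_)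
      (fun x => slash_eq_self v (upperSL_mem_Gamma0 _ x)) hg
    rw [ev, ModularForm.SL_smul_slash]
    congr 1
    have := slash_delta_invariant (N := N * p) rfl hp.ne_zero (raiseLin (dvd_mul_right N p) f) hh
    simpa using this
  refine ⟨u, fun n => ?_⟩
  show _ = if p ∣ n then qCoeff v (n / p) else 0
  rw [← qCoeff_degen (dvd_refl (N * p * p)) v n, ← e, coe_raiseLin]

/-- A form supported on multiples of `p ∤ N` vanishes. -/
theorem eq_zero_of_supported [NeZero N] (hp : p.Prime) (hpN : ¬ p ∣ N) (f : S2 N)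
    (hf : ∀ n, ¬ p ∣ n → qCoeff f n = 0) : f = 0 := by
  have key : ∀ i : ℕ, ∃ w : S2 N, ∀ n, qCoeff w n = if p ^ i ∣ n then qCoeff f (n / p ^ i) else 0 := by
    intro i
    induction i with
    | zero => exact ⟨f, fun n => by simp⟩
    | succ i ih =>
      obtain ⟨w, hw⟩ := ih
      have hws : ∀ n, ¬ p ∣ n → qCoeff w n = 0 := by
        intro n hn
        rw [hw]
        split_ifs with h
        · exact hf _ fun d => hn (d.trans (Nat.div_dvd_of_dvd h))
        · rfl
      obtain ⟨u, hu⟩ := exists_unstretch hp hpN w hws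
      refine ⟨(p : ℂ)⁻¹ • (CuspForm.heckeTLin 2 hp hpN w - u), fun n => ?_⟩
      rw [qCoeff_smul, qCoeff_sub, qCoeff_heckeTLin, hu (n * p), if_pos (dvd_mul_left p n),
        Nat.mul_div_cancel _ hp.pos, add_sub_cancel_left]
      by_cases h : p ∣ n
      · rw [if_pos h, ← mul_assoc, inv_mul_cancel₀ (Nat.cast_ne_zero.2 hp.ne_zero), one_mul, hw,
          pow_succ']
        obtain ⟨m, rfl⟩ := h
        rw [Nat.mul_div_cancel_left _ hp.pos, Nat.mul_div_mul_left _ _ hp.pos]
        simp only [Nat.mul_dvd_mul_iff_left hp.pos]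
      · rw [if_neg h, mul_zero, if_neg fun d => h ((dvd_pow_self p i.succ_ne_zero).trans d)]
  refine eq_zero_of_qCoeff fun m => ?_
  set B := (2 * (Gamma0 N).index : ℤ).toNat / 12 with hB
  obtain ⟨i, hi⟩ : ∃ i, B < p ^ i := ⟨B + 1, (Nat.lt_succ_self B).trans_le (Nat.lt_pow_self hp.one_lt).le⟩
  obtain ⟨w, hw⟩ := key i
  have hw0 : w = 0 := qCoeff_eq_zero_of_le_bound fun n hn => by
    rw [hw]
    split_ifs with h
    · rcases Nat.eq_zero_or_pos n with rfl | hn0
      · rw [Nat.zero_div, qCoeff_cusp_zero]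
      · exact absurd (Nat.le_of_dvd hn0 h) (by omega)
    · rfl
  have h1 := hw (p ^ i * m)
  rw [hw0, FunLike.coe_zero, qCoeff_zero_fun, if_pos (dvd_mul_right _ m),
    Nat.mul_div_cancel_left _ (pow_pos hp.pos i)] at h1
  exact h1.symm

end Fermat.Agent.Newforms
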