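import Fermat.Agent.Newforms.MainLemma

/-!
Multiplicity one for newforms, from the Atkin--Lehner main lemma.
-/

set_option autoImplicit false

noncomputable section

namespace Fermat.Agent.Newforms

open ModularFormClass

/-- If the coefficients vanish at indices prime to `D ∪ {p}` with `p ∤ N`, they already vanish at
indices prime to `D`. -/
theorem vanish_drop_prime (p : ℕ) (hp : p.Prime) (D : Finset ℕ) :
    ∀ (N : ℕ) [NeZero N], ¬ p ∣ N → (∀ q ∈ D, q.Prime ∧ q ≠ p) → ∀ f : S2 N,
      (∀ n, ¬ p ∣ n → (∀ q ∈ D, ¬ q ∣ n) → qCoeff f n = 0) →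
      ∀ n, (∀ q ∈ D, ¬ q ∣ n) → qCoeff f n = 0 := by
  induction D using Finset.induction with
  | empty =>
    intro N _ hpN _ f hf n _
    rw [eq_zero_of_supported hp hpN f (fun m hm => hf m hm (by simp)), FunLike.coe_zero,
      qCoeff_zero_fun]
  | insert q D hqD ih =>
    intro N _ hpN hD f hf n hn
    obtain ⟨hq, hqp⟩ := hD q (Finset.mem_insert_self q D)
    have : NeZero (N * q * q) := ⟨mul_ne_zero (mul_ne_zero (NeZero.ne N) hq.ne_zero) hq.ne_zero⟩
    have : NeZero (N * q) := ⟨mul_ne_zero (NeZero.ne N) hq.ne_zero⟩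
    have hpL : ¬ p ∣ N * q * q := by
      have h1 : ¬ p ∣ q := fun h => hqp ((Nat.prime_dvd_prime_iff_eq hp hq).1 h).symm
      exact fun h => (hp.dvd_mul.1 h).elim (fun h' => (hp.dvd_mul.1 h').elim hpN h1) h1
    set f1 : S2 (N * q * q) := raiseLin ((dvd_mul_right N q).trans (dvd_mul_right _ q)) f -
      degen q (dvd_refl (N * q * q))
        (CuspForm.heckeULin 2 (dvd_mul_left q N) (raiseLin (dvd_mul_right N q) f)) with hf1
    have hc : ∀ m, qCoeff f1 m = if q ∣ m then 0 else qCoeff f m := by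
      intro m
      rw [hf1, qCoeff_sub, qCoeff_degen, qCoeff_heckeULin, coe_raiseLin, coe_raiseLin]
      by_cases h : q ∣ m
      · rw [if_pos h, if_pos h, Nat.div_mul_cancel h, sub_self]
      · rw [if_neg h, if_neg h, sub_zero]
    have hd := ih (N * q * q) hpL (fun r hr => hD r (Finset.mem_insert_of_mem hr)) f1
      (fun m hm hm' => by
        rw [hc]
        split_ifs with h
        · rfl
        · exact hf m hm fun r hr => (Finset.mem_insert.1 hr).elim (fun e => e ▸ h) (hm' r))
      n (fun r hr => hn r (Finset.mem_insert_of_mem hr))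
    rwa [hc, if_neg (hn q (Finset.mem_insert_self q D))] at hd

/-- Vanishing at indices prime to a finite set of primes may be tested at indices prime to those
primes of the set that divide the level. -/
theorem vanish_restrict {N : ℕ} [NeZero N] (D : Finset ℕ) (hD : ∀ p ∈ D, p.Prime) (f : S2 N)
    (hf : ∀ n, (∀ p ∈ D, ¬ p ∣ n) → qCoeff f n = 0) :
    ∀ n, (∀ p ∈ D, p ∣ N → ¬ p ∣ n) → qCoeff f n = 0 := by
  induction D using Finset.induction with
  | empty => intro n _; exact hf n (by simp)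
  | insert p D hpD ih =>
    intro n hn
    by_cases hpN : p ∣ N
    · -- keep `p`
      have h1 : ¬ p ∣ n := hn p (Finset.mem_insert_self p D) hpN
      have : NeZero (N * p * p) := ⟨mul_ne_zero (mul_ne_zero (NeZero.ne N)
        (hD p (Finset.mem_insert_self p D)).ne_zero) (hD p (Finset.mem_insert_self p D)).ne_zero⟩
      have : NeZero (N * p) := ⟨mul_ne_zero (NeZero.ne N) (hD p (Finset.mem_insert_self p D)).ne_zero⟩
      set f1 : S2 (N * p * p) := raiseLin ((dvd_mul_right N p).trans (dvd_mul_right _ p)) f -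
        degen p (dvd_refl (N * p * p))
          (CuspForm.heckeULin 2 (dvd_mul_left p N) (raiseLin (dvd_mul_right N p) f)) with hf1
      have hc : ∀ m, qCoeff f1 m = if p ∣ m then 0 else qCoeff f m := by
        intro m
        rw [hf1, qCoeff_sub, qCoeff_degen, qCoeff_heckeULin, coe_raiseLin, coe_raiseLin]
        by_cases h : p ∣ m
        · rw [if_pos h, if_pos h, Nat.div_mul_cancel h, sub_self]
        · rw [if_neg h, if_neg h, sub_zero]
      -- the primes of `D` not dividing `N` do not divide the raised level either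
      have key : ∀ E : Finset ℕ, E ⊆ D → (∀ r ∈ E, ¬ r ∣ N) →
          ∀ m, (∀ r ∈ D, r ∉ E → ¬ r ∣ m) → qCoeff f1 m = 0 := by
        intro E
        induction E using Finset.induction with
        | empty =>
          intro _ _ m hm
          rw [hc]
          split_ifs with h
          · rfl
          · exact hf m fun r hr => (Finset.mem_insert.1 hr).elim (fun e => e ▸ h)
              fun hr' => hm r hr' (by simp)
        | insert r E hrE ihE =>
          intro hE hEN m hm
          have hrD : r ∈ D := hE (Finset.mem_insert_self r E)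
          have hr := hD r (Finset.mem_insert_of_mem hrD)
          have hrp : r ≠ p := fun h => hpD (h ▸ hrD)
          have hrN : ¬ r ∣ N * p * p := by
            have h1 : ¬ r ∣ p := fun h =>
              hrp ((Nat.prime_dvd_prime_iff_eq hr (hD p (Finset.mem_insert_self p D))).1 h)
            exact fun h => (hr.dvd_mul.1 h).elim
              (fun h' => (hr.dvd_mul.1 h').elim (hEN r (Finset.mem_insert_self r E)) h1) h1
          refine vanish_drop_prime r hr (D.filter fun s => s ∉ insert r E) (N * p * p) hrN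
            (fun s hs => ?_) f1 (fun m' hm' hm'' => ?_) m (fun s hs => ?_)
          · obtain ⟨hs1, hs2⟩ := Finset.mem_filter.1 hs
            exact ⟨hD s (Finset.mem_insert_of_mem hs1), fun h => hs2 (h ▸ Finset.mem_insert_self r E)⟩
          · refine ihE (fun x hx => hE (Finset.mem_insert_of_mem hx))
              (fun x hx => hEN x (Finset.mem_insert_of_mem hx)) m' fun s hsD hsE => ?_
            by_cases hsr : s = r
            · exact hsr ▸ hm'
            · exact hm'' s (Finset.mem_filter.2 ⟨hsD, fun h => (Finset.mem_insert.1 h).elim hsr hsE⟩)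
          · obtain ⟨hs1, hs2⟩ := Finset.mem_filter.1 hs
            exact hm s hs1 hs2
      have h2 := key (D.filter fun r => ¬ r ∣ N) (Finset.filter_subset _ _)
        (fun r hr => (Finset.mem_filter.1 hr).2) n
        (fun r hr hr' => hn r (Finset.mem_insert_of_mem hr)
          (by_contra fun h => hr' (Finset.mem_filter.2 ⟨hr, h⟩)))
      rwa [hc, if_neg h1] at h2
    · refine ih (fun r hr => hD r (Finset.mem_insert_of_mem hr)) (fun m hm => ?_) n
        (fun r hr => hn r (Finset.mem_insert_of_mem hr))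
      exact vanish_drop_prime p (hD p (Finset.mem_insert_self p D)) D N hpN
        (fun r hr => ⟨hD r (Finset.mem_insert_of_mem hr), fun h => hpD (h ▸ hr)⟩) f
        (fun m' hm' hm'' => hf m' fun r hr => (Finset.mem_insert.1 hr).elim (fun e => e ▸ hm') (hm'' r))
        m hm

/-- An eigenvector of the `T l` (`l ∤ N`, `l ∉ S`) with `a₁ = 0` has vanishing coefficients at
indices prime to `N`. -/
theorem qCoeff_eq_zero_of_eigen_of_one {N : ℕ} [NeZero N] (S : Finset ℕ) (lam : ℕ → ℂ) (h : S2 N)
    (h1 : qCoeff h 1 = 0)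
    (heig : ∀ (l : ℕ) (hl : l.Prime) (hlN : ¬ l ∣ N), l ∉ S →
      CuspForm.heckeTLin 2 hl hlN h = lam l • h)
    (n : ℕ) (hn : n.Coprime N) : qCoeff h n = 0 := by
  have base : ∀ n, (∀ p, p.Prime → p ∣ n → ¬ p ∣ N ∧ p ∉ S) → qCoeff h n = 0 := by
    intro n
    induction n using Nat.strong_induction_on with
    | _ n ih =>
      intro hgood
      rcases Nat.lt_trichotomy n 1 with hn1 | hn1 | hn1
      · obtain rfl : n = 0 := by omega
        exact qCoeff_cusp_zero h
      · subst hn1; exact h1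
      obtain ⟨p, hp, hpn⟩ := Nat.exists_prime_and_dvd (show n ≠ 1 by omega)
      obtain ⟨hpN, hpS⟩ := hgood p hp hpn
      obtain ⟨m, rfl⟩ : ∃ m, n = m * p := ⟨n / p, (Nat.div_mul_cancel hpn).symm⟩
      have hm : 0 < m := by
        rcases Nat.eq_zero_or_pos m with h | h
        · subst h; simp at hn1
        · exact h
      have hlt : m < m * p := lt_mul_of_one_lt_right hm hp.one_lt
      have hgm : ∀ r, r.Prime → r ∣ m → ¬ r ∣ N ∧ r ∉ S := fun r hr hrm => hgood r hr (hrm.mul_right p)
      have h' := congrArg (fun x : S2 N => qCoeff x m) (heig p hp hpN hpS)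
      simp only [qCoeff_smul] at h'
      rw [qCoeff_heckeTLin, ih m hlt hgm, mul_zero] at h'
      by_cases hpm : p ∣ m
      · rw [if_pos hpm, ih _ ((Nat.div_le_self _ _).trans_lt hlt)
          (fun r hr hrm => hgm r hr (hrm.trans (Nat.div_dvd_of_dvd hpm))), mul_zero, add_zero] at h'
        exact h'
      · rw [if_neg hpm, add_zero] at h'
        exact h'
  refine vanish_restrict ((N.primeFactors ∪ S.filter Nat.Prime)) (fun p hp => ?_) h (fun m hm => ?_) n
    fun p hp hpN hpn => ?_
  · rcases Finset.mem_union.1 hp with h | h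
    · exact Nat.prime_of_mem_primeFactors h
    · exact (Finset.mem_filter.1 h).2
  · refine base m fun p hp hpm => ⟨fun hpN => hm p ?_ hpm, fun hpS => hm p ?_ hpm⟩
    · exact Finset.mem_union_left _ (Nat.mem_primeFactors.2 ⟨hp, hpN, NeZero.ne N⟩)
    · exact Finset.mem_union_right _ (Finset.mem_filter.2 ⟨hpS, hp⟩)
  · have hprime : p.Prime := by
      rcases Finset.mem_union.1 hp with h | h
      · exact Nat.prime_of_mem_primeFactors h
      · exact (Finset.mem_filter.1 h).2
    exact hprime.ne_one (Nat.dvd_one.1 (hn.gcd_eq_one ▸ Nat.dvd_gcd hpn hpN))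

/-- Two eigenforms of level `N` with equal coefficients at almost all primes agree at every prime
not dividing `N`. -/
theorem qCoeff_eq_of_almost_all {N : ℕ} [NeZero N] {f g : S2 N} (hf : f.IsNormalizedEigenform)
    (hg : g.IsNormalizedEigenform) (S : Finset ℕ)
    (heq : ∀ l : ℕ, l.Prime → ¬ l ∣ N → l ∉ S → qCoeff f l = qCoeff g l)
    (n : ℕ) (hn : n.Coprime N) : qCoeff f n = qCoeff g n := by
  have h := qCoeff_eq_zero_of_eigen_of_one S (fun l => qCoeff g l) (f - g)
    (by rw [qCoeff_sub, hf.qCoeff_one, hg.qCoeff_one, sub_self])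
    (fun l hl hlN hlS => by
      rw [map_sub, heckeTLin_apply_of_isNormalizedEigenform hf hl hlN,
        heckeTLin_apply_of_isNormalizedEigenform hg hl hlN, heq l hl hlN hlS, smul_sub]) n hn
  rwa [qCoeff_sub, sub_eq_zero] at h

/-- Across levels: agreement at almost all primes gives agreement at every prime not dividing the
two levels. -/
theorem qCoeff_eq_of_almost_all' {N N' : ℕ} [NeZero N] [NeZero N'] {f : S2 N} {g : S2 N'}
    (hf : f.IsNormalizedEigenform) (hg : g.IsNormalizedEigenform) (S : Finset ℕ)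
    (heq : ∀ l : ℕ, l.Prime → l ∉ S → qCoeff f l = qCoeff g l)
    {l : ℕ} (hl : l.Prime) (hlN : ¬ l ∣ N) (hlN' : ¬ l ∣ N') : qCoeff f l = qCoeff g l := by
  have : NeZero (N * N') := ⟨mul_ne_zero (NeZero.ne N) (NeZero.ne N')⟩
  obtain ⟨f', hf', hff⟩ := exists_eigenform_of_dvd (dvd_mul_right N N') hf
  obtain ⟨g', hg', hgg⟩ := exists_eigenform_of_dvd (dvd_mul_left N' N) hg
  have hlL : ¬ l ∣ N * N' := fun h => (hl.dvd_mul.1 h).elim hlN hlN'
  rw [← hff l hl hlL, ← hgg l hl hlL]
  refine qCoeff_eq_of_almost_all hf' hg' S (fun r hr hrL hrS => ?_) l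
    (hl.coprime_iff_not_dvd.2 hlL)
  rw [hff r hr hrL, hgg r hr hrL, heq r hr hrS]

/-- Multiplicity one for the system of a newform, away from any finite set of primes. -/
theorem eq_smul_of_isNewform {M : ℕ} [NeZero M] {g : S2 M} (hg : g.IsNewform) (S : Finset ℕ)
    (h : S2 M)
    (heig : ∀ (l : ℕ) (hl : l.Prime) (hlM : ¬ l ∣ M), l ∉ S →
      CuspForm.heckeTLin 2 hl hlM h = qCoeff g l • h) :
    h = qCoeff h 1 • g := by
  by_contra hne
  set h' := h - qCoeff h 1 • g with hh'
  have h0 : h' ≠ 0 := fun e => hne (sub_eq_zero.1 e)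
  have heig' : ∀ (l : ℕ) (hl : l.Prime) (hlM : ¬ l ∣ M), l ∉ S →
      CuspForm.heckeTLin 2 hl hlM h' = qCoeff g l • h' := fun l hl hlM hlS => by
    rw [hh', map_sub, map_smul, heig l hl hlM hlS,
      heckeTLin_apply_of_isNormalizedEigenform hg.1 hl hlM, smul_sub, smul_comm]
  have hD : ∀ p ∈ M.primeFactors, p.Prime ∧ p ∣ M := fun p hp =>
    ⟨Nat.prime_of_mem_primeFactors hp, Nat.dvd_of_mem_primeFactors hp⟩
  have hmem := main_lemma M.primeFactors hD h' (fun n hn =>
    qCoeff_eq_zero_of_eigen_of_one S (fun l => qCoeff g l) h'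
      (by rw [hh', qCoeff_sub, qCoeff_smul, hg.1.qCoeff_one, mul_one, sub_self]) heig' n
      (Nat.coprime_of_dvd fun p hp hpn hpM =>
        hn p (Nat.mem_primeFactors.2 ⟨hp, hpM, NeZero.ne M⟩) hpn))
  let ι := {l : Nat.Primes // ¬ (l : ℕ) ∣ M ∧ (l : ℕ) ∉ S}
  let T : ι → Module.End ℂ (S2 M) := fun l => CuspForm.heckeTLin 2 l.1.2 l.2.1
  obtain ⟨⟨p, hp⟩, -, z, hz, hz0, hzT⟩ := exists_eigenvector_of_mem_finset_sup T
    (fun i j => CuspForm.heckeTLin_comm 2 i.1.2 i.2.1 j.1.2 j.2.1) _ _
    (fun a _ i y hy => by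
      obtain ⟨w, rfl⟩ := hy
      exact ⟨_, degen_heckeTLin _ i.1.2 i.2.1 w⟩)
    (fun i => qCoeff g i.1) hmem h0 (fun i => heig' i.1 i.1.2 i.2.1 i.2.2)
  obtain ⟨hpp, hpM⟩ := hD p hp
  have : NeZero (M / p) := ⟨fun e => NeZero.ne M (by rw [← Nat.div_mul_cancel hpM, e, zero_mul])⟩
  obtain ⟨w, rfl⟩ := hz
  have hw0 : w ≠ 0 := fun e => hz0 (by rw [e, map_zero])
  obtain ⟨k, hk, hke⟩ := exists_isNormalizedEigenform_of_eigenvector (N := M / p)
    ({l | l ∣ M} ∪ ↑S) (fun l => qCoeff g l) w hw0 (fun l hl hlMp hlS => by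
      simp only [Set.mem_union, Set.mem_ofPred_eq, Finset.mem_coe, not_or] at hlS
      refine degen_injective (Nat.div_mul_cancel hpM).dvd ?_
      rw [degen_heckeTLin _ hl hlS.1, map_smul]
      exact hzT ⟨⟨l, hl⟩, hlS⟩)
  refine hg.2 (M / p) (Nat.div_dvd_of_dvd hpM)
    (Nat.div_lt_self (NeZero.pos M) hpp.one_lt).ne ⟨k, hk, fun l hl hlM => ?_⟩
  refine qCoeff_eq_of_almost_all' hk hg.1 (S ∪ M.primeFactors) (fun r hr hrS => ?_) hl
    (fun d => hlM (d.trans (Nat.div_dvd_of_dvd hpM))) hlM
  simp only [Finset.mem_union, not_or] at hrS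
  have hrM : ¬ r ∣ M := fun d => hrS.2 (Nat.mem_primeFactors.2 ⟨hr, d, NeZero.ne M⟩)
  exact hke r hr (fun d => hrM (d.trans (Nat.div_dvd_of_dvd hpM))) (by simp [hrM, hrS.1])

theorem qCoeff_eq_of_isNewform {M : ℕ} [NeZero M] {g g' : S2 M}
    (hg : g.IsNewform) (hg' : g'.IsNewform) (S : Finset ℕ)
    (heq : ∀ l : ℕ, l.Prime → ¬ l ∣ M → l ∉ S → qCoeff g l = qCoeff g' l) : g = g' := by
  have h := eq_smul_of_isNewform hg S g' (fun l hl hlM hlS => by
    rw [heckeTLin_apply_of_isNormalizedEigenform hg'.1 hl hlM, heq l hl hlM hlS])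
  rw [hg'.1.qCoeff_one, one_smul] at h
  exact h.symm

end Fermat.Agent.Newforms
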