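import Fermat.Agent.Newforms.LowTrace
import Fermat.Agent.Newforms.MultiplicityOne

/-!
Sieved forms, and the vanishing of `a₁` of a form whose depletion at `p` has zero trace at `p`.
-/

set_option autoImplicit false

noncomputable section

namespace Fermat.Agent.Newforms

open ModularFormClass ModularForm Matrix.SpecialLinearGroup CongruenceSubgroup UpperHalfPlane
open scoped MatrixGroups ModularForm

variable {N M p q y L : ℕ}

theorem lowTrace_sieve [NeZero p] [NeZero L] [NeZero (L * q)] [NeZero (L * q * q)] (hL : y * p = L)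
    (hp : p.Prime) (hq : q.Prime) (hpq : p ≠ q) (hpy : p ∣ y) (f : S2 L)
    (hf : lowTrace y p ⇑f = 0) :
    lowTrace (y * q * q) p
      ⇑(raiseLin ((dvd_mul_right L q).trans (dvd_mul_right _ q)) f -
        degen q (dvd_refl (L * q * q)) (CuspForm.heckeULin 2 (dvd_mul_left q L)
          (raiseLin (dvd_mul_right L q) f))) = 0 := by
  subst hL
  exact lowTrace_sieve_step hp hq hpq hpy f hf

/-- The sieved form `Σ_{(n, D) = 1} a_n q^n`. -/
theorem exists_sieve (D : Finset ℕ) (hD : ∀ q ∈ D, q.Prime) (N : ℕ) [NeZero N] (f : S2 N) :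
    ∃ F : S2 (N * D.prod id ^ 2),
      (∀ n, qCoeff F n = if ∀ q ∈ D, ¬ q ∣ n then qCoeff f n else 0) ∧
      ∀ (p y : ℕ) [NeZero p], p.Prime → p ∉ D → p ∣ y → y * p = N → lowTrace y p ⇑f = 0 →
        lowTrace (y * D.prod id ^ 2) p ⇑F = 0 := by
  induction D using Finset.induction with
  | empty =>
    have : NeZero (N * (∅ : Finset ℕ).prod id ^ 2) := ⟨by simpa using NeZero.ne N⟩
    refine ⟨raiseLin (dvd_mul_right N _) f, fun n => by rw [coe_raiseLin]; simp,
      fun p y _ _ _ _ _ h => ?_⟩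
    rw [coe_raiseLin]
    simpa using h
  | insert q D hqD ih =>
    obtain ⟨F, hF, hFt⟩ := ih fun r hr => hD r (Finset.mem_insert_of_mem hr)
    have hq := hD q (Finset.mem_insert_self q D)
    have hP : D.prod id ≠ 0 := Finset.prod_ne_zero_iff.2 fun r hr =>
      (hD r (Finset.mem_insert_of_mem hr)).ne_zero
    have : NeZero (N * D.prod id ^ 2) := ⟨mul_ne_zero (NeZero.ne N) (pow_ne_zero 2 hP)⟩
    have : NeZero (N * D.prod id ^ 2 * q) := ⟨mul_ne_zero (NeZero.ne _) hq.ne_zero⟩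
    have : NeZero (N * D.prod id ^ 2 * q * q) := ⟨mul_ne_zero (NeZero.ne _) hq.ne_zero⟩
    have hlev : N * D.prod id ^ 2 * q * q = N * (insert q D).prod id ^ 2 := by
      rw [Finset.prod_insert hqD, id]; ring
    have : NeZero (N * (insert q D).prod id ^ 2) := ⟨hlev ▸ NeZero.ne _⟩
    refine ⟨raiseLin hlev.dvd (raiseLin ((dvd_mul_right _ q).trans (dvd_mul_right _ q)) F -
        degen q (dvd_refl (N * D.prod id ^ 2 * q * q)) (CuspForm.heckeULin 2 (dvd_mul_left q _)
          (raiseLin (dvd_mul_right _ q) F))), fun n => ?_, fun p y _ hp hpD hpy hN h => ?_⟩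
    · rw [coe_raiseLin, qCoeff_sub, qCoeff_degen, qCoeff_heckeULin, coe_raiseLin, coe_raiseLin]
      simp only [Finset.forall_mem_insert]
      by_cases hn : q ∣ n
      · rw [if_pos hn, Nat.div_mul_cancel hn, sub_self, if_neg fun h => h.1 hn]
      · rw [if_neg hn, sub_zero, hF]
        simp [hn]
    · have hpq : p ≠ q := fun e => hpD (e ▸ Finset.mem_insert_self q D)
      have h' := lowTrace_sieve (y := y * D.prod id ^ 2) (by rw [← hN]; ring) hp hq hpq
        (hpy.mul_right _) F (hFt p y hp (fun e => hpD (Finset.mem_insert_of_mem e)) hpy hN h)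
      rw [coe_raiseLin, show y * (insert q D).prod id ^ 2 = y * D.prod id ^ 2 * q * q by
        rw [Finset.prod_insert hqD, id]; ring]
      exact h'

/-- Case `p² ∣ R`: the depletion is already of level `R`. -/
theorem qCoeff_one_eq_zero_of_depleted_sq {R K : ℕ} [NeZero R] [NeZero K] [NeZero p]
    (hp : p.Prime) (hK : R * p = K) (hp2 : p ^ 2 ∣ R) (F : S2 R) (F' : S2 K)
    (hF' : ∀ n, qCoeff F' n = if p ∣ n then 0 else qCoeff F n)
    (htr : lowTrace R p ⇑F' = 0) : qCoeff F 1 = 0 := by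
  obtain ⟨y, rfl⟩ : ∃ y, R = y * p := ⟨R / p, (Nat.div_mul_cancel ((dvd_pow_self p two_ne_zero).trans hp2)).symm⟩
  have : NeZero y := ⟨fun h => NeZero.ne (y * p) (by simp [h])⟩
  have hpy : p ∣ y := Nat.dvd_of_mul_dvd_mul_right hp.pos (by rwa [← sq])
  set G := F - degen p (dvd_refl (y * p)) (heckeULower rfl hpy F) with hG
  have hGc : ∀ n, qCoeff G n = if p ∣ n then 0 else qCoeff F n := by
    intro n
    rw [hG, qCoeff_sub, qCoeff_degen]
    by_cases h : p ∣ n
    · have := qCoeff_heckeULin (dvd_mul_left p y) F (n / p)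
      rw [← raiseLin_heckeULower rfl hpy F, coe_raiseLin, Nat.div_mul_cancel h] at this
      rw [if_pos h, if_pos h, this, sub_self]
    · rw [if_neg h, if_neg h, sub_zero]
  have e : raiseLin ⟨p, hK.symm⟩ G = F' := ext_qCoeff fun n => by rw [coe_raiseLin, hGc, hF']
  rw [← e, coe_raiseLin, lowTrace_of_invariant] at htr
  have h1 : (p : ℂ) • G = 0 := DFunLike.coe_injective (by rw [FunLike.coe_smul, htr, FunLike.coe_zero])
  have h2 := congrArg (fun x : S2 (y * p) => qCoeff x 1) h1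
  simp only [qCoeff_smul, hGc, if_neg hp.not_dvd_one, FunLike.coe_zero, qCoeff_zero_fun] at h2
  exact (mul_eq_zero.1 h2).resolve_left (Nat.cast_ne_zero.2 hp.ne_zero)

/-- Coset representatives of `Γ₀(y p)` in `Γ₀(y)` for `p ∤ y`. -/
def lowRep (y p : ℕ) : Option (ZMod p) → SL(2, ℤ)
  | none => omegaSL y p
  | some j => lowerSL ((y : ℤ) * j.val)

theorem omegaSL_one_one (y p : ℕ) : omegaSL y p 1 1 = omegaSL y p 0 0 := by
  simp only [omegaSL, Matrix.SpecialLinearGroup.coe_mul, Matrix.mul_apply, Fin.sum_univ_two]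
  simp
  ring

theorem lowFull_invariant [NeZero p] (hp : p.Prime) (hy : ¬ p ∣ y) (hN : y * p = N) (X : S2 N)
    {g : SL(2, ℤ)} (hg : g ∈ Gamma0 y) :
    (lowTrace y p ⇑X + ⇑X ∣[(2 : ℤ)] omegaSL y p) ∣[(2 : ℤ)] g =
      lowTrace y p ⇑X + ⇑X ∣[(2 : ℤ)] omegaSL y p := by
  have : Fact p.Prime := ⟨hp⟩
  have hy' : (y : ZMod p) ≠ 0 := by rwa [Ne, ZMod.natCast_eq_zero_iff]
  have hy0 : y ≠ 0 := fun h => hy (h ▸ dvd_zero p)
  have h00 := (ZMod.intCast_zmod_eq_zero_iff_dvd _ _).2 (omegaSL_zero_zero hp hy)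
  have h11 : ((omegaSL y p 1 1 : ℤ) : ZMod p) = 0 := by rw [omegaSL_one_one]; exact h00
  have hmem : ∀ x, lowRep y p x ∈ Gamma0 y := fun x => by
    cases x with
    | none => exact omegaSL_mem y p
    | some j => exact lowerSL_mem_Gamma0 (dvd_mul_right _ _)
  have hiff : ∀ {h : SL(2, ℤ)}, h ∈ Gamma0 y → ((h 1 0 : ℤ) : ZMod p) = 0 → h ∈ Gamma0 N := by
    intro h h1 h2
    rw [mem_Gamma0_iff_dvd, ← hN, Nat.cast_mul]
    exact (Nat.isCoprime_iff_coprime.mpr (hp.coprime_iff_not_dvd.2 hy).symm).mul_dvd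
      (mem_Gamma0_iff_dvd.1 h1) ((ZMod.intCast_zmod_eq_zero_iff_dvd _ _).1 h2)
  have hdiv : ∀ {h : SL(2, ℤ)}, h ∈ Gamma0 N → ((h 1 0 : ℤ) : ZMod p) = 0 := fun h =>
    (ZMod.intCast_zmod_eq_zero_iff_dvd _ _).2
      ((Int.natCast_dvd_natCast.2 (Dvd.intro_left y hN)).trans (mem_Gamma0_iff_dvd.1 h))
  have hll : ∀ g r : SL(2, ℤ), (g * r⁻¹) 1 0 = g 1 0 * r 1 1 - g 1 1 * r 1 0 := by
    intro g r
    simp only [Matrix.SpecialLinearGroup.coe_mul, Matrix.SpecialLinearGroup.coe_inv,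
      Matrix.adjugate_fin_two, Matrix.mul_apply, Fin.sum_univ_two]
    simp
    ring
  have hex : ∀ h : SL(2, ℤ), h ∈ Gamma0 y → ∃ x, h * (lowRep y p x)⁻¹ ∈ Gamma0 N := by
    intro h hh
    by_cases hd : ((h 1 1 : ℤ) : ZMod p) = 0
    · refine ⟨none, hiff (mul_mem hh (inv_mem (hmem none))) ?_⟩
      rw [hll]
      simp [lowRep, h11, hd]
    · refine ⟨some (((h 1 0 : ℤ) : ZMod p) / ((y : ZMod p) * ((h 1 1 : ℤ) : ZMod p))),
        hiff (mul_mem hh (inv_mem (hmem _))) ?_⟩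
      rw [hll]
      simp [lowRep]
      field_simp
      ring
  have hσ := fun x => hex (lowRep y p x * g) (mul_mem (hmem x) hg)
  choose σ hσ using hσ
  have hinj : Function.Injective σ := by
    intro x x' e
    have h1 := mul_mem (hσ x) (inv_mem (hσ x'))
    rw [e] at h1
    have h := hdiv (show lowRep y p x * (lowRep y p x')⁻¹ ∈ Gamma0 N by simpa [mul_assoc] using h1)
    rw [hll] at h
    have h10 : ((omegaSL y p 1 0 : ℤ) : ZMod p) ≠ 0 := by
      intro h0
      have := congrArg (Int.cast : ℤ → ZMod p) (det_SL_eq (omegaSL y p))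
      push_cast at this
      rw [h00, h0] at this
      simp at this
    cases x <;> cases x' <;> simp [lowRep, h11] at h
    · rfl
    · exact absurd h h10
    · exact absurd h h10
    · rename_i i j
      rw [← mul_sub, mul_eq_zero, or_iff_right hy', sub_eq_zero] at h
      rw [h]
  have hsum : lowTrace y p ⇑X + ⇑X ∣[(2 : ℤ)] omegaSL y p =
      ∑ x : Option (ZMod p), ⇑X ∣[(2 : ℤ)] lowRep y p x := by
    rw [Fintype.sum_option, add_comm]
    rfl
  rw [hsum, SlashAction.sum_slash, ← (Equiv.ofBijective σ (Finite.injective_iff_bijective.1 hinj)).sum_comp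
    (fun x => ⇑X ∣[(2 : ℤ)] lowRep y p x)]
  refine Finset.sum_congr rfl fun x _ => ?_
  rw [← SlashAction.slash_mul, Equiv.ofBijective_apply]
  conv_lhs => rw [show lowRep y p x * g = lowRep y p x * g * (lowRep y p (σ x))⁻¹ * lowRep y p (σ x) by
    simp, SlashAction.slash_mul, slash_eq_self X (hσ x)]

theorem slash_omega_diag [NeZero N] (hp : p.Prime) (hy : ¬ p ∣ y) (hN : y * p = N) (X : S2 N) :
    (⇑X ∣[(2 : ℤ)] omegaSL y p) ∣[(2 : ℤ)] heckeDiagMatrix p = ⇑X ∣[(2 : ℤ)] wMat y p := by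
  obtain ⟨a', ha⟩ := omegaSL_zero_zero hp hy
  obtain ⟨e, he⟩ := mem_Gamma0_iff_dvd.1 (omegaSL_mem y p)
  obtain ⟨d', hd⟩ : (p : ℤ) ∣ omegaSL y p 1 1 := by
    rw [omegaSL_one_one]; exact omegaSL_zero_zero hp hy
  set w := omegaSL y p with hw
  let g : SL(2, ℤ) := mkSL ((p : ℤ) * w 0 0 * w 1 1 - w 0 1 * w 1 0) (a' * w 0 1 * (1 - (p : ℤ)))
    (w 1 0 * w 1 1 * ((p : ℤ) - 1)) (a' * w 1 1 - w 0 1 * w 1 0) (by
      have h := det_SL_eq w
      rw [ha] at h ⊢
      linear_combination ((p : ℤ) * a' * w 1 1 - w 0 1 * w 1 0 + 1) * h)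
  have hg : g ∈ Gamma0 N := mem_Gamma0_iff_dvd.2 ⟨e * d' * ((p : ℤ) - 1), by
    show w 1 0 * w 1 1 * ((p : ℤ) - 1) = _
    rw [← hN, he, hd]
    push_cast
    ring⟩
  have key : mapGL ℝ w * heckeDiagMatrix p = mapGL ℝ g * wMat y p := by
    have ha' : ((w 0 0 : ℤ) : ℝ) = (p : ℝ) * a' := by exact_mod_cast ha
    have hdet : ((w 0 0 : ℤ) : ℝ) * w 1 1 - w 0 1 * w 1 0 = 1 := by exact_mod_cast det_SL_eq w
    rw [ha'] at hdet
    ext i j
    simp only [wMat, ← hw, Units.val_mul, Matrix.mul_apply, Fin.sum_univ_two]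
    fin_cases i <;> fin_cases j <;> simp [g, hp.ne_zero, ha']
    · linear_combination (-(p : ℝ) ^ 2 * a') * hdet
    · linear_combination (-(w 0 1 : ℝ)) * hdet
    · linear_combination (-(p : ℝ) * (w 1 0 : ℝ)) * hdet
    · linear_combination (-(w 1 1 : ℝ)) * hdet
  rw [slash_SL_eq, ← SlashAction.slash_mul, key, SlashAction.slash_mul, ← slash_SL_eq,
    slash_eq_self X hg]

/-- Case `p ∥ R`. -/
theorem qCoeff_one_eq_zero_of_depleted {R K : ℕ} [NeZero R] [NeZero K] [NeZero p]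
    (hp : p.Prime) (hK : R * p = K) (hpR : p ∣ R) (hp2 : ¬ p ^ 2 ∣ R) (F : S2 R) (F' : S2 K)
    (hF' : ∀ n, qCoeff F' n = if p ∣ n then 0 else qCoeff F n)
    (htr : lowTrace R p ⇑F' = 0) : qCoeff F 1 = 0 := by
  obtain ⟨y, rfl⟩ : ∃ y, R = y * p := ⟨R / p, (Nat.div_mul_cancel hpR).symm⟩
  have : NeZero y := ⟨fun h => NeZero.ne (y * p) (by simp [h])⟩
  have hy : ¬ p ∣ y := fun h => hp2 (by rw [sq]; exact mul_dvd_mul_right h p)
  have hpC : (p : ℂ) ≠ 0 := Nat.cast_ne_zero.2 hp.ne_zero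
  set X := CuspForm.heckeULin 2 (dvd_mul_left p y) F with hX
  have e : raiseLin ⟨p, hK.symm⟩ F - degen p hK.dvd X = F' := by
    refine ext_qCoeff fun n => ?_
    rw [qCoeff_sub, qCoeff_degen, coe_raiseLin, hF', hX, qCoeff_heckeULin]
    by_cases h : p ∣ n
    · rw [if_pos h, if_pos h, Nat.div_mul_cancel h, sub_self]
    · rw [if_neg h, if_neg h, sub_zero]
  let T0 : S2 y := mkForm y (lowTrace y p ⇑X + ⇑X ∣[(2 : ℤ)] omegaSL y p)
    ((isCuspidal_coe X).lowTrace.add ((isCuspidal_coe X).slash_SL _))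
    fun _ hg => lowFull_invariant hp hy rfl X hg
  set D := levelDown (N := y * p) rfl hp hy F with hD
  have hWD : atkinLehner (N := y * p) rfl hp hy (raiseLin (dvd_mul_right y p) D) =
      (p : ℂ) • degen p (dvd_refl (y * p)) D := by
    refine DFunLike.coe_injective ?_
    rw [coe_atkinLehner, FunLike.coe_smul, coe_degen, smul_smul, mul_inv_cancel₀ hpC, one_smul,
      ← slash_omega_diag hp hy rfl, coe_raiseLin, slash_eq_self D (omegaSL_mem y p)]
  have hWX : atkinLehner (N := y * p) rfl hp hy X = (p : ℂ) • degen p (dvd_refl (y * p)) D - F := by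
    have h : X = raiseLin (dvd_mul_right y p) D - atkinLehner (N := y * p) rfl hp hy F := by
      rw [hD, raiseLin_levelDown, add_sub_cancel_right]
    rw [h, map_sub, hWD, atkinLehner_atkinLehner]
  have hcomm : lowTrace (y * p) p (⇑X ∣[(2 : ℤ)] heckeDiagMatrix p) =
      lowTrace y p ⇑X ∣[(2 : ℤ)] heckeDiagMatrix p := by
    simp only [lowTrace, SlashAction.sum_slash]
    refine Finset.sum_congr rfl fun j _ => ?_
    rw [slash_SL_eq, slash_SL_eq, ← SlashAction.slash_mul, ← SlashAction.slash_mul]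
    congr 1
    ext r s
    simp only [Units.val_mul, Matrix.mul_apply, Fin.sum_univ_two]
    fin_cases r <;> fin_cases s <;> simp [hp.ne_zero, -ZMod.natCast_val] <;> ring
  have h0 : (p : ℂ) • F - degen p (dvd_refl (y * p)) T0 +
      (p : ℂ)⁻¹ • ((p : ℂ) • degen p (dvd_refl (y * p)) D - F) = 0 := by
    rw [← hWX]
    refine DFunLike.coe_injective ?_
    rw [FunLike.coe_add, FunLike.coe_sub, FunLike.coe_smul, FunLike.coe_smul, coe_degen,
      coe_atkinLehner, ← slash_omega_diag hp hy rfl, FunLike.coe_zero, coe_mkForm,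
      SlashAction.add_slash, ← hcomm]
    rw [← e, FunLike.coe_sub, lowTrace_sub, coe_raiseLin, lowTrace_of_invariant, coe_degen,
      lowTrace_smul] at htr
    rw [smul_add, sub_add_eq_sub_sub, sub_add_cancel, htr]
  have h1 := congrArg (fun x : S2 (y * p) => qCoeff x 1) h0
  simp only [qCoeff_add, qCoeff_sub, qCoeff_smul, qCoeff_degen, if_neg hp.not_dvd_one,
    FunLike.coe_zero, qCoeff_zero_fun, mul_zero, sub_zero, zero_sub] at h1
  have h2 : ((p : ℂ) ^ 2 - 1) * qCoeff F 1 = 0 := by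
    have := congrArg (fun z => (p : ℂ) * z) h1
    field_simp at this
    linear_combination this
  refine (mul_eq_zero.1 h2).resolve_left ?_
  have h4 : (1 : ℕ) < p ^ 2 := Nat.one_lt_pow two_ne_zero hp.one_lt
  intro h
  rw [sub_eq_zero] at h
  exact (Nat.ne_of_gt h4) (by exact_mod_cast h)

end Fermat.Agent.Newforms
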