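import Fermat.Agent.Newforms.Degeneracy

/-!
The right action of `SL(2, ℤ)` on functions fixed by `Γ(N)`, factoring through `SL(2, ℤ/N)`, and the
projectors used in the proof of the Atkin--Lehner main lemma.
-/

set_option autoImplicit false

noncomputable section

namespace Fermat.Agent.Newforms

open ModularForm Matrix.SpecialLinearGroup CongruenceSubgroup UpperHalfPlane
open scoped MatrixGroups ModularForm

/-- Functions invariant under `Γ(N)`. -/
def gammaFixed (N : ℕ) : Submodule ℂ (ℍ → ℂ) where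
  carrier := {φ | ∀ g ∈ Gamma N, φ ∣[(2 : ℤ)] g = φ}
  zero_mem' _ _ := SlashAction.zero_slash _ _
  add_mem' ha hb g hg := by rw [SlashAction.add_slash, ha g hg, hb g hg]
  smul_mem' c φ hφ g hg := by rw [ModularForm.SL_smul_slash, hφ g hg]

/-- The action of `g` on `Γ(N)`-invariant functions. -/
def act (N : ℕ) (g : SL(2, ℤ)) : Module.End ℂ (gammaFixed N) where
  toFun φ := ⟨(φ : ℍ → ℂ) ∣[(2 : ℤ)] g, fun h hh => by
    have h' : g * h * g⁻¹ ∈ Gamma N := (Gamma_normal N).conj_mem h hh g
    rw [← SlashAction.slash_mul, show g * h = g * h * g⁻¹ * g by simp, SlashAction.slash_mul,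
      φ.2 _ h']⟩
  map_add' φ ψ := Subtype.ext (SlashAction.add_slash _ _ _ _)
  map_smul' c φ := Subtype.ext (ModularForm.SL_smul_slash _ _ _ _)

@[simp] theorem coe_act (N : ℕ) (g : SL(2, ℤ)) (φ : gammaFixed N) :
    ((act N g φ : gammaFixed N) : ℍ → ℂ) = (φ : ℍ → ℂ) ∣[(2 : ℤ)] g := rfl

/-- Reduction modulo `N`. -/
abbrev redMod (N : ℕ) : SL(2, ℤ) →* Matrix.SpecialLinearGroup (Fin 2) (ZMod N) :=
  Matrix.SpecialLinearGroup.map (Int.castRingHom (ZMod N))

theorem act_mul (N : ℕ) (g h : SL(2, ℤ)) : act N g * act N h = act N (h * g) :=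
  LinearMap.ext fun φ => Subtype.ext (SlashAction.slash_mul _ h g _).symm

theorem act_congr (N : ℕ) {g h : SL(2, ℤ)} (e : redMod N g = redMod N h) : act N g = act N h := by
  refine LinearMap.ext fun φ => Subtype.ext ?_
  have hm : g * h⁻¹ ∈ Gamma N := by
    rw [Gamma_mem']
    show redMod N (g * h⁻¹) = 1
    rw [map_mul, map_inv, e, mul_inv_cancel]
  show (φ : ℍ → ℂ) ∣[(2 : ℤ)] g = (φ : ℍ → ℂ) ∣[(2 : ℤ)] h
  rw [show g = g * h⁻¹ * h by simp, SlashAction.slash_mul, φ.2 _ hm]

theorem act_commute (N : ℕ) {g h : SL(2, ℤ)} (e : Commute (redMod N g) (redMod N h)) :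
    Commute (act N g) (act N h) := by
  show act N g * act N h = act N h * act N g
  rw [act_mul, act_mul]
  exact act_congr N (by rw [map_mul, map_mul, e.eq])

theorem commute_red_upper_upper (N : ℕ) (a b : ℤ) :
    Commute (redMod N (upperSL a)) (redMod N (upperSL b)) := by
  show _ * _ = _ * _
  rw [← map_mul, ← map_mul, upperSL_mul, upperSL_mul, add_comm]

theorem commute_red_lower_lower (N : ℕ) (a b : ℤ) :
    Commute (redMod N (lowerSL a)) (redMod N (lowerSL b)) := by
  show _ * _ = _ * _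
  rw [← map_mul, ← map_mul, lowerSL_mul, lowerSL_mul, add_comm]

theorem commute_red_upper_lower (N : ℕ) {a b : ℤ} (h : (N : ℤ) ∣ a * b) :
    Commute (redMod N (upperSL a)) (redMod N (lowerSL b)) := by
  have h' : (a : ZMod N) * (b : ZMod N) = 0 := by
    rw [← Int.cast_mul]
    exact (ZMod.intCast_zmod_eq_zero_iff_dvd _ _).2 h
  refine Matrix.SpecialLinearGroup.ext _ _ fun i j => ?_
  fin_cases i <;> fin_cases j <;>
    simp [Matrix.SpecialLinearGroup.coe_mul, Matrix.mul_apply, Fin.sum_univ_two, h', mul_comm (b : ZMod N)]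

variable (N p : ℕ)

/-- The exponent `(N/p)·m` with `(N/p) m ≡ 1 (mod p)`. -/
def eOmega : ℤ := ((N / p : ℕ) : ℤ) * invMod (N / p) p

/-- The conjugate of `omegaSL (N/p) p` by `diag(1, N/p)`. -/
def omegaUp : SL(2, ℤ) := upperSL (-eOmega N p) * lowerSL (eOmega N p) * upperSL (-eOmega N p)

/-- Averaging over translations by multiples of `N/p`. -/
def avgT [NeZero p] : Module.End ℂ (gammaFixed N) :=
  (p : ℂ)⁻¹ • ∑ j : ZMod p, act N (upperSL (((N / p : ℕ) : ℤ) * j.val))

/-- Projection to the part coming from level `N/p`. -/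
def projG [NeZero p] : Module.End ℂ (gammaFixed N) :=
  if p ∣ N / p then avgT N p
  else ((p : ℂ) + 1)⁻¹ • ((p : ℂ) • avgT N p + act N (omegaUp N p))

variable {N p} {q : ℕ}

theorem dvd_div_mul_div (hp : p.Prime) (hq : q.Prime) (hpq : p ≠ q) (hpN : p ∣ N) (hqN : q ∣ N) :
    (N : ℤ) ∣ ((N / p : ℕ) : ℤ) * ((N / q : ℕ) : ℤ) := by
  obtain ⟨r, rfl⟩ : p * q ∣ N := ((Nat.coprime_primes hp hq).2 hpq).mul_dvd_of_dvd_of_dvd hpN hqN
  refine ⟨(r : ℤ), ?_⟩
  rw [show p * q * r / p = q * r by rw [mul_assoc, Nat.mul_div_cancel_left _ hp.pos],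
    show p * q * r / q = p * r by rw [show p * q * r = q * (p * r) by ring,
      Nat.mul_div_cancel_left _ hq.pos]]
  push_cast
  ring

theorem commute_red_up_omega (hp : p.Prime) (hq : q.Prime) (hpq : p ≠ q) (hpN : p ∣ N)
    (hqN : q ∣ N) (j : ℤ) :
    Commute (redMod N (upperSL (((N / p : ℕ) : ℤ) * j))) (redMod N (omegaUp N q)) := by
  rw [omegaUp, map_mul, map_mul]
  refine ((commute_red_upper_upper N _ _).mul_right (commute_red_upper_lower N ?_)).mul_right
    (commute_red_upper_upper N _ _)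
  rw [eOmega, show ((N / p : ℕ) : ℤ) * j * (((N / q : ℕ) : ℤ) * invMod (N / q) q) =
    ((N / p : ℕ) : ℤ) * ((N / q : ℕ) : ℤ) * (j * invMod (N / q) q) by ring]
  exact (dvd_div_mul_div hp hq hpq hpN hqN).mul_right _

theorem commute_red_low_omega (hp : p.Prime) (hq : q.Prime) (hpq : p ≠ q) (hpN : p ∣ N)
    (hqN : q ∣ N) (j : ℤ) :
    Commute (redMod N (lowerSL (((N / p : ℕ) : ℤ) * j))) (redMod N (omegaUp N q)) := by
  have h : Commute (redMod N (lowerSL (((N / p : ℕ) : ℤ) * j)))
      (redMod N (upperSL (-eOmega N q))) := by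
    refine (commute_red_upper_lower N ?_).symm
    rw [eOmega, show -(((N / q : ℕ) : ℤ) * invMod (N / q) q) * (((N / p : ℕ) : ℤ) * j) =
      ((N / p : ℕ) : ℤ) * ((N / q : ℕ) : ℤ) * (-(j * invMod (N / q) q)) by ring]
    exact (dvd_div_mul_div hp hq hpq hpN hqN).mul_right _
  rw [omegaUp, map_mul, map_mul]
  exact (h.mul_right (commute_red_lower_lower N _ _)).mul_right h

theorem commute_act_avgT [NeZero p] {g : SL(2, ℤ)}
    (h : ∀ j : ℤ, Commute (redMod N (upperSL (((N / p : ℕ) : ℤ) * j))) (redMod N g)) :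
    Commute (avgT N p) (act N g) :=
  (Commute.sum_left _ _ _ fun j _ => act_commute N (h _)).smul_left _

theorem avgT_commute [NeZero p] [NeZero q] : Commute (avgT N p) (avgT N q) :=
  (Commute.sum_right _ _ _ fun _ _ =>
    commute_act_avgT fun _ => commute_red_upper_upper N _ _).smul_right _

theorem avgT_projG_commute [NeZero p] [NeZero q] (hp : p.Prime) (hq : q.Prime) (hpq : p ≠ q)
    (hpN : p ∣ N) (hqN : q ∣ N) : Commute (avgT N p) (projG N q) := by
  unfold projG
  split
  · exact avgT_commute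
  · exact (((avgT_commute (q := q)).smul_right _).add_right
      (commute_act_avgT fun j => commute_red_up_omega hp hq hpq hpN hqN j)).smul_right _

theorem projG_commute [NeZero p] [NeZero q] (hp : p.Prime) (hq : q.Prime) (hpq : p ≠ q)
    (hpN : p ∣ N) (hqN : q ∣ N) : Commute (projG N p) (projG N q) := by
  unfold projG
  split
  · exact avgT_projG_commute hp hq hpq hpN hqN
  · refine ((Commute.smul_left ?_ _).add_left ?_).smul_left _
    · exact avgT_projG_commute hp hq hpq hpN hqN
    · split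
      · exact (commute_act_avgT fun j => commute_red_up_omega hq hp (Ne.symm hpq) hqN hpN j).symm
      · refine (((commute_act_avgT fun j =>
          commute_red_up_omega hq hp (Ne.symm hpq) hqN hpN j).symm.smul_right _).add_right
            (act_commute N ?_)).smul_right _
        rw [omegaUp, map_mul, map_mul]
        have hu : ∀ j : ℤ, Commute (redMod N (upperSL (((N / p : ℕ) : ℤ) * j)))
            (redMod N (omegaUp N q)) := commute_red_up_omega hp hq hpq hpN hqN
        have hl : ∀ j : ℤ, Commute (redMod N (lowerSL (((N / p : ℕ) : ℤ) * j)))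
            (redMod N (omegaUp N q)) := commute_red_low_omega hp hq hpq hpN hqN
        rw [eOmega, ← mul_neg]
        exact ((hu _).mul_left (hl _)).mul_left (hu _)

theorem lower_commute_avgT [NeZero q] (hp : p.Prime) (hq : q.Prime) (hpq : p ≠ q) (hpN : p ∣ N)
    (hqN : q ∣ N) (j : ℤ) :
    Commute (avgT N q) (act N (lowerSL (((N / p : ℕ) : ℤ) * j))) := by
  refine commute_act_avgT fun i => commute_red_upper_lower N ?_
  rw [show ((N / q : ℕ) : ℤ) * i * (((N / p : ℕ) : ℤ) * j) =
    ((N / q : ℕ) : ℤ) * ((N / p : ℕ) : ℤ) * (i * j) by ring]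
  exact (dvd_div_mul_div hq hp (Ne.symm hpq) hqN hpN).mul_right _

/-- If `x` is fixed by `T^(N/p)`-averaging and by the lower unipotent at `p`, then `projG` fixes it. -/
theorem projG_eq_self [NeZero p] (hp : p.Prime) (hpN : p ∣ N) {x : gammaFixed N}
    (hx : avgT N p x = x) (hl : act N (lowerSL (eOmega N p)) x = x) : projG N p x = x := by
  have hstep : ∀ i : ℤ, act N (upperSL (((N / p : ℕ) : ℤ) * i)) x = x := by
    intro i
    have hper : ∀ j : ℤ, act N (upperSL (((N / p : ℕ) : ℤ) * j)) =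
        act N (upperSL (((N / p : ℕ) : ℤ) * (((j : ZMod p)).val : ℤ))) := by
      intro j
      refine act_congr N (Matrix.SpecialLinearGroup.ext _ _ fun r s => ?_)
      obtain ⟨k, hk⟩ : (p : ℤ) ∣ j - ((j : ZMod p)).val := by
        rw [← ZMod.intCast_zmod_eq_zero_iff_dvd]
        push_cast
        simp
      have hN : ((N / p : ℕ) : ZMod N) * (p : ZMod N) = 0 := by
        rw [← Nat.cast_mul, Nat.div_mul_cancel hpN, ZMod.natCast_self]
      generalize (N / p : ℕ) = M at hN ⊢
      fin_cases r <;> fin_cases s <;> simp [-ZMod.natCast_val]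
      have hk' := congrArg (Int.cast : ℤ → ZMod N) hk
      push_cast at hk'
      linear_combination (M : ZMod N) * hk' + (k : ZMod N) * hN
    conv_lhs => rw [← hx]
    conv_rhs => rw [← hx]
    simp only [avgT, LinearMap.smul_apply, LinearMap.sum_apply, map_smul, map_sum]
    congr 1
    rw [← Equiv.sum_comp (Equiv.addLeft (i : ZMod p))
      (fun j : ZMod p => act N (upperSL (((N / p : ℕ) : ℤ) * j.val)) x)]
    refine Finset.sum_congr rfl fun j _ => ?_
    rw [← Module.End.mul_apply, act_mul, upperSL_mul, ← mul_add, hper]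
    simp [add_comm]
  have hu : act N (upperSL (-eOmega N p)) x = x := by
    rw [eOmega, ← mul_neg]
    exact hstep _
  have hw : act N (omegaUp N p) x = x := by
    rw [omegaUp, ← act_mul, ← act_mul]
    simp [hu, hl]
  unfold projG
  split
  · exact hx
  · simp only [LinearMap.smul_apply, LinearMap.add_apply, hx, hw]
    have h1 : ((p : ℂ) + 1) ≠ 0 := by exact_mod_cast Nat.succ_ne_zero p
    rw [show (p : ℂ) • x + x = ((p : ℂ) + 1) • x by rw [add_smul, one_smul], smul_smul,
      inv_mul_cancel₀ h1, one_smul]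

end Fermat.Agent.Newforms
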