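import Fermat.Agent.Newforms.MainLemma

/-!
The trace from `Γ₀(y p)` to `Γ₀(y)` by lower unipotents (`p ∣ y`), its behaviour under sieving, and
the resulting constraints on depleted forms.
-/

set_option autoImplicit false

noncomputable section

namespace Fermat.Agent.Newforms

open ModularFormClass ModularForm Matrix.SpecialLinearGroup CongruenceSubgroup UpperHalfPlane
open scoped MatrixGroups ModularForm

variable {N M p q y : ℕ}

theorem lowerSL_mem_Gamma0 {x : ℤ} (h : (N : ℤ) ∣ x) : lowerSL x ∈ Gamma0 N :=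
  mem_Gamma0_iff_dvd.2 (by simpa using h)

/-- `Σ_{j mod p} φ | [[1,0],[yj,1]]`. -/
def lowTrace (y p : ℕ) [NeZero p] (φ : ℍ → ℂ) : ℍ → ℂ :=
  ∑ j : ZMod p, φ ∣[(2 : ℤ)] lowerSL ((y : ℤ) * j.val)

theorem lowTrace_add [NeZero p] (φ ψ : ℍ → ℂ) :
    lowTrace y p (φ + ψ) = lowTrace y p φ + lowTrace y p ψ := by
  simp [lowTrace, SlashAction.add_slash, Finset.sum_add_distrib]

theorem lowTrace_smul [NeZero p] (c : ℂ) (φ : ℍ → ℂ) :
    lowTrace y p (c • φ) = c • lowTrace y p φ := by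
  simp [lowTrace, ModularForm.SL_smul_slash, Finset.smul_sum]

theorem lowTrace_sub [NeZero p] (φ ψ : ℍ → ℂ) :
    lowTrace y p (φ - ψ) = lowTrace y p φ - lowTrace y p ψ := by
  rw [sub_eq_add_neg, lowTrace_add, ← neg_one_smul ℂ ψ, lowTrace_smul, neg_one_smul, sub_eq_add_neg]

theorem lowTrace_of_invariant [NeZero p] (f : S2 y) : lowTrace y p ⇑f = (p : ℂ) • ⇑f := by
  rw [lowTrace, Finset.sum_congr rfl fun (j : ZMod p) _ =>
    slash_eq_self f (lowerSL_mem_Gamma0 (dvd_mul_right (y : ℤ) _))]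
  simp [← Nat.cast_smul_eq_nsmul ℂ]

/-- Multiplying `y` by an integer prime to `p` does not change the trace. -/
theorem lowTrace_mul [NeZero p] (hp : p.Prime) (hN : y * p = N) (f : S2 N) {u : ℕ} (hu : ¬ p ∣ u) :
    lowTrace (y * u) p ⇑f = lowTrace y p ⇑f := by
  have : Fact p.Prime := ⟨hp⟩
  have hu' : (u : ZMod p) ≠ 0 := by rwa [Ne, ZMod.natCast_eq_zero_iff]
  unfold lowTrace
  rw [← Equiv.sum_comp (Equiv.mulLeft₀ (u : ZMod p) hu')
    (fun k : ZMod p => ⇑f ∣[(2 : ℤ)] lowerSL ((y : ℤ) * k.val))]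
  refine Finset.sum_congr rfl fun j _ => ?_
  obtain ⟨c, hc⟩ : (p : ℤ) ∣ (u : ℤ) * j.val - ((u : ZMod p) * j).val := by
    rw [← ZMod.intCast_zmod_eq_zero_iff_dvd]
    push_cast
    simp
  rw [Equiv.mulLeft₀_apply, show ((y * u : ℕ) : ℤ) * j.val =
    (N : ℤ) * c + (y : ℤ) * ((u : ZMod p) * j).val by
      rw [← hN]; push_cast; linear_combination (y : ℤ) * hc,
    ← lowerSL_mul, SlashAction.slash_mul, slash_eq_self f (lowerSL_mem_Gamma0 (dvd_mul_right _ _))]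

/-- Translation by `i/q`. -/
def transQ (q i : ℕ) : GL (Fin 2) ℝ := upperTriangularGL 1 ((i : ℝ) / q) 1 (by simp)

theorem heckeMatrix_mul_diag (hq : q ≠ 0) (i : ℕ) :
    heckeMatrix q i * heckeDiagMatrix q = transQ q i * (heckeDiagMatrix q * heckeMatrix q 0) := by
  have : (q : ℝ) ≠ 0 := Nat.cast_ne_zero.2 hq
  ext r s
  simp only [transQ, Units.val_mul, Matrix.mul_apply, Fin.sum_univ_two]
  fin_cases r <;> fin_cases s <;> simp [hq]

theorem slash_heckeU_diag [NeZero q] (φ : ℍ → ℂ) :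
    heckeU 2 q φ ∣[(2 : ℤ)] heckeDiagMatrix q = ∑ i ∈ Finset.range q, φ ∣[(2 : ℤ)] transQ q i := by
  rw [heckeU_def, SlashAction.sum_slash]
  refine Finset.sum_congr rfl fun i _ => ?_
  rw [← SlashAction.slash_mul, heckeMatrix_mul_diag (NeZero.ne q), SlashAction.slash_mul,
    SlashAction.slash_mul, slash_scalar q (NeZero.ne q)]

theorem slash_transQ_lower (hpy : p ∣ y) (f : S2 (y * p * q * q)) (hq : q ≠ 0) (i : ℕ) (j : ℤ) :
    (⇑f ∣[(2 : ℤ)] transQ q i) ∣[(2 : ℤ)] lowerSL (((y * q * q : ℕ) : ℤ) * j) =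
      (⇑f ∣[(2 : ℤ)] lowerSL (((y * q * q : ℕ) : ℤ) * j)) ∣[(2 : ℤ)] transQ q i := by
  obtain ⟨z, rfl⟩ := hpy
  have hqR : (q : ℝ) ≠ 0 := Nat.cast_ne_zero.2 hq
  set a : ℤ := (q : ℤ) * (p * z) * j * i with ha
  let g : SL(2, ℤ) := mkSL (1 + a + a ^ 2) (-((p : ℤ) * z * j * (i : ℤ) ^ 2))
    ((q : ℤ) ^ 3 * ((p : ℤ) * z) ^ 2 * j ^ 2 * i) (1 - a) (by rw [ha]; ring)
  have hg : g ∈ Gamma0 (p * z * p * q * q) :=
    mem_Gamma0_iff_dvd.2 ⟨(q : ℤ) * z * j ^ 2 * i, by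
      show (q : ℤ) ^ 3 * ((p : ℤ) * z) ^ 2 * j ^ 2 * i = _
      push_cast
      ring⟩
  have key : transQ q i * mapGL ℝ (lowerSL (((p * z * q * q : ℕ) : ℤ) * j)) =
      mapGL ℝ g * (mapGL ℝ (lowerSL (((p * z * q * q : ℕ) : ℤ) * j)) * transQ q i) := by
    ext r s
    simp only [transQ, Units.val_mul, Matrix.mul_apply, Fin.sum_univ_two]
    fin_cases r <;> fin_cases s <;> simp [g, ha] <;> field_simp <;> ring
  rw [slash_SL_eq, ← SlashAction.slash_mul, key, SlashAction.slash_mul, ← slash_SL_eq,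
    slash_eq_self f hg, SlashAction.slash_mul]
  rfl

/-- Sieving at `q` preserves the vanishing of the trace at `p`. -/
theorem lowTrace_sieve_step [NeZero p] [NeZero (y * p)] [NeZero (y * p * q)]
    [NeZero (y * p * q * q)] (hp : p.Prime) (hq : q.Prime) (hpq : p ≠ q) (hpy : p ∣ y)
    (f : S2 (y * p)) (hf : lowTrace y p ⇑f = 0) :
    lowTrace (y * q * q) p
      ⇑(raiseLin ((dvd_mul_right (y * p) q).trans (dvd_mul_right _ q)) f -
        degen q (dvd_refl (y * p * q * q)) (CuspForm.heckeULin 2 (dvd_mul_left q (y * p))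
          (raiseLin (dvd_mul_right (y * p) q) f))) = 0 := by
  have : NeZero q := ⟨hq.ne_zero⟩
  have h0 : lowTrace (y * q * q) p ⇑f = 0 := by
    rw [mul_assoc y q q, lowTrace_mul hp rfl f fun h => hpq
      ((Nat.prime_dvd_prime_iff_eq hp hq).1 ((hp.dvd_mul.1 h).elim id id))]
    exact hf
  set F := raiseLin ((dvd_mul_right (y * p) q).trans (dvd_mul_right _ q)) f with hF
  have hF0 : lowTrace (y * q * q) p ⇑F = 0 := h0
  rw [FunLike.coe_sub, lowTrace_sub, hF0, coe_degen, lowTrace_smul, CuspForm.coe_heckeULin_apply,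
    slash_heckeU_diag, coe_raiseLin]
  suffices h : lowTrace (y * q * q) p (∑ i ∈ Finset.range q, ⇑F ∣[(2 : ℤ)] transQ q i) = 0 by
    rw [show (∑ i ∈ Finset.range q, ⇑f ∣[(2 : ℤ)] transQ q i) =
      ∑ i ∈ Finset.range q, ⇑F ∣[(2 : ℤ)] transQ q i from rfl, h, smul_zero, sub_zero]
  simp only [lowTrace, SlashAction.sum_slash]
  rw [Finset.sum_comm]
  refine Finset.sum_eq_zero fun i _ => ?_
  simp only [slash_transQ_lower hpy F hq.ne_zero i, ← SlashAction.sum_slash]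
  rw [show (∑ j : ZMod p, ⇑F ∣[(2 : ℤ)] lowerSL (((y * q * q : ℕ) : ℤ) * (j.val : ℤ))) =
    lowTrace (y * q * q) p ⇑F from rfl, hF0, SlashAction.zero_slash]

/-- Permutation of the lower unipotent cosets under `Γ₀(y)`, `p ∣ y`. -/
theorem lowTrace_invariant [NeZero p] (hp : p.Prime) (hpy : p ∣ y) (hN : y * p = N) (f : S2 N)
    {g : SL(2, ℤ)} (hg : g ∈ Gamma0 y) : lowTrace y p ⇑f ∣[(2 : ℤ)] g = lowTrace y p ⇑f := by
  have : Fact p.Prime := ⟨hp⟩
  obtain ⟨c, hc⟩ := mem_Gamma0_iff_dvd.1 hg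
  obtain ⟨z, hz⟩ := hpy
  have had : ((g 0 0 : ℤ) : ZMod p) * ((g 1 1 : ℤ) : ZMod p) = 1 := by
    have h := congrArg (Int.cast : ℤ → ZMod p) (det_SL_eq g)
    rw [hc, hz] at h
    push_cast at h
    simpa using h
  have ha : ((g 0 0 : ℤ) : ZMod p) * ((g 0 0 : ℤ) : ZMod p) ≠ 0 :=
    mul_self_ne_zero.2 (left_ne_zero_of_mul_eq_one had)
  let e : ZMod p ≃ ZMod p := (Equiv.mulLeft₀ _ ha).trans
    (Equiv.addRight (((g 0 0 : ℤ) : ZMod p) * (c : ZMod p)))
  unfold lowTrace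
  rw [SlashAction.sum_slash,
    ← e.sum_comp (fun k : ZMod p => ⇑f ∣[(2 : ℤ)] lowerSL ((y : ℤ) * k.val))]
  refine Finset.sum_congr rfl fun j _ => ?_
  set k := (e j).val with hk
  have hmem : lowerSL ((y : ℤ) * j.val) * g * (lowerSL ((y : ℤ) * k))⁻¹ ∈ Gamma0 N := by
    rw [mem_Gamma0_iff_dvd, ← hN]
    simp only [Matrix.SpecialLinearGroup.coe_mul, Matrix.SpecialLinearGroup.coe_inv,
      Matrix.adjugate_fin_two, Matrix.mul_apply, Fin.sum_univ_two]
    simp [-ZMod.natCast_val]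
    rw [show ((y : ℤ) * j.val * g 0 0 + g 1 0 + -(((y : ℤ) * j.val * g 0 1 + g 1 1) * ((y : ℤ) * k))) =
      (y : ℤ) * (j.val * g 0 0 + c - ((y : ℤ) * j.val * g 0 1 + g 1 1) * k) by rw [hc]; ring]
    refine mul_dvd_mul_left _ ((ZMod.intCast_zmod_eq_zero_iff_dvd _ _).1 ?_)
    rw [hk, hz]
    push_cast
    rw [ZMod.natCast_zmod_val, ZMod.natCast_zmod_val, ZMod.natCast_self]
    simp only [e, Equiv.trans_apply, Equiv.mulLeft₀_apply, Equiv.coe_addRight]
    linear_combination (-(j * ((g 0 0 : ℤ) : ZMod p)) - (c : ZMod p)) * had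
  rw [← SlashAction.slash_mul]
  conv_lhs => rw [show lowerSL ((y : ℤ) * j.val) * g =
    lowerSL ((y : ℤ) * j.val) * g * (lowerSL ((y : ℤ) * k))⁻¹ * lowerSL ((y : ℤ) * k) by simp,
    SlashAction.slash_mul, slash_eq_self f hmem]

theorem IsCuspidal.lowTrace [NeZero p] {φ : ℍ → ℂ} (h : IsCuspidal φ) :
    IsCuspidal (Newforms.lowTrace y p φ) :=
  IsCuspidal.sum _ fun _ _ => h.slash_SL _

/-- The trace as a linear map `S₂(y p) → S₂(y)` for `p ∣ y`. -/
def lowTraceLin [NeZero p] [NeZero y] (hp : p.Prime) (hpy : p ∣ y) (hN : y * p = N) :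
    S2 N →ₗ[ℂ] S2 y :=
  haveI : NeZero N := ⟨hN ▸ mul_ne_zero (NeZero.ne y) hp.ne_zero⟩
  { toFun := fun f => mkForm y (lowTrace y p ⇑f) (isCuspidal_coe f).lowTrace
      fun _ hg => lowTrace_invariant hp hpy hN f hg
    map_add' := fun f g => DFunLike.coe_injective (lowTrace_add ⇑f ⇑g)
    map_smul' := fun c f => DFunLike.coe_injective (by
      show lowTrace y p ⇑(c • f) = c • lowTrace y p ⇑f
      rw [FunLike.coe_smul, lowTrace_smul]) }

/-- The trace commutes with `T_l` for `l` prime to the level. -/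
theorem lowTrace_heckeT [NeZero p] (hp : p.Prime) (hpy : p ∣ y) (hN : y * p = N) {l : ℕ}
    (hl : l.Prime) (hlN : ¬ l ∣ N) (f : S2 N) :
    lowTrace y p (heckeT 2 l ⇑f) = heckeT 2 l (lowTrace y p ⇑f) := by
  have : NeZero l := ⟨hl.ne_zero⟩
  have : Fact p.Prime := ⟨hp⟩
  have hlp : ((l : ℕ) : ZMod p) ≠ 0 := by
    rw [Ne, ZMod.natCast_eq_zero_iff]
    exact fun h => hlN (((Nat.prime_dvd_prime_iff_eq hp hl).1 h) ▸ Dvd.intro_left y hN)
  have key : ∀ x : ZMod p × Option (ZMod l), ∃ x' : Option (ZMod l) × ZMod p,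
      ∃ g ∈ Gamma0 N, mapGL ℝ (lowerSL ((y : ℤ) * x.1.val)) * lRep l x.2 =
        mapGL ℝ g * (lRep l x'.1 * mapGL ℝ (lowerSL ((y : ℤ) * x'.2.val))) ∧
        ∀ A D : ℤ, ((lRep l x.2 : GL (Fin 2) ℝ) 0 0 = (A : ℝ)) → ((lRep l x.2 : GL (Fin 2) ℝ) 1 1 = (D : ℝ)) →
          x'.2 * (D : ZMod p) = x.1 * (A : ZMod p) := by
    rintro ⟨j, x⟩
    obtain ⟨A, B, D, hAD, hR⟩ : ∃ A B D : ℤ, A * D = l ∧
        (lRep l x : Matrix (Fin 2) (Fin 2) ℝ) = !![(A : ℝ), (B : ℝ); 0, (D : ℝ)] := by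
      cases x with
      | none => exact ⟨l, 0, 1, by simp, by simp [lRep, hl.ne_zero]⟩
      | some i => exact ⟨1, i.val, l, by simp, by simp [lRep, hl.ne_zero, -ZMod.natCast_val]⟩
    have hD : (D : ZMod p) ≠ 0 := by
      refine fun h => hlp ?_
      have := congrArg (Int.cast : ℤ → ZMod p) hAD
      push_cast at this
      rw [← this, h, mul_zero]
    set k : ZMod p := j * (A : ZMod p) / (D : ZMod p) with hk
    set X : ℤ := (y : ℤ) * j.val with hX
    set X' : ℤ := (y : ℤ) * k.val with hX'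
    have hc : (N : ℤ) ∣ X * A - X' * (X * B + D) := by
      rw [← hN, hX, hX', Nat.cast_mul, show (y : ℤ) * j.val * A - (y : ℤ) * k.val *
        ((y : ℤ) * j.val * B + D) = (y : ℤ) * (j.val * A - k.val * ((y : ℤ) * j.val * B + D)) by ring]
      refine mul_dvd_mul_left _ ((ZMod.intCast_zmod_eq_zero_iff_dvd _ _).1 ?_)
      obtain ⟨z, hz⟩ := hpy
      rw [hz]
      push_cast
      rw [ZMod.natCast_zmod_val, ZMod.natCast_zmod_val, ZMod.natCast_self, hk]
      simp [div_mul_cancel₀ _ hD]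
    have hdet : (A - B * X') * (X * B + D) - B * (X * A - X' * (X * B + D)) = l := by
      linear_combination hAD
    obtain ⟨x', g, hg, -, hxg⟩ := exists_lRep_decomp (N := N) hl _ _ _ _ hdet hc
    have hxg := hxg.resolve_left fun h => hlN h.1
    refine ⟨(x', k), g, hg, ?_, fun A' D' hA' hD' => ?_⟩
    · rw [← mul_assoc]
      refine Units.ext ?_
      rw [Units.val_mul (mapGL ℝ g * lRep l x'), hxg, Units.val_mul, hR]
      ext r s
      simp only [Matrix.mul_apply, Fin.sum_univ_two]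
      fin_cases r <;> fin_cases s <;> simp [hX, hX', -ZMod.natCast_val] <;> ring
    · rw [hR] at hA' hD'
      simp at hA' hD'
      subst hA' hD'
      exact div_mul_cancel₀ _ hD
  choose σ γ hγ hσ hk using key
  have hinj : Function.Injective σ := by
    rintro ⟨j, x⟩ ⟨j', x'⟩ h
    have h1 := hσ (j, x)
    have h2 := hσ (j', x')
    rw [h] at h1
    simp only at h1 h2
    have he : mapGL ℝ (lowerSL ((y : ℤ) * j.val)) * lRep l x =
        mapGL ℝ (γ (j, x) * (γ (j', x'))⁻¹) * (mapGL ℝ (lowerSL ((y : ℤ) * j'.val)) * lRep l x') := by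
      rw [h1, h2, map_mul, map_inv]
      simp [mul_assoc]
    obtain rfl : x = x' := lRep_inj hl
      (h := (lowerSL ((y : ℤ) * j.val))⁻¹ * (γ (j, x) * (γ (j', x'))⁻¹) * lowerSL ((y : ℤ) * j'.val))
      (by rw [map_mul, map_mul _ (lowerSL ((y : ℤ) * j.val))⁻¹, map_inv, mul_assoc, mul_assoc, ← he]
          simp)
    obtain ⟨A, D, hA, hD, hA0⟩ : ∃ A D : ℤ, ((lRep l x : GL (Fin 2) ℝ) 0 0 = (A : ℝ)) ∧
        ((lRep l x : GL (Fin 2) ℝ) 1 1 = (D : ℝ)) ∧ (A : ZMod p) ≠ 0 := by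
      cases x with
      | none => exact ⟨l, 1, by simp [lRep, hl.ne_zero], by simp [lRep, hl.ne_zero], by simpa using hlp⟩
      | some i => exact ⟨1, l, by simp [lRep, hl.ne_zero], by simp [lRep, hl.ne_zero], by simp⟩
    have e1 := hk (j, x) A D hA hD
    have e2 := hk (j', x) A D hA hD
    rw [h] at e1
    simp only at e1 e2
    rw [mul_right_cancel₀ hA0 (e1.symm.trans e2)]
  have hbij : Function.Bijective σ :=
    (Fintype.bijective_iff_injective_and_card σ).2 ⟨hinj, by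
      rw [Fintype.card_prod, Fintype.card_prod, mul_comm]⟩
  calc lowTrace y p (heckeT 2 l ⇑f)
      = ∑ x : Option (ZMod l) × ZMod p,
          (⇑f ∣[(2 : ℤ)] lRep l x.1) ∣[(2 : ℤ)] lowerSL ((y : ℤ) * x.2.val) := by
        rw [Fintype.sum_prod_type, Finset.sum_comm]
        simp only [lowTrace, heckeT_eq_sum_lRep, SlashAction.sum_slash]
    _ = ∑ x : ZMod p × Option (ZMod l),
          (⇑f ∣[(2 : ℤ)] lowerSL ((y : ℤ) * x.1.val)) ∣[(2 : ℤ)] lRep l x.2 := by
        rw [← (Equiv.ofBijective σ hbij).sum_comp]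
        refine Finset.sum_congr rfl fun x _ => ?_
        rw [Equiv.ofBijective_apply, slash_SL_eq, slash_SL_eq, ← SlashAction.slash_mul,
          ← SlashAction.slash_mul, hσ x, SlashAction.slash_mul _ (mapGL ℝ (γ x)), ← slash_SL_eq,
          slash_eq_self f (hγ x)]
    _ = heckeT 2 l (lowTrace y p ⇑f) := by
        rw [Fintype.sum_prod_type, Finset.sum_comm]
        simp only [lowTrace, heckeT_eq_sum_lRep, SlashAction.sum_slash]

/-- The trace of a newform to level `M/p` vanishes when `p² ∣ M`. -/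
theorem lowTrace_eq_zero_of_isNewformAt [NeZero p] [NeZero N] (hp : p.Prime) (hpy : p ∣ y)
    (hN : y * p = N) {f : S2 N} (hf : f.IsNewformAt p) : lowTrace y p ⇑f = 0 := by
  have : NeZero y := ⟨fun h => NeZero.ne N (by rw [← hN, h, zero_mul])⟩
  have hy : N / p = y := by rw [← hN, Nat.mul_div_cancel _ hp.pos]
  have h := map_eq_zero_of_not_occurs ⟨p, hN.symm⟩ hf.1 (hy ▸ hf.2.2) (lowTraceLin hp hpy hN)
    fun l hl hlN x => DFunLike.coe_injective (lowTrace_heckeT hp hpy hN hl hlN x)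
  exact congrArg DFunLike.coe h

end Fermat.Agent.Newforms
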