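import Fermat.Agent.Newforms.GammaFixed

/-!
The Atkin--Lehner main lemma: a form whose coefficients vanish at indices prime to a finite set of
primes is a sum of forms `g(pτ)`, `g` of level `N/p`, over the primes of the set dividing the level.
The proof averages in the group `SL(2, ℤ/N)`; no Petersson product is used.
-/

set_option autoImplicit false

noncomputable section

namespace Fermat.Agent.Newforms

open ModularFormClass ModularForm Matrix.SpecialLinearGroup CongruenceSubgroup UpperHalfPlane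
open Complex (exp)
open scoped MatrixGroups ModularForm Real

variable {N M p : ℕ}

theorem inH_one {g : SL(2, ℤ)} (h : (N : ℤ) ∣ g 0 1) : InH 1 N g := ⟨by simp, h⟩

/-- `f ↦ f|diag(1,N)`. -/
def toFixed (N : ℕ) [NeZero N] : S2 N →ₗ[ℂ] gammaFixed N where
  toFun f := ⟨⇑f ∣[(2 : ℤ)] heckeMatrix N 0, fun g hg =>
    slash_delta_invariant (one_mul N) (NeZero.ne N) f
      (inH_one ((ZMod.intCast_zmod_eq_zero_iff_dvd _ _).1 (Gamma_mem.1 hg).2.1))⟩
  map_add' f g := Subtype.ext (by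
    show (⇑f + ⇑g) ∣[(2 : ℤ)] heckeMatrix N 0 = _
    rw [SlashAction.add_slash]
    rfl)
  map_smul' c f := Subtype.ext (by
    show ⇑(c • f) ∣[(2 : ℤ)] heckeMatrix N 0 = c • (⇑f ∣[(2 : ℤ)] heckeMatrix N 0)
    rw [FunLike.coe_smul, ModularForm.smul_slash, σ_heckeMatrix]
    rfl)

theorem coe_toFixed [NeZero N] (f : S2 N) :
    ((toFixed N f : gammaFixed N) : ℍ → ℂ) = ⇑f ∣[(2 : ℤ)] heckeMatrix N 0 := rfl

theorem toFixed_injective [NeZero N] : Function.Injective (toFixed N) := by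
  intro f g h
  refine DFunLike.coe_injective ?_
  have h' := congrArg (fun φ : gammaFixed N => (φ : ℍ → ℂ) ∣[(2 : ℤ)] heckeDiagMatrix N) h
  simp only [coe_toFixed, ← SlashAction.slash_mul] at h'
  have hc : heckeMatrix N 0 * heckeDiagMatrix N = heckeDiagMatrix N * heckeMatrix N 0 := by
    ext i j
    fin_cases i <;> fin_cases j <;> simp [Matrix.mul_apply, Fin.sum_univ_two, NeZero.ne N]
  rwa [hc, SlashAction.slash_mul, SlashAction.slash_mul, slash_scalar N (NeZero.ne N),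
    slash_scalar N (NeZero.ne N)] at h'

theorem act_slash_eq_self [NeZero M] (u : S2 M) (ψ : gammaFixed N)
    (hψ : (ψ : ℍ → ℂ) = ⇑u ∣[(2 : ℤ)] heckeMatrix M 0) {g : SL(2, ℤ)} (hg : (M : ℤ) ∣ g 0 1) :
    act N g ψ = ψ :=
  Subtype.ext (by rw [coe_act, hψ, slash_delta_invariant (one_mul M) (NeZero.ne M) u (inH_one hg)])

theorem act_lowerSL_toFixed [NeZero N] (f : S2 N) (x : ℤ) :
    act N (lowerSL x) (toFixed N f) = toFixed N f :=
  act_slash_eq_self f _ rfl (by simp)

theorem heckeMatrix_mul_div (hMp : M * p = N) (hp : p ≠ 0) (hM : M ≠ 0) (j : ℕ) :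
    heckeMatrix N 0 * mapGL ℝ (upperSL ((M : ℤ) * j)) = heckeMatrix p j * heckeMatrix M 0 := by
  subst hMp
  have hN : M * p ≠ 0 := mul_ne_zero hM hp
  ext i k
  simp only [Units.val_mul, Matrix.mul_apply, Fin.sum_univ_two]
  fin_cases i <;> fin_cases k <;> simp [hp, hM, hN] <;> ring

theorem heckeMatrix_eq_mul (hMp : M * p = N) (hp : p ≠ 0) (hM : M ≠ 0) :
    heckeMatrix N 0 = heckeMatrix p 0 * heckeMatrix M 0 := by
  subst hMp
  have hN : M * p ≠ 0 := mul_ne_zero hM hp
  ext i k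
  simp only [Units.val_mul, Matrix.mul_apply, Fin.sum_univ_two]
  fin_cases i <;> fin_cases k <;> simp [hp, hM, hN] <;> ring

theorem heckeMatrix_zero_mul_omegaUp (hMp : M * p = N) (hp : p ≠ 0) (hM : M ≠ 0) :
    heckeMatrix M 0 * mapGL ℝ (omegaUp N p) = mapGL ℝ (omegaSL M p) * heckeMatrix M 0 := by
  have e : N / p = M := by rw [← hMp, Nat.mul_div_cancel _ (Nat.pos_of_ne_zero hp)]
  simp only [omegaUp, omegaSL, eOmega, e, map_mul]
  have hu : ∀ x : ℤ, heckeMatrix M 0 * mapGL ℝ (upperSL ((M : ℤ) * x)) =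
      mapGL ℝ (upperSL x) * heckeMatrix M 0 := fun x => by
    ext i k
    simp only [Units.val_mul, Matrix.mul_apply, Fin.sum_univ_two]
    fin_cases i <;> fin_cases k <;> simp [hM] <;> ring
  have hl : ∀ x : ℤ, heckeMatrix M 0 * mapGL ℝ (lowerSL x) =
      mapGL ℝ (lowerSL ((M : ℤ) * x)) * heckeMatrix M 0 := fun x => by
    ext i k
    simp only [Units.val_mul, Matrix.mul_apply, Fin.sum_univ_two]
    fin_cases i <;> fin_cases k <;> simp [hM] <;> ring
  rw [← mul_neg, show (M : ℤ) ^ 2 * invMod M p = (M : ℤ) * ((M : ℤ) * invMod M p) by ring,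
    ← mul_assoc, ← mul_assoc, hu, mul_assoc (mapGL ℝ (upperSL _)) (heckeMatrix M 0), hl,
    ← mul_assoc, mul_assoc _ (heckeMatrix M 0), hu, ← mul_assoc]

theorem avgT_toFixed [NeZero N] [NeZero p] (hMp : M * p = N) (hM : M ≠ 0) (f : S2 N) :
    ((avgT N p (toFixed N f) : gammaFixed N) : ℍ → ℂ) =
      (p : ℂ)⁻¹ • (heckeU 2 p ⇑f ∣[(2 : ℤ)] heckeMatrix M 0) := by
  have e : N / p = M := by rw [← hMp, Nat.mul_div_cancel _ (NeZero.pos p)]
  rw [avgT, LinearMap.smul_apply, Submodule.coe_smul, LinearMap.sum_apply, Submodule.coe_sum,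
    heckeU_eq_sum_lRep, SlashAction.sum_slash]
  congr 1
  refine Finset.sum_congr rfl fun j _ => ?_
  rw [coe_act, coe_toFixed, slash_SL_eq, ← SlashAction.slash_mul, e,
    heckeMatrix_mul_div hMp (NeZero.ne p) hM, SlashAction.slash_mul]
  rfl

/-- `projG` sends `f` to a form of level `N/p`. -/
theorem exists_projG_toFixed [NeZero N] [NeZero p] [NeZero M] (hp : p.Prime) (hMp : M * p = N)
    (f : S2 N) : ∃ u : S2 M,
      ((projG N p (toFixed N f) : gammaFixed N) : ℍ → ℂ) = ⇑u ∣[(2 : ℤ)] heckeMatrix M 0 := by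
  have e : N / p = M := by rw [← hMp, Nat.mul_div_cancel _ hp.pos]
  unfold projG
  by_cases hpM : p ∣ N / p
  · rw [if_pos hpM]
    refine ⟨(p : ℂ)⁻¹ • heckeULower hMp (e ▸ hpM) f, ?_⟩
    rw [avgT_toFixed hMp (NeZero.ne M), FunLike.coe_smul, ModularForm.smul_slash, σ_heckeMatrix]
    rfl
  · rw [if_neg hpM]
    refine ⟨((p : ℂ) + 1)⁻¹ • levelDown hMp hp (e ▸ hpM) f, ?_⟩
    rw [LinearMap.smul_apply, Submodule.coe_smul, LinearMap.add_apply, Submodule.coe_add,
      LinearMap.smul_apply, Submodule.coe_smul, avgT_toFixed hMp (NeZero.ne M), smul_smul,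
      mul_inv_cancel₀ (Nat.cast_ne_zero.2 hp.ne_zero), one_smul, coe_act, coe_toFixed, slash_SL_eq,
      ← SlashAction.slash_mul, FunLike.coe_smul, ModularForm.smul_slash, σ_heckeMatrix]
    congr 1
    show _ = (heckeU 2 p ⇑f + ⇑f ∣[(2 : ℤ)] wMat M p) ∣[(2 : ℤ)] heckeMatrix M 0
    rw [SlashAction.add_slash, ← SlashAction.slash_mul _ (wMat M p), wMat,
      heckeMatrix_eq_mul hMp hp.ne_zero (NeZero.ne M), mul_assoc (heckeMatrix p 0),
      heckeMatrix_zero_mul_omegaUp hMp hp.ne_zero (NeZero.ne M), mul_assoc (heckeMatrix p 0)]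

theorem slash_heckeMatrix_zero_eq_toFixed [NeZero N] (hp : p ≠ 0) (hM : M ≠ 0) (hMp : M * p = N)
    (u : S2 M) :
    ⇑u ∣[(2 : ℤ)] heckeMatrix M 0 =
      ((toFixed N ((p : ℂ) • degen p hMp.dvd u) : gammaFixed N) : ℍ → ℂ) := by
  rw [coe_toFixed, FunLike.coe_smul, coe_degen, smul_smul,
    mul_inv_cancel₀ (Nat.cast_ne_zero.2 hp), one_smul, heckeMatrix_eq_mul hMp hp hM,
    SlashAction.slash_mul, slash_scalar p hp]

theorem qParam_slash (τ : ℍ) [NeZero N] :
    Function.Periodic.qParam 1 ((heckeMatrix N 0 • τ : ℍ) : ℂ) =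
      Function.Periodic.qParam (N : ℝ) (τ : ℂ) := by
  rw [coe_heckeMatrix_smul (NeZero.ne N)]
  simp only [Function.Periodic.qParam]
  congr 1
  simp
  ring

theorem hasSum_toFixed [NeZero N] (f : S2 N) (τ : ℍ) :
    HasSum (fun n => (N : ℂ)⁻¹ * qCoeff f n * Function.Periodic.qParam (N : ℝ) (τ : ℂ) ^ n)
      ((toFixed N f : gammaFixed N).1 τ) := by
  rw [coe_toFixed, slash_heckeMatrix_apply 2 (NeZero.ne N)]
  simpa only [qParam_slash, mul_assoc] using
    (hasSum_qCoeff f (heckeMatrix N 0 • τ)).mul_left ((N : ℂ)⁻¹)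

theorem coe_upperSL_smul (x : ℤ) (τ : ℍ) : ((upperSL x • τ : ℍ) : ℂ) = (τ : ℂ) + x := by
  rw [UpperHalfPlane.coe_specialLinearGroup_apply]
  simp

theorem slash_upperSL_apply (x : ℤ) (φ : ℍ → ℂ) (τ : ℍ) :
    (φ ∣[(2 : ℤ)] upperSL x) τ = φ (upperSL x • τ) := by
  rw [ModularForm.SL_slash_apply]
  simp [denom]

theorem sum_zeta_pow [NeZero p] (hp : p.Prime) (n : ℕ) :
    ∑ j : ZMod p, exp (2 * π * Complex.I / p) ^ (n * j.val) = if p ∣ n then (p : ℂ) else 0 := by
  have hz := Complex.isPrimitiveRoot_exp p hp.ne_zero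
  rw [← sum_range_eq_sum_zmod_val p (fun j => exp (2 * π * Complex.I / p) ^ (n * j))]
  simp_rw [pow_mul]
  by_cases h : p ∣ n
  · simp [(hz.pow_eq_one_iff_dvd n).2 h, h]
  · have h1 : exp (2 * π * Complex.I / p) ^ n ≠ 1 := fun e => h ((hz.pow_eq_one_iff_dvd n).1 e)
    rw [geom_sum_eq h1, ← pow_mul, mul_comm n p, pow_mul, hz.pow_eq_one]
    simp [h]

theorem hasSum_avgT [NeZero N] [NeZero p] (hp : p.Prime) (hpN : p ∣ N) (φ : gammaFixed N)
    (c : ℕ → ℂ)
    (hφ : ∀ τ : ℍ, HasSum (fun n => c n * Function.Periodic.qParam (N : ℝ) (τ : ℂ) ^ n) (φ.1 τ))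
    (τ : ℍ) :
    HasSum (fun n => (if p ∣ n then c n else 0) * Function.Periodic.qParam (N : ℝ) (τ : ℂ) ^ n)
      ((avgT N p φ).1 τ) := by
  obtain ⟨M, rfl⟩ : ∃ M, N = M * p := ⟨N / p, (Nat.div_mul_cancel hpN).symm⟩
  have hM : (M : ℂ) ≠ 0 := Nat.cast_ne_zero.2 fun h => NeZero.ne (M * p) (by simp [h])
  have hpC : (p : ℂ) ≠ 0 := Nat.cast_ne_zero.2 hp.ne_zero
  have hq : ∀ j : ℕ, ∀ n : ℕ,
      Function.Periodic.qParam ((M * p : ℕ) : ℝ) ((upperSL ((M : ℤ) * j) • τ : ℍ) : ℂ) ^ n =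
        Function.Periodic.qParam ((M * p : ℕ) : ℝ) (τ : ℂ) ^ n * exp (2 * π * Complex.I / p) ^ (n * j) := by
    intro j n
    rw [coe_upperSL_smul, mul_comm n j, pow_mul, ← mul_pow]
    congr 1
    rw [Function.Periodic.qParam, Function.Periodic.qParam, ← Complex.exp_nat_mul, ← Complex.exp_add]
    congr 1
    push_cast
    field_simp
  have hsum := (hasSum_sum (s := (Finset.univ : Finset (ZMod p)))
    (fun j _ => hφ (upperSL ((M : ℤ) * j.val) • τ))).mul_left (p : ℂ)⁻¹
  have e : M * p / p = M := Nat.mul_div_cancel _ hp.pos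
  have hval : (avgT (M * p) p φ).1 τ =
      (p : ℂ)⁻¹ * ∑ j : ZMod p, φ.1 (upperSL ((M : ℤ) * j.val) • τ) := by
    rw [avgT, LinearMap.smul_apply, Submodule.coe_smul, LinearMap.sum_apply, Submodule.coe_sum,
      Pi.smul_apply, Finset.sum_apply, smul_eq_mul, e]
    simp only [coe_act, slash_upperSL_apply]
  rw [hval]
  refine hsum.congr_fun fun n => ?_
  simp only [hq]
  rw [← Finset.mul_sum, ← Finset.mul_sum, sum_zeta_pow hp]
  split_ifs with h
  · field_simp
  · simp

/-- The old space attached to a finite set of primes dividing the level. -/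
def oldAt (N : ℕ) [NeZero N] (p : ℕ) (hpN : p ∣ N) : Submodule ℂ (S2 N) :=
  LinearMap.range (degen (M := N / p) p (Nat.div_mul_cancel hpN).dvd)

/-- The Atkin--Lehner main lemma for primes dividing the level. -/
theorem main_lemma [NeZero N] (D : Finset ℕ) (hD : ∀ p ∈ D, p.Prime ∧ p ∣ N) (f : S2 N)
    (hf : ∀ n, (∀ p ∈ D, ¬ p ∣ n) → qCoeff f n = 0) :
    f ∈ D.attach.sup (fun p => oldAt N p.1 (hD p.1 p.2).2) := by
  classical
  set O := D.attach.sup (fun p => oldAt N p.1 (hD p.1 p.2).2) with hO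
  have hne : ∀ p ∈ D, NeZero p := fun p hp => ⟨(hD p hp).1.ne_zero⟩
  have hMne : ∀ p ∈ D, NeZero (N / p) := fun p hp =>
    ⟨fun h => NeZero.ne N (by rw [← Nat.div_mul_cancel (hD p hp).2, h, zero_mul])⟩
  -- the projectors send forms into the old space, and are idempotent there
  have hG : ∀ p (hp : p ∈ D) [NeZero p] (g : S2 N), ∃ g' ∈ O, (∀ n, ¬ p ∣ n → qCoeff g' n = 0) ∧
      projG N p (toFixed N g) = toFixed N g' ∧ projG N p (toFixed N g') = toFixed N g' := by
    intro p hp _ g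
    have := hMne p hp
    obtain ⟨hpp, hpN⟩ := hD p hp
    have hMp : N / p * p = N := Nat.div_mul_cancel hpN
    obtain ⟨u, hu⟩ := exists_projG_toFixed hpp hMp g
    have hu' := slash_heckeMatrix_zero_eq_toFixed hpp.ne_zero (NeZero.ne (N / p)) hMp u
    refine ⟨(p : ℂ) • degen p hMp.dvd u, ?_, fun n hn => ?_, Subtype.ext (hu.trans hu'),
      projG_eq_self hpp hpN ?_ ?_⟩
    · refine O.smul_mem _ (Finset.le_sup (f := fun q : D => oldAt N q.1 (hD q.1 q.2).2)
        (Finset.mem_attach D ⟨p, hp⟩) ?_)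
      exact LinearMap.mem_range_self _ u
    · rw [qCoeff_smul, qCoeff_degen, if_neg hn, mul_zero]
    · rw [avgT, LinearMap.smul_apply, LinearMap.sum_apply]
      rw [Finset.sum_congr rfl fun (j : ZMod p) _ =>
        act_slash_eq_self u _ hu'.symm (g := upperSL (((N / p : ℕ) : ℤ) * j.val))
          (by simpa using dvd_mul_right ((N / p : ℕ) : ℤ) _)]
      simp [hpp.ne_zero, ← Nat.cast_smul_eq_nsmul ℂ, smul_smul]
    · exact act_slash_eq_self u _ hu'.symm (by simp)
  -- (A) kill all the projectors modulo the old space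
  have hA : ∀ S ⊆ D, ∃ f' : S2 N, f - f' ∈ O ∧ (∀ n, (∀ p ∈ D, ¬ p ∣ n) → qCoeff f' n = 0) ∧
      ∀ p ∈ S, ∀ [NeZero p], projG N p (toFixed N f') = 0 := by
    intro S hS
    induction S using Finset.induction with
    | empty => exact ⟨f, by simp, hf, fun p hp => absurd hp (Finset.notMem_empty p)⟩
    | insert p S hpS ih =>
      obtain ⟨f', hO', hc, hz⟩ := ih fun q hq => hS (Finset.mem_insert_of_mem hq)
      have hpD : p ∈ D := hS (Finset.mem_insert_self p S)
      have := hne p hpD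
      obtain ⟨g', hg', hgc, hg1, hg2⟩ := hG p hpD f'
      refine ⟨f' - g', ?_, fun n hn => ?_, fun q hq _ => ?_⟩
      · rw [show f - (f' - g') = (f - f') + g' by abel]
        exact add_mem hO' hg'
      · rw [qCoeff_sub, hc n hn, hgc n (hn p hpD), sub_zero]
      · rw [map_sub, ← hg1, map_sub]
        rcases Finset.mem_insert.1 hq with rfl | hq'
        · rw [hg1, hg2, sub_self]
        · have hqD : q ∈ D := hS hq
          have hqp : q ≠ p := fun h => hpS (h ▸ hq')
          rw [hz q hq', ← Module.End.mul_apply, (projG_commute (hD q hqD).1 (hD p hpD).1 hqp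
            (hD q hqD).2 (hD p hpD).2).eq, Module.End.mul_apply, hz q hq', map_zero, sub_self]
  obtain ⟨f', hO', hc, hz⟩ := hA D subset_rfl
  suffices h0 : f' = 0 by simpa [h0] using hO'
  -- (B) sieve
  have hB : ∀ S ⊆ D, ∃ x : gammaFixed N, (x = 0 → f' = 0) ∧
      (∀ p ∈ D, p ∉ S → ∀ [NeZero p], projG N p x = 0 ∧ act N (lowerSL (eOmega N p)) x = x) ∧
      ∀ τ : ℍ, HasSum (fun n => (if ∀ p ∈ S, ¬ p ∣ n then (N : ℂ)⁻¹ * qCoeff f' n else 0) *
        Function.Periodic.qParam (N : ℝ) (τ : ℂ) ^ n) (x.1 τ) := by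
    intro S hS
    induction S using Finset.induction with
    | empty =>
      refine ⟨toFixed N f', fun h => toFixed_injective (by rw [h, map_zero]),
        fun p hp _ _ => ⟨hz p hp, act_lowerSL_toFixed f' _⟩, fun τ => ?_⟩
      simpa using hasSum_toFixed f' τ
    | insert p S hpS ih =>
      obtain ⟨x, hx0, hxP, hxs⟩ := ih fun q hq => hS (Finset.mem_insert_of_mem hq)
      have hpD : p ∈ D := hS (Finset.mem_insert_self p S)
      have := hne p hpD
      refine ⟨x - avgT N p x, fun h => hx0 ?_, fun q hqD hqS _ => ?_, fun τ => ?_⟩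
      · have hx : avgT N p x = x := (sub_eq_zero.1 h).symm
        obtain ⟨h1, h2⟩ := hxP p hpD hpS
        rw [← projG_eq_self (hD p hpD).1 (hD p hpD).2 hx h2, h1]
      · have hqp : q ≠ p := fun h => hqS (h ▸ Finset.mem_insert_self p S)
        obtain ⟨h1, h2⟩ := hxP q hqD fun h => hqS (Finset.mem_insert_of_mem h)
        constructor
        · rw [map_sub, h1, ← Module.End.mul_apply, ← (avgT_projG_commute (hD p hpD).1 (hD q hqD).1
            hqp.symm (hD p hpD).2 (hD q hqD).2).eq, Module.End.mul_apply, h1, map_zero, sub_zero]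
        · have hcomm := lower_commute_avgT (hD q hqD).1 (hD p hpD).1 hqp (hD q hqD).2 (hD p hpD).2
            (invMod (N / q) q)
          rw [map_sub, h2, ← Module.End.mul_apply, ← show avgT N p * act N (lowerSL (eOmega N q)) =
            act N (lowerSL (eOmega N q)) * avgT N p from hcomm.eq, Module.End.mul_apply, h2]
      · rw [Submodule.coe_sub, Pi.sub_apply]
        refine ((hxs τ).sub (hasSum_avgT (hD p hpD).1 (hD p hpD).2 x _ hxs τ)).congr_fun fun n => ?_
        simp only [Finset.forall_mem_insert]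
        by_cases hn : p ∣ n <;> simp [hn]
  obtain ⟨x, hx0, -, hxs⟩ := hB D subset_rfl
  refine hx0 (Subtype.ext (funext fun τ => (hxs τ).unique ?_))
  refine hasSum_zero.congr_fun fun n => ?_
  split_ifs with h
  · rw [hc n h, mul_zero, zero_mul]
  · rw [zero_mul]

end Fermat.Agent.Newforms
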