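import Fermat.Agent.Newforms.Basic

/-!
Matrix combinatorics for the degeneracy trace at a prime dividing the level exactly once.
-/

set_option autoImplicit false

noncomputable section

namespace Fermat.Agent.Newforms

open Matrix.SpecialLinearGroup CongruenceSubgroup
open scoped MatrixGroups ModularForm

theorem det_SL_eq (g : SL(2, ℤ)) : g 0 0 * g 1 1 - g 0 1 * g 1 0 = 1 := by
  have h := g.det_coe
  rwa [Matrix.det_fin_two] at h

/-- An element of `SL(2, ℤ)` from its entries. -/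
def mkSL (a b c d : ℤ) (h : a * d - b * c = 1) : SL(2, ℤ) :=
  ⟨!![a, b; c, d], by rw [Matrix.det_fin_two_of]; exact h⟩

@[simp] theorem coe_mkSL (a b c d : ℤ) (h : a * d - b * c = 1) :
    (mkSL a b c d h : Matrix (Fin 2) (Fin 2) ℤ) = !![a, b; c, d] := rfl

/-- `[[1, x], [0, 1]]`. -/
def upperSL (x : ℤ) : SL(2, ℤ) := ⟨!![1, x; 0, 1], by simp⟩

/-- `[[1, 0], [x, 1]]`. -/
def lowerSL (x : ℤ) : SL(2, ℤ) := ⟨!![1, 0; x, 1], by simp⟩

@[simp] theorem coe_upperSL (x : ℤ) :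
    (upperSL x : Matrix (Fin 2) (Fin 2) ℤ) = !![1, x; 0, 1] := rfl

@[simp] theorem coe_lowerSL (x : ℤ) :
    (lowerSL x : Matrix (Fin 2) (Fin 2) ℤ) = !![1, 0; x, 1] := rfl

theorem upperSL_mem_Gamma0 (N : ℕ) (x : ℤ) : upperSL x ∈ Gamma0 N :=
  mem_Gamma0_iff_dvd.2 (dvd_zero _)

theorem upperSL_mul (x y : ℤ) : upperSL x * upperSL y = upperSL (x + y) := by
  ext i j
  fin_cases i <;> fin_cases j <;>
    simp [coe_mul, Matrix.mul_apply, Fin.sum_univ_two, add_comm]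

theorem lowerSL_mul (x y : ℤ) : lowerSL x * lowerSL y = lowerSL (x + y) := by
  ext i j
  fin_cases i <;> fin_cases j <;>
    simp [coe_mul, Matrix.mul_apply, Fin.sum_univ_two]

/-- An integer inverse of `M` modulo `q`. -/
def invMod (M q : ℕ) : ℤ := ((M : ZMod q)⁻¹).val

theorem mul_invMod {M q : ℕ} (hq : q.Prime) (hqM : ¬ q ∣ M) :
    (((M : ℤ) * invMod M q : ℤ) : ZMod q) = 1 := by
  have : Fact q.Prime := ⟨hq⟩
  have hM : (M : ZMod q) ≠ 0 := by rwa [Ne, ZMod.natCast_eq_zero_iff]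
  simp [invMod, hM]

/-- An element of `Γ₀(M)` whose upper left entry is divisible by `q`. -/
def omegaSL (M q : ℕ) : SL(2, ℤ) :=
  upperSL (-invMod M q) * lowerSL ((M : ℤ) ^ 2 * invMod M q) * upperSL (-invMod M q)

theorem omegaSL_entries (M q : ℕ) :
    omegaSL M q 0 0 = 1 - ((M : ℤ) * invMod M q) ^ 2 ∧
    omegaSL M q 1 0 = (M : ℤ) ^ 2 * invMod M q := by
  constructor <;>
    simp [omegaSL, coe_mul, Matrix.mul_apply, Fin.sum_univ_two] <;> ring

theorem omegaSL_mem (M q : ℕ) : omegaSL M q ∈ Gamma0 M :=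
  mem_Gamma0_iff_dvd.2 ⟨(M : ℤ) * invMod M q, by rw [(omegaSL_entries M q).2]; ring⟩

theorem omegaSL_zero_zero {M q : ℕ} (hq : q.Prime) (hqM : ¬ q ∣ M) :
    (q : ℤ) ∣ omegaSL M q 0 0 := by
  rw [← ZMod.intCast_zmod_eq_zero_iff_dvd, (omegaSL_entries M q).1, Int.cast_sub, Int.cast_pow,
    mul_invMod hq hqM]
  simp

/-- The subgroup `Γ₀(M) ∩ Γ⁰(q)`, as a predicate. -/
def InH (M q : ℕ) (g : SL(2, ℤ)) : Prop := (M : ℤ) ∣ g 1 0 ∧ (q : ℤ) ∣ g 0 1

theorem InH.mul {M q : ℕ} {g g' : SL(2, ℤ)} (h : InH M q g) (h' : InH M q g') :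
    InH M q (g * g') := by
  constructor <;> simp only [coe_mul, Matrix.mul_apply, Fin.sum_univ_two]
  · exact dvd_add (h.1.mul_right _) (h'.1.mul_left _)
  · exact dvd_add (h'.2.mul_left _) (h.2.mul_right _)

theorem InH.inv {M q : ℕ} {g : SL(2, ℤ)} (h : InH M q g) : InH M q g⁻¹ := by
  constructor <;> simp [Matrix.SpecialLinearGroup.SL2_inv_expl]
  · exact h.1
  · exact h.2

/-- Coset representatives of `Γ₀(M) ∩ Γ⁰(q)` in `Γ₀(M)`. -/
def hRep (M q : ℕ) : Option (ZMod q) → SL(2, ℤ)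
  | none => omegaSL M q
  | some j => upperSL j.val

theorem hRep_mem (M q : ℕ) (x : Option (ZMod q)) : hRep M q x ∈ Gamma0 M := by
  cases x with
  | none => exact omegaSL_mem M q
  | some j => exact upperSL_mem_Gamma0 M _

theorem mul_inv_01 (g r : SL(2, ℤ)) : (g * r⁻¹) 0 1 = g 0 1 * r 0 0 - g 0 0 * r 0 1 := by
  simp [coe_mul, coe_inv, Matrix.adjugate_fin_two, Matrix.mul_apply, Fin.sum_univ_two]
  ring

theorem exists_hRep {M q : ℕ} (hq : q.Prime) (hqM : ¬ q ∣ M) {g : SL(2, ℤ)} (hg : g ∈ Gamma0 M) :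
    ∃ x, InH M q (g * (hRep M q x)⁻¹) := by
  have : Fact q.Prime := ⟨hq⟩
  have hM : ∀ x, (M : ℤ) ∣ (g * (hRep M q x)⁻¹) 1 0 := fun x =>
    mem_Gamma0_iff_dvd.1 (mul_mem hg (inv_mem (hRep_mem M q x)))
  by_cases ha : ((g 0 0 : ℤ) : ZMod q) = 0
  · refine ⟨none, hM _, ?_⟩
    rw [mul_inv_01]
    exact dvd_sub ((omegaSL_zero_zero hq hqM).mul_left _)
      (((ZMod.intCast_zmod_eq_zero_iff_dvd _ _).1 ha).mul_right _)
  · refine ⟨some (((g 0 1 : ℤ) : ZMod q) / ((g 0 0 : ℤ) : ZMod q)), hM _, ?_⟩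
    rw [mul_inv_01, ← ZMod.intCast_zmod_eq_zero_iff_dvd]
    simp [hRep, mul_div_cancel₀ _ ha]

theorem hRep_unique {M q : ℕ} (hq : q.Prime) (hqM : ¬ q ∣ M) {x y : Option (ZMod q)}
    (h : InH M q (hRep M q x * (hRep M q y)⁻¹)) : x = y := by
  have : Fact q.Prime := ⟨hq⟩
  have h00 : ((omegaSL M q 0 0 : ℤ) : ZMod q) = 0 :=
    (ZMod.intCast_zmod_eq_zero_iff_dvd _ _).2 (omegaSL_zero_zero hq hqM)
  have h01 : ((omegaSL M q 0 1 : ℤ) : ZMod q) ≠ 0 := by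
    intro h0
    have := congrArg (Int.cast : ℤ → ZMod q) (det_SL_eq (omegaSL M q))
    push_cast at this
    rw [h00, h0] at this
    simp at this
  have h' := (ZMod.intCast_zmod_eq_zero_iff_dvd _ _).2 h.2
  rw [mul_inv_01] at h'
  push_cast at h'
  cases x <;> cases y <;> simp [hRep, h00] at h'
  · rfl
  · exact absurd h' h01
  · exact absurd h' h01
  · rename_i i j
    rw [sub_eq_zero.1 h']

/-- Summing the translates of an `Γ₀(M) ∩ Γ⁰(q)`-invariant function gives a `Γ₀(M)`-invariant one. -/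
theorem sum_hRep_invariant {M q : ℕ} [NeZero q] (hq : q.Prime) (hqM : ¬ q ∣ M)
    (φ : UpperHalfPlane → ℂ)
    (hφ : ∀ g, InH M q g → φ ∣[(2 : ℤ)] g = φ) {g : SL(2, ℤ)} (hg : g ∈ Gamma0 M) :
    (∑ x : Option (ZMod q), φ ∣[(2 : ℤ)] hRep M q x) ∣[(2 : ℤ)] g =
      ∑ x : Option (ZMod q), φ ∣[(2 : ℤ)] hRep M q x := by
  have hσ := fun x => exists_hRep hq hqM (mul_mem (hRep_mem M q x) hg)
  choose σ hσ using hσ
  have hinj : Function.Injective σ := fun x y hxy => by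
    refine hRep_unique hq hqM ?_
    have h := (hσ x).mul (hσ y).inv
    rw [hxy] at h
    simpa [mul_assoc] using h
  rw [SlashAction.sum_slash]
  rw [← (Equiv.ofBijective σ (Finite.injective_iff_bijective.1 hinj)).sum_comp
    (fun x => φ ∣[(2 : ℤ)] hRep M q x)]
  refine Finset.sum_congr rfl fun x _ => ?_
  rw [← SlashAction.slash_mul, Equiv.ofBijective_apply]
  conv_lhs => rw [show hRep M q x * g = (hRep M q x * g * (hRep M q (σ x))⁻¹) * hRep M q (σ x) by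
    simp, SlashAction.slash_mul, hφ _ (hσ x)]

/-- A function invariant under `Γ₀(M) ∩ Γ⁰(q)` and under `τ ↦ τ + 1` is `Γ₀(M)`-invariant. -/
theorem invariant_of_upperSL {M q : ℕ} (hq : q.Prime) (hqM : ¬ q ∣ M)
    (φ : UpperHalfPlane → ℂ)
    (hφ : ∀ g, InH M q g → φ ∣[(2 : ℤ)] g = φ)
    (hT : ∀ x : ℤ, φ ∣[(2 : ℤ)] upperSL x = φ) {g : SL(2, ℤ)} (hg : g ∈ Gamma0 M) :
    φ ∣[(2 : ℤ)] g = φ := by
  have hL : InH M q (lowerSL ((M : ℤ) ^ 2 * invMod M q)) :=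
    ⟨⟨(M : ℤ) * invMod M q, by simp; ring⟩, by simp⟩
  have hr : ∀ x, φ ∣[(2 : ℤ)] hRep M q x = φ := by
    rintro (_ | j)
    · simp only [hRep, omegaSL, SlashAction.slash_mul, hT, hφ _ hL]
    · exact hT _
  obtain ⟨x, hx⟩ := exists_hRep hq hqM hg
  rw [show g = g * (hRep M q x)⁻¹ * hRep M q x by simp, SlashAction.slash_mul, hφ _ hx, hr]

end Fermat.Agent.Newforms
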