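import Fermat.Agent.Newforms.Degeneracy
import Fermat.Agent.Eigen.Bound

/-!
`S₂(Γ₀(M q)) = (q-old forms) ⊕ (q-new forms)` for a prime `q ∤ M`, from `‖a_q‖ < q + 1`.
-/

set_option autoImplicit false

noncomputable section

namespace Fermat.Agent.Newforms

open ModularFormClass ModularForm Matrix.SpecialLinearGroup CongruenceSubgroup UpperHalfPlane
open scoped MatrixGroups ModularForm

variable {N M q : ℕ} [NeZero N] [NeZero M]

/-- The `q`-old subspace of level `N = M q`. -/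
def oldSpaceAt (hN : M * q = N) : Submodule ℂ (S2 N) :=
  LinearMap.range (raiseLin (M := M) ⟨q, hN.symm⟩) ⊔ LinearMap.range (degen q hN.dvd)

omit [NeZero M] in
theorem atkinLehner_raiseLin (hN : M * q = N) (hq : q.Prime) (hqM : ¬ q ∣ M) (A : S2 M) :
    atkinLehner hN hq hqM (raiseLin ⟨q, hN.symm⟩ A) = (q : ℂ) • degen q hN.dvd A := by
  refine DFunLike.coe_injective ?_
  obtain ⟨g, hg, hge⟩ : ∃ g ∈ Gamma0 M, wMat M q = mapGL ℝ g * heckeDiagMatrix q := by
    obtain ⟨a, ha⟩ := omegaSL_zero_zero hq hqM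
    have hdet := det_SL_eq (omegaSL M q)
    rw [ha] at hdet
    obtain ⟨e, he⟩ := mem_Gamma0_iff_dvd.1 (omegaSL_mem M q)
    refine ⟨mkSL a (omegaSL M q 0 1) (omegaSL M q 1 0) ((q : ℤ) * omegaSL M q 1 1)
      (by linear_combination hdet), mem_Gamma0_iff_dvd.2 ⟨e, he⟩, ?_⟩
    have ha' : ((omegaSL M q 0 0 : ℤ) : ℝ) = (q : ℝ) * a := by exact_mod_cast ha
    ext i j
    simp only [wMat, Units.val_mul, Matrix.mul_apply, Fin.sum_univ_two]
    fin_cases i <;> fin_cases j <;> simp [hq.ne_zero, ha'] <;> ring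
  rw [coe_atkinLehner, coe_raiseLin, hge, SlashAction.slash_mul, ← slash_SL_eq, slash_eq_self A hg,
    FunLike.coe_smul, coe_degen, smul_smul, mul_inv_cancel₀ (Nat.cast_ne_zero.2 hq.ne_zero),
    one_smul]

omit [NeZero M] in
theorem atkinLehner_degen (hN : M * q = N) (hq : q.Prime) (hqM : ¬ q ∣ M) (A : S2 M) :
    atkinLehner hN hq hqM (degen q hN.dvd A) = (q : ℂ)⁻¹ • raiseLin ⟨q, hN.symm⟩ A := by
  have h := congrArg (fun x => (q : ℂ)⁻¹ • atkinLehner hN hq hqM x) (atkinLehner_raiseLin hN hq hqM A)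
  simp only [atkinLehner_atkinLehner, map_smul, smul_smul,
    inv_mul_cancel₀ (Nat.cast_ne_zero.2 hq.ne_zero : (q : ℂ) ≠ 0), one_smul] at h
  exact h.symm

theorem levelDown_raiseLin (hN : M * q = N) (hq : q.Prime) (hqM : ¬ q ∣ M) (A : S2 M) :
    levelDown hN hq hqM (raiseLin ⟨q, hN.symm⟩ A) = CuspForm.heckeTLin 2 hq hqM A := by
  refine raiseLin_injective ⟨q, hN.symm⟩ ?_
  rw [raiseLin_levelDown, atkinLehner_raiseLin]
  refine DFunLike.coe_injective ?_
  rw [FunLike.coe_add, FunLike.coe_smul, coe_degen, smul_smul,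
    mul_inv_cancel₀ (Nat.cast_ne_zero.2 hq.ne_zero), one_smul, coe_raiseLin,
    CuspForm.coe_heckeTLin_apply, heckeT_eq_heckeU_add]
  rfl

theorem levelDown_degen (hN : M * q = N) (hq : q.Prime) (hqM : ¬ q ∣ M) (A : S2 M) :
    levelDown hN hq hqM (degen q hN.dvd A) = (1 + (q : ℂ)⁻¹) • A := by
  refine raiseLin_injective ⟨q, hN.symm⟩ ?_
  rw [raiseLin_levelDown, atkinLehner_degen, map_smul, add_smul, one_smul]
  congr 1
  refine ext_qCoeff fun n => ?_
  rw [qCoeff_heckeULin, qCoeff_degen, if_pos (dvd_mul_left q n), Nat.mul_div_cancel _ hq.pos,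
    coe_raiseLin]

/-- `T_q` has no eigenvalue of absolute value `≥ q + 1`. -/
theorem heckeTLin_apply_ne (hq : q.Prime) (hqM : ¬ q ∣ M) {A : S2 M} (hA : A ≠ 0) {c : ℂ}
    (hc : (q : ℝ) + 1 ≤ ‖c‖) : CuspForm.heckeTLin 2 hq hqM A ≠ c • A := by
  intro h
  rw [← opAll_of_not_dvd hq hqM] at h
  have hstab : ∀ l, ∀ x ∈ Module.End.eigenspace (opAll M ⟨q, hq⟩) c,
      opAll M l x ∈ Module.End.eigenspace (opAll M ⟨q, hq⟩) c := fun l x hx => by
    rw [Module.End.mem_eigenspace_iff] at hx ⊢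
    exact (LinearMap.congr_fun (opAll_commute ⟨q, hq⟩ l).eq x).trans
      ((congrArg (opAll M l) hx).trans (map_smul _ _ _))
  obtain ⟨g, hg, hge⟩ := exists_isNormalizedEigenform_mem _ hstab
    ((Submodule.ne_bot_iff _).2 ⟨A, Module.End.mem_eigenspace_iff.2 h, hA⟩)
  have h1 := (opAll_apply_of_isNormalizedEigenform hge ⟨q, hq⟩).symm.trans
    (Module.End.mem_eigenspace_iff.1 hg)
  have h2 := congrArg (fun x : S2 M => qCoeff x 1) h1
  simp only [qCoeff_smul, hge.qCoeff_one, mul_one] at h2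
  have := Eigen.norm_qCoeff_lt hge hq hqM
  rw [h2] at this
  exact not_lt.2 hc this

/-- `T_q` on level `M`, as an endomorphism. -/
def tEnd (hq : q.Prime) (hqM : ¬ q ∣ M) : Module.End ℂ (S2 M) :=
  CuspForm.heckeTLin 2 hq hqM

/-- The Gram operator of the two degeneracy maps is bijective. -/
theorem heckeTLin_sq_sub_bijective (hq : q.Prime) (hqM : ¬ q ∣ M) :
    Function.Bijective ⇑(tEnd hq hqM * tEnd hq hqM -
      ((q : ℂ) + 1) ^ 2 • (1 : Module.End ℂ (S2 M))) := by
  set T := tEnd hq hqM with hT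
  have hinj : Function.Injective ⇑(T * T - ((q : ℂ) + 1) ^ 2 • (1 : Module.End ℂ (S2 M))) := by
    rw [injective_iff_map_eq_zero]
    intro A hA
    simp only [LinearMap.sub_apply, Module.End.mul_apply, LinearMap.smul_apply,
      Module.End.one_apply, sub_eq_zero] at hA
    by_contra h0
    have hn : (q : ℝ) + 1 ≤ ‖(q : ℂ) + 1‖ := by
      rw [show (q : ℂ) + 1 = ((q + 1 : ℕ) : ℂ) by push_cast; rfl, Complex.norm_natCast]
      push_cast
      exact le_rfl
    by_cases h1 : T A - ((q : ℂ) + 1) • A = 0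
    · exact heckeTLin_apply_ne hq hqM h0 hn (sub_eq_zero.1 h1)
    · refine heckeTLin_apply_ne hq hqM h1 (c := -((q : ℂ) + 1)) (by rwa [norm_neg]) ?_
      show T (T A - ((q : ℂ) + 1) • A) = _
      rw [map_sub, map_smul, hA]
      module
  exact ⟨hinj, LinearMap.injective_iff_surjective.1 hinj⟩

/-- Level `M q` is the direct sum of the `q`-old and `q`-new subspaces. -/
theorem isCompl_oldSpaceAt_newSpaceAt (hN : M * q = N) (hq : q.Prime) (hqM : ¬ q ∣ M) :
    IsCompl (oldSpaceAt hN) (newSpaceAt hN hq hqM) := by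
  set T := tEnd hq hqM with hT
  obtain ⟨hinj, hsurj⟩ := heckeTLin_sq_sub_bijective hq hqM
  have hq0 : (q : ℂ) ≠ 0 := Nat.cast_ne_zero.2 hq.ne_zero
  have hq1 : (q : ℂ) + 1 ≠ 0 := by exact_mod_cast Nat.succ_ne_zero q
  have e1 : ∀ A B, levelDown hN hq hqM (raiseLin ⟨q, hN.symm⟩ A + degen q hN.dvd B) =
      T A + (1 + (q : ℂ)⁻¹) • B := fun A B => by
    rw [map_add, levelDown_raiseLin, levelDown_degen]; rfl
  have e2 : ∀ A B, levelDown hN hq hqM (atkinLehner hN hq hqM
      (raiseLin ⟨q, hN.symm⟩ A + degen q hN.dvd B)) = ((q : ℂ) + 1) • A + (q : ℂ)⁻¹ • T B :=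
      fun A B => by
    rw [map_add, atkinLehner_raiseLin, atkinLehner_degen, map_add, map_smul, map_smul,
      levelDown_raiseLin, levelDown_degen, smul_smul, mul_add, mul_one, mul_inv_cancel₀ hq0]
    rfl
  refine ⟨disjoint_iff.2 ((Submodule.eq_bot_iff _).2 ?_), codisjoint_iff.2 ?_⟩
  · rintro x ⟨hxo, hxn⟩
    obtain ⟨_, ⟨A, rfl⟩, _, ⟨B, rfl⟩, rfl⟩ := Submodule.mem_sup.1 hxo
    obtain ⟨h1, h2⟩ := (mem_newSpaceAt hN hq hqM).1 hxn
    rw [e1] at h1
    rw [e2] at h2
    have hA : A = 0 := hinj <| by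
      have h1' := congrArg T h1
      rw [map_add, map_smul, map_zero] at h1'
      simp only [LinearMap.sub_apply, Module.End.mul_apply, LinearMap.smul_apply,
        Module.End.one_apply, map_zero]
      have h3 : T (T A) - ((q : ℂ) + 1) ^ 2 • A =
          (T (T A) + (1 + (q : ℂ)⁻¹) • T B) - ((q : ℂ) + 1) • (((q : ℂ) + 1) • A + (q : ℂ)⁻¹ • T B) := by
        match_scalars <;> field_simp <;> ring
      rw [h3, h1', h2, smul_zero, sub_zero]
    subst hA
    simp only [map_zero, zero_add] at h1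
    have h4 : (1 : ℂ) + (q : ℂ)⁻¹ ≠ 0 := by
      rw [show (1 : ℂ) + (q : ℂ)⁻¹ = ((q : ℂ) + 1) * (q : ℂ)⁻¹ by field_simp]
      exact mul_ne_zero hq1 (inv_ne_zero hq0)
    rw [(smul_eq_zero.1 h1).resolve_left h4, map_zero, map_zero, add_zero]
  · rw [Submodule.eq_top_iff']
    intro f
    set u := levelDown hN hq hqM f
    set v := levelDown hN hq hqM (atkinLehner hN hq hqM f)
    obtain ⟨A, hA⟩ := hsurj (T u - ((q : ℂ) + 1) • v)
    simp only [LinearMap.sub_apply, Module.End.mul_apply, LinearMap.smul_apply,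
      Module.End.one_apply] at hA
    set B := ((q : ℂ) / ((q : ℂ) + 1)) • (u - T A) with hB
    set o := raiseLin ⟨q, hN.symm⟩ A + degen q hN.dvd B with ho
    refine Submodule.mem_sup.2 ⟨o, ?_, f - o, ?_, add_sub_cancel o f⟩
    · exact Submodule.add_mem_sup (LinearMap.mem_range_self _ A) (LinearMap.mem_range_self _ B)
    · rw [mem_newSpaceAt, map_sub, map_sub, map_sub, ho, e1, e2, hB]
      constructor
      · show u - _ = 0
        match_scalars <;> field_simp <;> ring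
      · show v - _ = 0
        rw [map_smul, map_sub]
        have hTT : T (T A) = T u - ((q : ℂ) + 1) • v + ((q : ℂ) + 1) ^ 2 • A := by rw [← hA]; abel
        rw [hTT]
        match_scalars <;> field_simp <;> ring

end Fermat.Agent.Newforms
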